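import Fermat.Agent.PicScheme.Curve.Basic
import Fermat.Agent.PicScheme.Interface

/-!
# The charts of a frame near a rational point
-/

set_option autoImplicit false
set_option linter.style.haveILetI false

noncomputable section

universe u

open CategoryTheory AlgebraicGeometry NeronModelInfra

namespace FLTAgent.PicScheme

set_option maxHeartbeats 800000 in
/-- The local rings of a smooth curve are valuation rings. -/
theorem dvd_or_dvd_stalk {k : Type u} [Field k] {Y : Scheme.{u}}
    (f : Y ⟶ Spec (CommRingCat.of k)) [SmoothOfRelativeDimension 1 f] [IsIntegral Y] (z : Y)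
    (x y : Y.presheaf.stalk z) : x ∣ y ∨ y ∣ x := by
  obtain ⟨V, hV, hz, φ, hC, hφ⟩ := AV.Var.exists_chart f 1 z
  haveI : Nonempty V := ⟨⟨z, hz⟩⟩
  letI : Algebra k Γ(Y, V) := (AV.Var.baseHom f V).toAlgebra
  letI : Algebra (MvPolynomial (Fin 1) k) Γ(Y, V) := φ.toAlgebra
  haveI : Algebra.Etale (MvPolynomial (Fin 1) k) Γ(Y, V) := hφ
  haveI : IsScalarTower k (MvPolynomial (Fin 1) k) Γ(Y, V) :=
    IsScalarTower.of_algebraMap_eq fun a => (RingHom.congr_fun hC a).symm
  set q := (hV.primeIdealOf ⟨z, hz⟩).asIdeal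
  letI : Algebra Γ(Y, V) (Y.presheaf.stalk z) := (Y.presheaf.germ V z hz).hom.toAlgebra
  haveI : IsLocalization.AtPrime (Y.presheaf.stalk z) q := hV.isLocalization_stalk ⟨z, hz⟩
  haveI : IsDomain (Γ(Y, V) ⧸ q) := Ideal.Quotient.isDomain q
  let L := FractionRing (Γ(Y, V) ⧸ q)
  let ψ : Γ(Y, V) →ₐ[k] L :=
    (IsScalarTower.toAlgHom k (Γ(Y, V) ⧸ q) L).comp (Ideal.Quotient.mkₐ k q)
  have hker : q = RingHom.ker ψ := by
    ext s
    exact Ideal.Quotient.eq_zero_iff_mem.symm.trans
      (map_eq_zero_iff (algebraMap (Γ(Y, V) ⧸ q) L) (IsFractionRing.injective _ L)).symm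
  let e := IsLocalization.algEquiv q.primeCompl (Localization.AtPrime q) (Y.presheaf.stalk z)
  have h := AV.Chart.valuationRing_localization (K := k) 1 ψ (m := 0) le_rfl (by simp) q hker
    (e.symm x) (e.symm y)
  simpa using h.imp (map_dvd e) (map_dvd e)

/-- A domain with total divisibility at a finitely generated prime has a local generator. -/
theorem exists_local_generator {B : Type u} [CommRing B] [IsDomain B] (m : Ideal B) [m.IsPrime]
    (hfg : m.FG)
    (htot : ∀ x y : B, ∃ s ∉ m, ∃ c, s * x = c * y ∨ s * y = c * x) :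
    ∃ t ∈ m, ∃ s ∉ m, ∀ b ∈ m, ∃ c, s * b = c * t := by
  classical
  obtain ⟨G, rfl⟩ := hfg
  suffices h : ∀ T : Finset B, T ⊆ G → ∃ t ∈ Ideal.span (G : Set B), ∃ s ∉ Ideal.span (G : Set B),
      ∀ b ∈ Ideal.span (T : Set B), ∃ c, s * b = c * t from h G subset_rfl
  intro T
  induction T using Finset.induction with
  | empty =>
    intro _
    refine ⟨0, zero_mem _, 1, (Ideal.ne_top_iff_one _).1 (Ideal.IsPrime.ne_top ‹_›), fun b hb => ?_⟩
    rw [Finset.coe_empty, Ideal.span_empty, Ideal.mem_bot] at hb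
    exact ⟨0, by simp [hb]⟩
  | insert a T ha ih =>
    intro hT
    obtain ⟨t, ht, s, hs, hb⟩ := ih fun x hx => hT (Finset.mem_insert_of_mem hx)
    have haG : a ∈ Ideal.span (G : Set B) := Ideal.subset_span (hT (Finset.mem_insert_self _ _))
    obtain ⟨s', hs', c, hc⟩ := htot a t
    rcases hc with hc | hc
    · refine ⟨t, ht, s * s', fun h => ((Ideal.IsPrime.mem_or_mem ‹_› h)).elim hs hs', fun b hb' => ?_⟩
      rw [Finset.coe_insert, Ideal.mem_span_insert] at hb'
      obtain ⟨r, w, hw, rfl⟩ := hb'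
      obtain ⟨d, hd⟩ := hb w hw
      exact ⟨r * s * c + s' * d, by linear_combination r * s * hc + s' * hd⟩
    · refine ⟨a, haG, s * s', fun h => ((Ideal.IsPrime.mem_or_mem ‹_› h)).elim hs hs', fun b hb' => ?_⟩
      rw [Finset.coe_insert, Ideal.mem_span_insert] at hb'
      obtain ⟨r, w, hw, rfl⟩ := hb'
      obtain ⟨d, hd⟩ := hb w hw
      exact ⟨r * s * s' + d * c, by linear_combination s' * hd + d * hc⟩

section Chart

variable {k : Type u} [Field k] {C : Scheme.{u}} (c : C ⟶ Spec (CommRingCat.of k))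
  [SmoothOfRelativeDimension 1 c] [IsIntegral C] {B : Type u} [CommRing B] [Algebra k B]

theorem isDomain_of_chart (j : SchemeHomOver (specT k B) c) (hj : IsOpenImmersion j.1)
    (χ : B →ₐ[k] k) : IsDomain B := by
  haveI := hj
  haveI : Nonempty (Spec (CommRingCat.of B)) :=
    ⟨⟨RingHom.ker χ.toRingHom, RingHom.ker_isPrime _⟩⟩
  haveI : IsIntegral (Spec (CommRingCat.of B)) := isIntegral_of_isOpenImmersion j.1
  exact (affine_isIntegral_iff (CommRingCat.of B)).1 inferInstance

theorem smooth_chart (j : SchemeHomOver (specT k B) c) (hj : IsOpenImmersion j.1) :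
    SmoothOfRelativeDimension 1 (specT k B) := by
  haveI := hj
  rw [← j.2]
  exact (inferInstance : SmoothOfRelativeDimension (0 + 1) (j.1 ≫ c))

/-- A uniformiser at a rational point of a chart. -/
theorem exists_uniformizer_point (j : SchemeHomOver (specT k B) c) (hj : IsOpenImmersion j.1)
    (hfin : IsNoetherianRing B) (χ : B →ₐ[k] k) :
    ∃ t, χ t = 0 ∧ ∃ s, χ s ≠ 0 ∧ ∀ b, χ b = 0 → ∃ c, s * b = c * t := by
  haveI := hfin
  haveI := isDomain_of_chart c j hj χ
  haveI := smooth_chart c j hj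
  let m : Ideal B := RingHom.ker χ.toRingHom
  haveI : m.IsPrime := RingHom.ker_isPrime _
  let z : Spec (CommRingCat.of B) := ⟨m, inferInstance⟩
  haveI : IsIntegral (Spec (CommRingCat.of B)) := by
    haveI : Nonempty (Spec (CommRingCat.of B)) := ⟨z⟩
    haveI := hj
    exact isIntegral_of_isOpenImmersion j.1
  set O := (Spec (CommRingCat.of B)).presheaf.stalk z
  letI : Algebra B O := StructureSheaf.stalkAlgebra B z
  haveI : IsLocalization.AtPrime O m := StructureSheaf.IsLocalization.to_stalk B z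
  have htot : ∀ x y : B, ∃ s ∉ m, ∃ c, s * x = c * y ∨ s * y = c * x := by
    intro x y
    have key : ∀ x y : B, algebraMap B O x ∣ algebraMap B O y →
        ∃ s ∉ m, ∃ c, s * y = c * x := by
      rintro x y ⟨q, hq⟩
      obtain ⟨⟨c, w⟩, hw⟩ := IsLocalization.surj m.primeCompl q
      obtain ⟨r, hr⟩ := (IsLocalization.eq_iff_exists m.primeCompl O).1
        (show algebraMap B O (↑w * y) = algebraMap B O (c * x) by
          rw [map_mul, map_mul, hq, ← hw]; ring)
      refine ⟨r * w, fun h => (Ideal.IsPrime.mem_or_mem ‹_› h).elim r.2 w.2, r * c, ?_⟩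
      linear_combination hr
    rcases dvd_or_dvd_stalk (specT k B) z (algebraMap B O x) (algebraMap B O y) with h | h
    · obtain ⟨s, hs, c, hc⟩ := key x y h
      exact ⟨s, hs, c, Or.inr hc⟩
    · obtain ⟨s, hs, c, hc⟩ := key y x h
      exact ⟨s, hs, c, Or.inl hc⟩
  obtain ⟨t, ht, s, hs, hb⟩ := exists_local_generator m (IsNoetherian.noetherian m) htot
  exact ⟨t, ht, s, hs, hb⟩

end Chart

/-- A chart finite over a polynomial ring is noetherian. -/
theorem isNoetherianRing_of_finite {k : Type u} [Field k] {B : Type u} [CommRing B] [Algebra k B]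
    {f : B} (h : RingHom.Finite (Polynomial.aeval (R := k) f).toRingHom) : IsNoetherianRing B := by
  letI := (Polynomial.aeval (R := k) f).toRingHom.toAlgebra
  haveI : Module.Finite (Polynomial k) B := h
  haveI := Algebra.FiniteType.isNoetherianRing (Polynomial k) B
  exact this

end FLTAgent.PicScheme
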