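import Fermat.Agent.PicScheme.Tensor
import Fermat.Agent.PicScheme.Degree.Fixed

/-!
# Contraction of a product with an invertible ideal into the first factor
-/

set_option autoImplicit false

noncomputable section

universe u

open Matrix

namespace FLTAgent.PicScheme

open Degree

variable {R S : Type u} [CommRing R] [CommRing S] {n m : ℕ}

/-- A rank one idempotent cutting out an invertible ideal generated by the entries of `q`. -/
structure IdealData (f : Matrix (Fin m) (Fin m) R) (q : Fin m → R) : Prop where
  cut : q ᵥ* f = q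
  rel : ∀ i j l, f i j * q l = f i l * q j
  regular : ∃ l, ∀ x, q l * x = 0 → x = 0

theorem IdealData.map_cut {f : Matrix (Fin m) (Fin m) R} {q : Fin m → R} (h : q ᵥ* f = q)
    (φ : R →+* S) : (φ ∘ q) ᵥ* f.map φ = φ ∘ q :=
  funext fun i => ((RingHom.map_vecMul φ f q i).symm).trans (congrArg φ (congrFun h i))

/-- `Σ j, q j * w (i, j)`. -/
def contract (q : Fin m → R) : (Fin (n * m) → R) →ₗ[R] (Fin n → R) where
  toFun w i := ∑ j, q j * w (finProdFinEquiv (i, j))
  map_add' v w := funext fun i => by simp [mul_add, Finset.sum_add_distrib]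
  map_smul' c w := funext fun i => by simp [Finset.mul_sum, mul_left_comm]

theorem contract_apply (q : Fin m → R) (w : Fin (n * m) → R) (i : Fin n) :
    contract q w i = ∑ j, q j * w (finProdFinEquiv (i, j)) := rfl

theorem contract_map (φ : R →+* S) (q : Fin m → R) (w : Fin (n * m) → R) :
    contract (φ ∘ q) (φ ∘ w) = φ ∘ contract q w :=
  funext fun i => by simp [contract_apply, map_sum]

theorem kr_mulVec_apply {a b c d : ℕ} (M : Matrix (Fin a) (Fin b) R) (N : Matrix (Fin c) (Fin d) R)
    (w : Fin (b * d) → R) (i : Fin a) (j : Fin c) :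
    (kr M N *ᵥ w) (finProdFinEquiv (i, j)) =
      ∑ x, ∑ y, M i x * N j y * w (finProdFinEquiv (x, y)) := by
  rw [Matrix.mulVec, dotProduct, ← finProdFinEquiv.sum_comp, Fintype.sum_prod_type]
  simp only [kr_apply]

theorem contract_kr {a c : ℕ} (M : Matrix (Fin a) (Fin n) R) (N : Matrix (Fin c) (Fin m) R)
    (q : Fin m → R) (q' : Fin c → R) (h : q' ᵥ* N = q) (w : Fin (n * m) → R) :
    contract q' (kr M N *ᵥ w) = M *ᵥ contract q w := by
  funext i
  rw [contract_apply]
  simp only [kr_mulVec_apply]
  rw [Matrix.mulVec, dotProduct]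
  simp only [contract_apply, Finset.mul_sum]
  rw [Finset.sum_comm]
  refine Finset.sum_congr rfl fun x _ => ?_
  rw [Finset.sum_comm]
  refine Finset.sum_congr rfl fun y _ => ?_
  rw [show q y = ∑ j, q' j * N j y from (congrFun h y).symm, Finset.sum_mul, Finset.mul_sum]
  exact Finset.sum_congr rfl fun j _ => by ring

variable {A : Type u} [CommRing A] [Algebra A R]

/-- Contraction on fixed vectors. -/
def contractFixed {e : Matrix (Fin n) (Fin n) R} {f : Matrix (Fin m) (Fin m) R} {q : Fin m → R}
    (h : q ᵥ* f = q) : fixed A (kr e f) →ₗ[A] fixed A e :=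
  ((contract q).restrictScalars A ∘ₗ (fixed A (kr e f)).subtype).codRestrict _ fun w => by
    rw [mem_fixed]
    show e *ᵥ contract q (w : Fin (n * m) → R) = contract q (w : Fin (n * m) → R)
    rw [← contract_kr e f q q h, mem_fixed.1 w.2]

theorem contractFixed_coe {e : Matrix (Fin n) (Fin n) R} {f : Matrix (Fin m) (Fin m) R}
    {q : Fin m → R} (h : q ᵥ* f = q) (w : fixed A (kr e f)) :
    (contractFixed h w : Fin n → R) = contract q (w : Fin (n * m) → R) := rfl

theorem contractFixed_injective {e : Matrix (Fin n) (Fin n) R} {f : Matrix (Fin m) (Fin m) R}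
    {q : Fin m → R} (hd : IdealData f q) :
    Function.Injective (contractFixed (A := A) (e := e) hd.cut) := by
  refine (injective_iff_map_eq_zero _).2 fun w hw => Subtype.ext (funext fun z => ?_)
  obtain ⟨l, hl⟩ := hd.regular
  obtain ⟨⟨i, j⟩, rfl⟩ := finProdFinEquiv.surjective z
  refine hl _ ?_
  have h0 : contract q (w : Fin (n * m) → R) = 0 := congrArg Subtype.val hw
  calc q l * (w : Fin (n * m) → R) (finProdFinEquiv (i, j))
      = q l * (kr e f *ᵥ (w : Fin (n * m) → R)) (finProdFinEquiv (i, j)) := by
        rw [mem_fixed.1 w.2]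
    _ = f j l * (e *ᵥ contract q (w : Fin (n * m) → R)) i := by
        rw [kr_mulVec_apply, Matrix.mulVec, dotProduct]
        simp only [contract_apply, Finset.mul_sum]
        refine Finset.sum_congr rfl fun x _ => Finset.sum_congr rfl fun y _ => ?_
        linear_combination
          (e i x * (w : Fin (n * m) → R) (finProdFinEquiv (x, y))) * hd.rel j y l
    _ = 0 := by rw [h0, Matrix.mulVec_zero, Pi.zero_apply, mul_zero]

theorem mem_range_contractFixed {e : Matrix (Fin n) (Fin n) R} {f : Matrix (Fin m) (Fin m) R}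
    {q : Fin m → R} (he : e * e = e) (hf : f * f = f) (h : q ᵥ* f = q) (s : fixed A e) :
    s ∈ LinearMap.range (contractFixed (A := A) (e := e) h) ↔
      ∀ i, (s : Fin n → R) i ∈ Ideal.span (Set.range q) := by
  constructor
  · rintro ⟨w, rfl⟩ i
    rw [contractFixed_coe, contract_apply]
    exact Ideal.sum_mem _ fun j _ => Ideal.mul_mem_right _ _ (Ideal.subset_span ⟨j, rfl⟩)
  · intro hs
    choose c hc using fun i => Ideal.mem_span_range_iff_exists_fun.1 (hs i)
    refine ⟨toFixed A (by rw [kr_mul, he, hf]) fun z => c (finProdFinEquiv.symm z).1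
      (finProdFinEquiv.symm z).2, Subtype.ext ?_⟩
    rw [contractFixed_coe, toFixed_coe, contract_kr e f q q h]
    refine Eq.trans (congrArg (e *ᵥ ·) (funext fun i => ?_)) (mem_fixed.1 s.2)
    rw [contract_apply, ← hc i]
    exact Finset.sum_congr rfl fun j _ => by simp [mul_comm]

/-- Over a field the fixed vectors of a rank one idempotent form a line. -/
theorem finrank_fixed_eq_one {K : Type u} [Field K] {e : Matrix (Fin n) (Fin n) K}
    (h : IsRankOne e) : Module.finrank K (fixed K e) = 1 := by
  obtain ⟨i, -, hi⟩ : ∃ i ∈ Finset.univ, e i i ≠ 0 :=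
    Finset.exists_ne_zero_of_sum_ne_zero (by
      show e.trace ≠ 0
      rw [h.trace]; exact one_ne_zero)
  have hcol : (fun l => e l i) ∈ fixed K e := by
    rw [mem_fixed]
    funext l
    exact congrFun (congrFun h.idem l) i
  refine finrank_eq_one (⟨_, hcol⟩ : fixed K e) (fun h0 => hi (congrFun (congrArg Subtype.val h0) i))
    fun w => ⟨(∑ j, e i j * (w : Fin n → K) j) / e i i, Subtype.ext (funext fun l => ?_)⟩
  show (∑ j, e i j * (w : Fin n → K) j) / e i i * e l i = (w : Fin n → K) l
  conv_rhs => rw [← mem_fixed.1 w.2]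
  rw [Matrix.mulVec, dotProduct, div_mul_eq_mul_div, div_eq_iff hi, Finset.sum_mul, Finset.sum_mul]
  refine Finset.sum_congr rfl fun j _ => ?_
  linear_combination (w : Fin n → K) j * h.minors i j l i

/-- Extending scalars of the coefficients. -/
theorem map_range_span {T : Type u} [CommRing T] (φ : R →+* T) (q : Fin m → R) :
    (Ideal.span (Set.range q)).map φ = Ideal.span (Set.range (φ ∘ q)) := by
  rw [Ideal.map_span, ← Set.range_comp]

/-- Evaluation on fixed vectors. -/
def evalFixed {e : Matrix (Fin n) (Fin n) R} {K : Type u} [Field K] [Algebra K R]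
    (ρ : R →ₐ[K] K) : fixed K e →ₗ[K] fixed K (e.map ρ) where
  toFun s := ⟨ρ ∘ (s : Fin n → R), by
    rw [mem_fixed]
    refine funext fun i => (RingHom.map_mulVec ρ.toRingHom e _ i).symm.trans ?_
    exact congrArg ρ (congrFun (mem_fixed.1 s.2) i)⟩
  map_add' s t := Subtype.ext (funext fun i => map_add ρ _ _)
  map_smul' c s := Subtype.ext (funext fun i => map_smul ρ c _)

/-- The vectors with entries in the ideal of a point have codimension one. -/
theorem finrank_quotient_contractFixed {K : Type u} [Field K] [Algebra K R]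
    {e : Matrix (Fin n) (Fin n) R} {f : Matrix (Fin m) (Fin m) R} {q : Fin m → R}
    (he : IsRankOne e) (hf : f * f = f) (h : q ᵥ* f = q) (ρ : R →ₐ[K] K)
    (hker : ∀ x, x ∈ Ideal.span (Set.range q) ↔ ρ x = 0) :
    Module.Finite K (fixed K e ⧸ LinearMap.range (contractFixed (A := K) (e := e) h)) ∧
    Module.finrank K (fixed K e ⧸ LinearMap.range (contractFixed (A := K) (e := e) h)) = 1 := by
  have hk : LinearMap.range (contractFixed (A := K) (e := e) h) =
      LinearMap.ker (evalFixed (e := e) ρ) := by
    ext s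
    rw [mem_range_contractFixed he.idem hf h, LinearMap.mem_ker]
    exact ⟨fun hs => Subtype.ext (funext fun i => (hker _).1 (hs i)),
      fun hs i => (hker _).2 (congrFun (congrArg Subtype.val hs) i)⟩
  have hs : Function.Surjective (evalFixed (e := e) ρ) := by
    intro t
    refine ⟨toFixed K he.idem fun i => algebraMap K R ((t : Fin n → K) i), Subtype.ext ?_⟩
    show ρ ∘ (e *ᵥ fun i => algebraMap K R ((t : Fin n → K) i)) = _
    refine (funext fun i => RingHom.map_mulVec ρ.toRingHom e _ i).trans ?_
    rw [show (ρ.toRingHom ∘ fun i => algebraMap K R ((t : Fin n → K) i)) = (t : Fin n → K) from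
      funext fun i => ρ.commutes _]
    exact t.2
  let E := (Submodule.quotEquivOfEq _ _ hk).trans
    ((evalFixed (e := e) ρ).quotKerEquivOfSurjective hs)
  have h1 := finrank_fixed_eq_one (Datum.IsRankOne.map ρ.toRingHom he)
  haveI : Module.Finite K (fixed K (e.map ρ)) :=
    Module.finite_of_finrank_pos (h1.symm ▸ one_pos)
  exact ⟨Module.Finite.equiv E.symm, E.finrank_eq.trans h1⟩

end FLTAgent.PicScheme
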