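import Fermat.Agent.PicScheme.Bridge
import Fermat.Agent.PicScheme.Degree.Chi

/-!
# The complex of a datum has finite kernel and cokernel
-/

set_option autoImplicit false
set_option linter.style.haveILetI false

noncomputable section

universe u

namespace FLTAgent.PicScheme

variable {k : Type u} [Field k] {X : Charts k} {A : Type u} [CommRing A] [Algebra k A]
  [IsNoetherianRing A]

/-- Over a noetherian ring of coefficients kernel and cokernel are finite. -/
theorem hasFiniteComplex : Degree.HasFiniteComplex X A := by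
  intro L
  have hX := X.isFree
  obtain ⟨i1, i2⟩ := PolyChart.image_finite_projective (A := A) hX.1 L.rank₁.idem
  obtain ⟨i3, i4⟩ := PolyChart.image_finite_projective (A := A) hX.2 L.rank₂.idem
  set T := L.twoTerm hX
  refine ⟨?_, ?_⟩
  · obtain ⟨G₀, hG₀, hb₀⟩ := T.exists_fg_bound
    obtain ⟨G₁, hG₁, hb₁⟩ := T.swap.exists_fg_bound
    let i : LinearMap.ker T.δ →ₗ[A] G₀.prod G₁ :=
      (LinearMap.ker T.δ).subtype.codRestrict _ fun h =>
        ⟨hb₀ _ h.2, hb₁ (h.1.2, h.1.1) (T.swap.mem_ker.2 (T.mem_ker.1 h.2).symm)⟩
    haveI : Module.Finite A (LinearMap.ker T.δ) :=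
      haveI : IsNoetherian A (G₀.prod G₁) := isNoetherian_of_fg_of_noetherian _ (hG₀.prod hG₁)
      Module.Finite.of_injective i fun x y hxy => Subtype.ext (congrArg Subtype.val hxy :)
    exact Module.Finite.equiv ((L.kerEquiv hX).trans (Degree.kerEquiv L).symm)
  · haveI := L.finite_coker hX
    have h : ((LinearMap.range L.delta).comap L.overlap.subtype).map
        (LinearEquiv.ofEq _ _ (Degree.overlap_eq_fixed L) : L.overlap →ₗ[A] _) =
        LinearMap.range (Degree.dlt L) := by
      ext z
      rw [Submodule.mem_map_equiv, Submodule.mem_comap]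
      exact (Degree.mem_range_delta L z).symm
    exact Module.Finite.equiv
      (Submodule.Quotient.equiv _ _ (LinearEquiv.ofEq _ _ (Degree.overlap_eq_fixed L)) h)

end FLTAgent.PicScheme
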