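import Fermat.Agent.PicScheme.Points.Euler
import Fermat.Agent.PicScheme.Points.Finite
import Fermat.Agent.PicScheme.Points.Contract

/-!
# Twisting by a rational point of the overlap lowers the Euler characteristic by one
-/

set_option autoImplicit false
set_option linter.style.haveILetI false

noncomputable section

universe u

open Matrix TensorProduct

namespace FLTAgent.PicScheme

open Degree

variable {k : Type u} [Field k] {X : Charts k}

/-- The ideal of a rational point of the overlap, as a datum over the ground field. -/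
structure PtData (X : Charts k) (P : X.B₀ →ₐ[k] k) where
  n₁ : ℕ
  n₂ : ℕ
  f₁ : Matrix (Fin n₁) (Fin n₁) X.B₁
  f₂ : Matrix (Fin n₂) (Fin n₂) X.B₂
  u : Matrix (Fin n₂) (Fin n₁) X.B₀
  v : Matrix (Fin n₁) (Fin n₂) X.B₀
  rank₁ : IsRankOne f₁
  rank₂ : IsRankOne f₂
  uv : u * v = f₂.map X.ι₂
  vu : v * u = f₁.map X.ι₁
  u_cut : u * f₁.map X.ι₁ = u
  v_cut : v * f₂.map X.ι₂ = v
  q₁ : Fin n₁ → X.B₁
  q₂ : Fin n₂ → X.B₂
  cut₁ : q₁ ᵥ* f₁ = q₁
  cut₂ : q₂ ᵥ* f₂ = q₂
  rel₁ : ∀ i j l, f₁ i j * q₁ l = f₁ i l * q₁ j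
  rel₂ : ∀ i j l, f₂ i j * q₂ l = f₂ i l * q₂ j
  regular₁ : ∃ l, ∀ x, q₁ l * x = 0 → x = 0
  regular₂ : ∃ l, ∀ x, q₂ l * x = 0 → x = 0
  span₁ : ∀ x, x ∈ Ideal.span (Set.range q₁) ↔ P (X.ι₁ x) = 0
  span₂ : ∀ x, x ∈ Ideal.span (Set.range q₂) ↔ P (X.ι₂ x) = 0
  compat : (X.ι₂ ∘ q₂) ᵥ* u = X.ι₁ ∘ q₁

variable (A : Type u) [CommRing A] [Algebra k A]

/-- Constants in a chart over `A`. -/
def incl (B : Type u) [CommRing B] [Algebra k B] : B →ₐ[k] A ⊗[k] B :=
  Algebra.TensorProduct.includeRight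

theorem res₁_incl (x : X.B₁) : X.res₁ A (incl A X.B₁ x) = incl A X.B₀ (X.ι₁ x) := by
  simp [Charts.res₁, incl]

theorem res₂_incl (x : X.B₂) : X.res₂ A (incl A X.B₂ x) = incl A X.B₀ (X.ι₂ x) := by
  simp [Charts.res₂, incl]

variable {P : X.B₀ →ₐ[k] k}

/-- The ideal of the point over `A`. -/
def PtData.base (D : PtData X P) : Datum X A where
  n₁ := D.n₁
  n₂ := D.n₂
  e₁ := D.f₁.map (incl A X.B₁)
  e₂ := D.f₂.map (incl A X.B₂)
  u := D.u.map (incl A X.B₀)
  v := D.v.map (incl A X.B₀)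
  rank₁ := Datum.IsRankOne.map (incl A X.B₁).toRingHom D.rank₁
  rank₂ := Datum.IsRankOne.map (incl A X.B₂).toRingHom D.rank₂
  uv := by
    rw [← Matrix.map_mul, D.uv, Matrix.map_map, Matrix.map_map]
    exact Matrix.ext fun i j => (res₂_incl A _).symm
  vu := by
    rw [← Matrix.map_mul, D.vu, Matrix.map_map, Matrix.map_map]
    exact Matrix.ext fun i j => (res₁_incl A _).symm
  u_cut := by
    conv_rhs => rw [← D.u_cut, Matrix.map_mul]
    congr 1
  v_cut := by
    conv_rhs => rw [← D.v_cut, Matrix.map_mul]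
    congr 1

theorem PtData.map_base (D : PtData X P) {A' : Type u} [CommRing A'] [Algebra k A']
    (φ : A →ₐ[k] A') : (D.base A).map φ = D.base A' := by
  have h : ∀ (B : Type u) [CommRing B] [Algebra k B] {a b : ℕ} (M : Matrix (Fin a) (Fin b) B),
      (M.map (incl A B)).map (Datum.chartMap B φ) = M.map (incl A' B) := fun B _ _ a b M => by
    rw [Matrix.map_map]
    exact Matrix.ext fun i j => by simp [incl, Datum.chartMap]
  simp only [Datum.map, PtData.base, h]

variable {A}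

theorem mem_span_incl {B : Type u} [CommRing B] [Algebra k B] {m : ℕ} (χ : B →ₐ[k] k)
    (q : Fin m → B) (hq : ∀ x, x ∈ Ideal.span (Set.range q) ↔ χ x = 0) (x : A ⊗[k] B) :
    x ∈ Ideal.span (Set.range ((incl A B : B →ₐ[k] A ⊗[k] B) ∘ q)) ↔
      Algebra.TensorProduct.lift (AlgHom.id A A) ((Algebra.ofId k A).comp χ)
        (fun _ _ => Commute.all _ _) x = 0 := by
  set ρ := Algebra.TensorProduct.lift (AlgHom.id A A) ((Algebra.ofId k A).comp χ)
        (fun _ _ => Commute.all _ _)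
  have hsp : ∀ b : B, χ b = 0 → (incl A B b : A ⊗[k] B) ∈ Ideal.span (Set.range ((incl A B : B →ₐ[k] A ⊗[k] B) ∘ q)) := fun b hb => by
    have := Ideal.mem_map_of_mem (incl A B : B →ₐ[k] A ⊗[k] B).toRingHom ((hq b).2 hb)
    rwa [map_range_span] at this
  have hdec : ∀ y, y - ρ y ⊗ₜ[k] (1 : B) ∈ Ideal.span (Set.range ((incl A B : B →ₐ[k] A ⊗[k] B) ∘ q)) := by
    intro y
    induction y using TensorProduct.induction_on with
    | zero => simp
    | tmul a b =>
      have h1 : ρ (a ⊗ₜ b) = χ b • a := by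
        simp [ρ, Algebra.smul_def, mul_comm, Algebra.ofId_apply]
      have h2 : a ⊗ₜ[k] b - ρ (a ⊗ₜ b) ⊗ₜ[k] (1 : B) =
          (a ⊗ₜ[k] (1 : B)) * incl A B (b - algebraMap k B (χ b)) := by
        simp [incl, mul_sub, TensorProduct.tmul_sub, h1, Algebra.algebraMap_eq_smul_one,
          TensorProduct.smul_tmul, Algebra.TensorProduct.tmul_mul_tmul]
      rw [h2]
      exact Ideal.mul_mem_left _ _ (hsp _ (by simp))
    | add y z hy hz =>
      rw [map_add, TensorProduct.add_tmul, add_sub_add_comm]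
      exact add_mem hy hz
  constructor
  · intro hx
    have : Ideal.span (Set.range ((incl A B : B →ₐ[k] A ⊗[k] B) ∘ q)) ≤ RingHom.ker ρ := by
      rw [Ideal.span_le]
      rintro _ ⟨j, rfl⟩
      simp [ρ, incl, (hq (q j)).1 (Ideal.subset_span ⟨j, rfl⟩)]
    exact this hx
  · intro hx
    simpa [hx] using hdec x

theorem incl_regular {B : Type u} [CommRing B] [Algebra k B] {b : B} (hb : ∀ x, b * x = 0 → x = 0)
    (z : A ⊗[k] B) (hz : incl A B b * z = 0) : z = 0 := by
  have h : Function.Injective ((LinearMap.mulLeft k b).lTensor A) :=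
    Module.Flat.lTensor_preserves_injective_linearMap _
      ((injective_iff_map_eq_zero _).2 fun x hx => hb x hx)
  refine h ?_
  rw [map_zero, ← hz]
  clear hz
  induction z using TensorProduct.induction_on with
  | zero => simp
  | tmul a x => simp [incl]
  | add y w hy hw => rw [map_add, hy, hw, mul_add]

variable (A) in
theorem PtData.idealData₁ (D : PtData X P) :
    IdealData (D.base A).e₁ (incl A X.B₁ ∘ D.q₁) where
  cut := IdealData.map_cut D.cut₁ (incl A X.B₁).toRingHom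
  rel i j l := by
    show incl A X.B₁ _ * incl A X.B₁ _ = incl A X.B₁ _ * incl A X.B₁ _
    rw [← map_mul, D.rel₁ i j l, map_mul]
  regular := D.regular₁.imp fun l hl z hz => incl_regular hl z hz

variable (A) in
theorem PtData.idealData₂ (D : PtData X P) :
    IdealData (D.base A).e₂ (incl A X.B₂ ∘ D.q₂) where
  cut := IdealData.map_cut D.cut₂ (incl A X.B₂).toRingHom
  rel i j l := by
    show incl A X.B₂ _ * incl A X.B₂ _ = incl A X.B₂ _ * incl A X.B₂ _
    rw [← map_mul, D.rel₂ i j l, map_mul]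
  regular := D.regular₂.imp fun l hl z hz => incl_regular hl z hz

variable (A) in
theorem PtData.idealData₀ (D : PtData X P) :
    IdealData ((D.base A).e₂.map (X.res₂ A)) (X.res₂ A ∘ incl A X.B₂ ∘ D.q₂) where
  cut := IdealData.map_cut (D.idealData₂ A).cut (X.res₂ A).toRingHom
  rel i j l := by
    simp only [Matrix.map_apply, Function.comp_apply]
    rw [← map_mul, ← map_mul]
    exact congrArg (X.res₂ A) ((D.idealData₂ A).rel i j l)
  regular := by
    obtain ⟨l, hl⟩ := (D.idealData₂ A).regular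
    refine ⟨l, fun x hx => ?_⟩
    obtain ⟨N, y, hy⟩ := X.exists_res₂ A x
    have h1 : X.res₂ A ((incl A X.B₂ ∘ D.q₂) l * y) = 0 := by
      rw [map_mul, ← hy, mul_left_comm]
      exact mul_eq_zero_of_right _ hx
    rw [← map_zero (X.res₂ A)] at h1
    have h2 := hl y (X.res₂_injective A X.isFree h1)
    rw [h2, map_zero] at hy
    calc x = (X.t₀ A * X.s₀ A) ^ N * x := by rw [X.t₀_mul_s₀, one_pow, one_mul]
      _ = 0 := by rw [mul_pow, mul_assoc, hy, mul_zero]

theorem PtData.span₀ (D : PtData X P) (z : X.B₀) :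
    z ∈ Ideal.span (Set.range (X.ι₂ ∘ D.q₂)) ↔ P z = 0 := by
  constructor
  · intro hz
    have : Ideal.span (Set.range (X.ι₂ ∘ D.q₂)) ≤ RingHom.ker P := by
      rw [Ideal.span_le]
      rintro _ ⟨j, rfl⟩
      exact (D.span₂ _).1 (Ideal.subset_span ⟨j, rfl⟩)
    exact this hz
  · intro hz
    letI := X.ι₂.toRingHom.toAlgebra
    haveI := X.away₂
    obtain ⟨⟨b, ⟨_, N, rfl⟩⟩, hb⟩ := IsLocalization.surj (Submonoid.powers X.g) z
    change z * X.ι₂ (X.g ^ N) = X.ι₂ b at hb
    have h1 : X.ι₂ b ∈ Ideal.span (Set.range (X.ι₂ ∘ D.q₂)) := by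
      have := Ideal.mem_map_of_mem X.ι₂.toRingHom
        ((D.span₂ b).2 (by rw [← hb, map_mul, hz, zero_mul]))
      rwa [map_range_span] at this
    have h2 : z = X.ι₂ b * X.ι₁ X.f ^ N := by
      rw [← hb, map_pow, mul_assoc, ← mul_pow, mul_comm (X.ι₂ X.g), X.mul_eq_one, one_pow, mul_one]
    rw [h2]
    exact Ideal.mul_mem_right _ _ h1

variable {K : Type u} [Field K] [Algebra k K]

variable (K) in
/-- Evaluation of a chart over `K` at a rational point. -/
def ptEval {B : Type u} [CommRing B] [Algebra k B] (χ : B →ₐ[k] k) : K ⊗[k] B →ₐ[K] K :=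
  Algebra.TensorProduct.lift (AlgHom.id K K) ((Algebra.ofId k K).comp χ) fun _ _ => Commute.all _ _

theorem ptEval_res₁ (χ : X.B₀ →ₐ[k] k) (x : X.R₁ K) :
    ptEval K χ (X.res₁ K x) = ptEval K (χ.comp X.ι₁) x := by
  induction x using TensorProduct.induction_on with
  | zero => simp
  | tmul a b => simp [ptEval, Charts.res₁]
  | add a b ha hb => simp [ha, hb]

theorem ptEval_res₂ (χ : X.B₀ →ₐ[k] k) (x : X.R₂ K) :
    ptEval K χ (X.res₂ K x) = ptEval K (χ.comp X.ι₂) x := by
  induction x using TensorProduct.induction_on with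
  | zero => simp
  | tmul a b => simp [ptEval, Charts.res₂]
  | add a b ha hb => simp [ha, hb]

/-- The inclusion of the twisted sections on the charts. -/
def PtData.twistA (D : PtData X P) (L : Datum X K) :
    fixed K (L.tensor (D.base K)).e₁ × fixed K (L.tensor (D.base K)).e₂ →ₗ[K]
      fixed K L.e₁ × fixed K L.e₂ :=
  (contractFixed (e := L.e₁) (D.idealData₁ K).cut).prodMap
    (contractFixed (e := L.e₂) (D.idealData₂ K).cut)

/-- The inclusion of the twisted sections on the overlap. -/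
def PtData.twistB (D : PtData X P) (L : Datum X K) :
    fixed K ((L.tensor (D.base K)).e₂.map (X.res₂ K)) →ₗ[K] fixed K (L.e₂.map (X.res₂ K)) :=
  contractFixed (e := L.e₂.map (X.res₂ K)) (D.idealData₀ K).cut ∘ₗ
    (LinearEquiv.ofEq _ _
      (congrArg (fixed K) (kr_map (X.res₂ K) L.e₂ (D.base K).e₂))).toLinearMap

theorem PtData.twistA_injective (D : PtData X P) (L : Datum X K) :
    Function.Injective (D.twistA L) := fun _ _ h =>
  Prod.ext (contractFixed_injective (D.idealData₁ K) (congrArg Prod.fst h))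
    (contractFixed_injective (D.idealData₂ K) (congrArg Prod.snd h))

theorem PtData.twistB_injective (D : PtData X P) (L : Datum X K) :
    Function.Injective (D.twistB L) := by
  intro x y h
  exact (LinearEquiv.ofEq _ _
    (congrArg (fixed K) (kr_map (X.res₂ K) L.e₂ (D.base K).e₂))).injective
    (contractFixed_injective (D.idealData₀ K) h)

theorem PtData.res₂_q₂ (D : PtData X P) :
    (X.res₂ K ∘ incl K X.B₂ ∘ D.q₂) = incl K X.B₀ ∘ X.ι₂ ∘ D.q₂ :=
  funext fun _ => res₂_incl K _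

theorem PtData.twist_comm (D : PtData X P) (L : Datum X K) :
    dlt L ∘ₗ D.twistA L = D.twistB L ∘ₗ dlt (L.tensor (D.base K)) := by
  set L' := L.tensor (D.base K)
  have hu : (X.res₂ K ∘ incl K X.B₂ ∘ D.q₂) ᵥ* (D.base K).u = X.res₁ K ∘ incl K X.B₁ ∘ D.q₁ := by
    funext i
    rw [D.res₂_q₂]
    refine ((RingHom.map_vecMul (incl K X.B₀).toRingHom D.u (X.ι₂ ∘ D.q₂) i).symm).trans ?_
    exact (congrArg (incl K X.B₀) (congrFun D.compat i)).trans (res₁_incl K _).symm
  refine LinearMap.ext fun p => Subtype.ext ?_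
  show (dlt L (D.twistA L p) : Fin L.n₂ → X.R₀ K) =
    contract (X.res₂ K ∘ incl K X.B₂ ∘ D.q₂) (dlt L' p : Fin L'.n₂ → X.R₀ K)
  refine (dlt_coe' L (D.twistA L p)).trans
    (Eq.trans ?_ (congrArg (contract (X.res₂ K ∘ incl K X.B₂ ∘ D.q₂)) (dlt_coe' L' p)).symm)
  refine Eq.trans ?_ (map_sub (contract (n := L.n₂) (X.res₂ K ∘ incl K X.B₂ ∘ D.q₂)) _ _).symm
  refine congrArg₂ (· - ·) ?_ ?_
  · refine Eq.trans ?_ (contract_kr L.u (D.base K).u _ _ hu _).symm
    exact congrArg (L.u *ᵥ ·) (contract_map (X.res₁ K).toRingHom _ _).symm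
  · exact (contract_map (X.res₂ K).toRingHom _ _).symm

theorem PtData.mem_range_twistA (D : PtData X P) (L : Datum X K)
    (z : fixed K L.e₁ × fixed K L.e₂) :
    z ∈ LinearMap.range (D.twistA L) ↔
      (∀ i, ptEval K (P.comp X.ι₁) ((z.1 : Fin L.n₁ → X.R₁ K) i) = 0) ∧
        ∀ i, ptEval K (P.comp X.ι₂) ((z.2 : Fin L.n₂ → X.R₂ K) i) = 0 := by
  have h1 := mem_range_contractFixed (A := K) (e := L.e₁) L.rank₁.idem (D.base K).rank₁.idem
    (D.idealData₁ K).cut z.1
  have h2 := mem_range_contractFixed (A := K) (e := L.e₂) L.rank₂.idem (D.base K).rank₂.idem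
    (D.idealData₂ K).cut z.2
  constructor
  · rintro ⟨w, rfl⟩
    exact ⟨fun i => (mem_span_incl _ D.q₁ D.span₁ _).1 (h1.1 ⟨w.1, rfl⟩ i),
      fun i => (mem_span_incl _ D.q₂ D.span₂ _).1 (h2.1 ⟨w.2, rfl⟩ i)⟩
  · rintro ⟨h3, h4⟩
    obtain ⟨w₁, hw₁⟩ := h1.2 fun i => (mem_span_incl _ D.q₁ D.span₁ _).2 (h3 i)
    obtain ⟨w₂, hw₂⟩ := h2.2 fun i => (mem_span_incl _ D.q₂ D.span₂ _).2 (h4 i)
    exact ⟨(w₁, w₂), Prod.ext hw₁ hw₂⟩

/-- Twisting by the ideal of a point. -/
theorem PtData.chi_tensor (D : PtData X P) (L : Datum X K) :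
    (L.tensor (D.base K)).chi = L.chi - 1 := by
  set L' := L.tensor (D.base K)
  rw [chi_eq_euler L, chi_eq_euler L']
  let a₁ := contractFixed (A := K) (e := L.e₁) (D.idealData₁ K).cut
  let a₂ := contractFixed (A := K) (e := L.e₂) (D.idealData₂ K).cut
  let b₀ := contractFixed (A := K) (e := L.e₂.map (X.res₂ K)) (D.idealData₀ K).cut
  let E := LinearEquiv.ofEq (fixed K (L'.e₂.map (X.res₂ K))) _
    (congrArg (fixed K) (kr_map (X.res₂ K) L.e₂ (D.base K).e₂))
  let a := a₁.prodMap a₂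
  let b := b₀ ∘ₗ E.toLinearMap
  obtain ⟨hfa₁, hra₁⟩ := finrank_quotient_contractFixed (K := K) L.rank₁ (D.base K).rank₁.idem
    (D.idealData₁ K).cut (ptEval K (P.comp X.ι₁))
    (fun x => mem_span_incl (P.comp X.ι₁) D.q₁ D.span₁ x)
  obtain ⟨hfa₂, hra₂⟩ := finrank_quotient_contractFixed (K := K) L.rank₂ (D.base K).rank₂.idem
    (D.idealData₂ K).cut (ptEval K (P.comp X.ι₂))
    (fun x => mem_span_incl (P.comp X.ι₂) D.q₂ D.span₂ x)
  obtain ⟨hfb, hrb⟩ := finrank_quotient_contractFixed (K := K)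
    (Datum.IsRankOne.map (X.res₂ K).toRingHom L.rank₂)
    (by rw [← Matrix.map_mul, (D.base K).rank₂.idem]) (D.idealData₀ K).cut (ptEval K P)
    (fun x => Iff.trans (Iff.of_eq (congrArg (fun q => x ∈ Ideal.span (Set.range q)) D.res₂_q₂))
      (mem_span_incl P (X.ι₂ ∘ D.q₂) D.span₀ x))
  let π := (LinearMap.range a₁).mkQ.prodMap (LinearMap.range a₂).mkQ
  have hπ : LinearMap.range a = LinearMap.ker π := by
    ext x
    simp [π, a, LinearMap.mem_range, Prod.ext_iff]
  have hπs : Function.Surjective π :=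
    (Submodule.mkQ_surjective _).prodMap (Submodule.mkQ_surjective _)
  let Ea := (Submodule.quotEquivOfEq _ _ hπ).trans (π.quotKerEquivOfSurjective hπs)
  let Eb := Submodule.quotEquivOfEq _ _ (LinearMap.range_comp_of_range_eq_top b₀
    (LinearEquiv.range E) : LinearMap.range b = LinearMap.range b₀)
  haveI := hfa₁
  haveI := hfa₂
  haveI := hfb
  have h := @euler_of_injective K _ _ _ _ _ _ _ _ _ _ _ _ _ (dlt L) (dlt L') a b
    (D.twistA_injective L) (D.twistB_injective L) (D.twist_comm L)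
    (Module.Finite.equiv Ea.symm) (Module.Finite.equiv Eb.symm)
    (hasFiniteComplex L').1 (hasFiniteComplex L').2
  have h1 := Ea.finrank_eq.trans Module.finrank_prod
  have h2 := Eb.finrank_eq.trans hrb
  rw [hra₁, hra₂] at h1
  erw [h1, h2] at h
  push_cast at h
  omega

end FLTAgent.PicScheme
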