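import Fermat.Agent.PicScheme.Chart.GoodChart
import Fermat.Agent.PicScheme.Points.Local
import Fermat.Agent.PicScheme.Points.Twist

/-!
# Every rational point of the overlap has an ideal datum
-/

set_option autoImplicit false
set_option linter.style.haveILetI false

noncomputable section

universe u

open CategoryTheory AlgebraicGeometry NeronModelInfra Matrix

namespace FLTAgent.PicScheme

section Gen

variable {B : Type u} [CommRing B]

/-- The idempotent of the ideal `(t, a)` with `s * a = c * t` and `a + r * s = 1`. -/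
def genMat (t a s c r : B) : Matrix (Fin 2) (Fin 2) B := !![r * s, r * c; t, a]

variable {t a s c r : B} (h1 : s * a = c * t) (h2 : a + r * s = 1)

include h1 h2

theorem isRankOne_genMat : IsRankOne (genMat t a s c r) where
  idem := by
    ext i j
    fin_cases i <;> fin_cases j <;> simp [genMat, Matrix.mul_apply, Fin.sum_univ_two]
    · linear_combination (-r) * h1 + r * s * h2
    · linear_combination r * c * h2
    · linear_combination t * h2
    · linear_combination (-r) * h1 + a * h2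
  trace := by
    simp only [genMat, Matrix.trace, Matrix.diag_apply, Fin.sum_univ_two, Matrix.of_apply,
      Matrix.cons_val_zero, Matrix.cons_val_one]
    linear_combination h2
  minors i j l m := by
    fin_cases i <;> fin_cases j <;> fin_cases l <;> fin_cases m <;>
      simp [genMat] <;>
      first
        | ring1
        | linear_combination r * h1
        | linear_combination (-r) * h1

theorem genMat_cut : ![t, a] ᵥ* genMat t a s c r = ![t, a] := by
  ext j
  fin_cases j <;> simp [genMat, Matrix.vecMul, dotProduct, Fin.sum_univ_two]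
  · linear_combination t * h2
  · linear_combination (-r) * h1 + a * h2

theorem genMat_rel (i j l : Fin 2) :
    genMat t a s c r i j * ![t, a] l = genMat t a s c r i l * ![t, a] j := by
  fin_cases i <;> fin_cases j <;> fin_cases l <;>
    simp [genMat] <;>
    first
      | ring1
      | linear_combination r * h1
      | linear_combination (-r) * h1

end Gen

/-- A finitely generated prime with a uniformizer, presented by an idempotent. -/
theorem exists_ideal_presentation {k B : Type u} [Field k] [CommRing B] [Algebra k B] [IsDomain B]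
    (χ : B →ₐ[k] k) {t s : B} (ht : χ t = 0) (hs : χ s ≠ 0)
    (hb : ∀ b, χ b = 0 → ∃ c, s * b = c * t) (hne : ∃ b, χ b = 0 ∧ b ≠ 0) :
    ∃ (f : Matrix (Fin 2) (Fin 2) B) (q : Fin 2 → B), IsRankOne f ∧ q ᵥ* f = q ∧
      (∀ i j l, f i j * q l = f i l * q j) ∧ q 0 ≠ 0 ∧
      ∀ x, x ∈ Ideal.span (Set.range q) ↔ χ x = 0 := by
  obtain ⟨a, r, ha, hars⟩ : ∃ a r, χ a = 0 ∧ a + r * s = 1 := by
    refine ⟨1 - algebraMap k B (χ s)⁻¹ * s, algebraMap k B (χ s)⁻¹, ?_, sub_add_cancel _ _⟩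
    rw [map_sub, map_one, map_mul, AlgHom.commutes, Algebra.algebraMap_self, RingHom.id_apply,
      inv_mul_cancel₀ hs, sub_self]
  obtain ⟨c, hc⟩ := hb a ha
  have ht0 : t ≠ 0 := by
    rintro rfl
    obtain ⟨b, hb0, hb1⟩ := hne
    obtain ⟨d, hd⟩ := hb b hb0
    rw [mul_zero] at hd
    exact hb1 ((mul_eq_zero.1 hd).resolve_left fun h => hs (by rw [h, map_zero]))
  refine ⟨genMat t a s c r, ![t, a], isRankOne_genMat hc hars, genMat_cut hc hars,
    genMat_rel hc hars, by simpa using ht0, fun x => ⟨fun hx => ?_, fun hx => ?_⟩⟩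
  · have : Ideal.span (Set.range ![t, a]) ≤ RingHom.ker χ := by
      rw [Ideal.span_le]
      rintro _ ⟨i, rfl⟩
      fin_cases i
      · exact ht
      · exact ha
    exact this hx
  · obtain ⟨d, hd⟩ := hb x hx
    rw [show x = (r * d) * ![t, a] 0 + x * ![t, a] 1 by
      simp only [Matrix.cons_val_zero, Matrix.cons_val_one]
      linear_combination r * hd - x * hars]
    exact add_mem (Ideal.mul_mem_left _ _ (Ideal.subset_span ⟨0, rfl⟩))
      (Ideal.mul_mem_left _ _ (Ideal.subset_span ⟨1, rfl⟩))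

section Glue

variable {k : Type u} [Field k] {B B' B₀ : Type u} [CommRing B] [CommRing B'] [CommRing B₀]
  [Algebra k B] [Algebra k B'] [Algebra k B₀] [IsDomain B₀] {n n' : ℕ}

/-- The transition matrix between two presentations of the same ideal of the overlap. -/
theorem exists_transition (ι' : B' →ₐ[k] B₀) (P : B₀ →ₐ[k] k) (g : B') (g' : B₀)
    (hg : g' * ι' g = 1) (hloc : ∀ z, ∃ (N : ℕ) (b : B'), z * ι' g ^ N = ι' b)
    (q : Fin n → B₀) (hq : ∀ j, P (q j) = 0) (f' : Matrix (Fin n') (Fin n') B') (q' : Fin n' → B')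
    (rel : ∀ i j l, f' i j * q' l = f' i l * q' j)
    (span : ∀ x, x ∈ Ideal.span (Set.range q') ↔ P (ι' x) = 0) :
    ∃ u : Matrix (Fin n') (Fin n) B₀,
      ∀ c j a, u c j * ι' (q' a) = q j * ι' (f' c a) := by
  have H : ∀ c j, ∃ r, ∀ a, r * ι' (q' a) = q j * ι' (f' c a) := by
    intro c j
    obtain ⟨N, b, hb⟩ := hloc (q j)
    obtain ⟨coef, hcoef⟩ := Ideal.mem_span_range_iff_exists_fun.1
      ((span b).2 (by rw [← hb, map_mul, hq, zero_mul]))
    refine ⟨g' ^ N * ι' (∑ i, coef i * f' c i), fun a => ?_⟩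
    have h1 : (∑ i, coef i * f' c i) * q' a = f' c a * b := by
      rw [← hcoef, Finset.sum_mul, Finset.mul_sum]
      refine Finset.sum_congr rfl fun i _ => ?_
      linear_combination coef i * rel c i a
    rw [mul_assoc, ← map_mul, h1, map_mul, ← hb]
    calc g' ^ N * (ι' (f' c a) * (q j * ι' g ^ N)) = (g' * ι' g) ^ N * (q j * ι' (f' c a)) := by
          ring
      _ = _ := by rw [hg, one_pow, one_mul]
  choose u hu using H
  exact ⟨Matrix.of u, hu⟩

variable (q : Fin n → B₀) (q' : Fin n' → B₀) (f : Matrix (Fin n) (Fin n) B₀)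
  (f' : Matrix (Fin n') (Fin n') B₀) {u : Matrix (Fin n') (Fin n) B₀}
  {v : Matrix (Fin n) (Fin n') B₀}
  (hu : ∀ c j a, u c j * q' a = q j * f' c a) (hcut : q' ᵥ* f' = q') {e : Fin n'} (he : q' e ≠ 0)

include hu hcut he

theorem transition_vecMul : q' ᵥ* u = q := by
  funext j
  refine mul_right_cancel₀ he ?_
  show (∑ c, q' c * u c j) * q' e = q j * q' e
  rw [Finset.sum_mul, show q' e = ∑ c, q' c * f' c e from (congrFun hcut e).symm, Finset.mul_sum]
  refine Finset.sum_congr rfl fun c _ => ?_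
  rw [show (∑ d, q' d * f' d e) = q' e from congrFun hcut e]
  linear_combination q' c * hu c j e

omit hcut in
theorem ptTransition_mul (hv : q ᵥ* v = q')
    (rel : ∀ i j l, f' i j * q' l = f' i l * q' j) : u * v = f' := by
  refine Matrix.ext fun c b => mul_right_cancel₀ he ?_
  rw [Matrix.mul_apply, Finset.sum_mul]
  calc ∑ i, u c i * v i b * q' e = f' c e * ∑ i, q i * v i b := by
        rw [Finset.mul_sum]
        exact Finset.sum_congr rfl fun i _ => by linear_combination v i b * hu c i e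
    _ = f' c e * q' b := by rw [show (∑ i, q i * v i b) = q' b from congrFun hv b]
    _ = f' c b * q' e := rel c e b

omit hcut in
theorem transition_cut (hf : q ᵥ* f = q) : u * f = u := by
  refine Matrix.ext fun c j => mul_right_cancel₀ he ?_
  rw [Matrix.mul_apply, Finset.sum_mul, hu c j e]
  calc ∑ i, u c i * f i j * q' e = f' c e * ∑ i, q i * f i j := by
        rw [Finset.mul_sum]
        exact Finset.sum_congr rfl fun i _ => by linear_combination f i j * hu c i e
    _ = q j * f' c e := by rw [show (∑ i, q i * f i j) = q j from congrFun hf j, mul_comm]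

end Glue

theorem exists_ne_zero_of_free {k B : Type u} [Field k] [CommRing B] [Algebra k B] [Nontrivial B]
    {f : B} (h : letI := (Polynomial.aeval (R := k) f).toRingHom.toAlgebra
      Module.Free (Polynomial k) B) (χ : B →ₐ[k] k) : ∃ b, χ b = 0 ∧ b ≠ 0 := by
  letI := (Polynomial.aeval (R := k) f).toRingHom.toAlgebra
  haveI := h
  refine ⟨f - algebraMap k B (χ f), by simp, fun h0 => ?_⟩
  have h1 : (Polynomial.X - Polynomial.C (χ f) : Polynomial k) • (1 : B) = 0 := by
    rw [Algebra.smul_def, mul_one]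
    show Polynomial.aeval f _ = 0
    simpa using h0
  exact one_ne_zero ((smul_eq_zero.1 h1).resolve_left (Polynomial.X_sub_C_ne_zero _))

variable {k : Type u} [Field k] [IsAlgClosed k] {C : Scheme.{u}}
  {c : C ⟶ Spec (CommRingCat.of k)} [SmoothOfRelativeDimension 1 c] [IsIntegral C]
  {ε : SchemeHomOver (𝟙 (Spec (CommRingCat.of k))) c}

set_option maxHeartbeats 1000000 in
/-- Every rational point of the overlap has an ideal datum. -/
theorem Frame.nonempty_ptData (F : Frame c ε) (P : F.X.B₀ →ₐ[k] k) :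
    Nonempty (PtData F.X P) := by
  haveI : IsDomain F.X.B₁ := F.isDomain₁
  haveI := F.isDomain₂
  haveI := F.isDomain₀
  obtain ⟨t₁, ht₁, s₁, hs₁, hb₁⟩ := exists_uniformizer_point c F.j₁ F.open₁
    (isNoetherianRing_of_finite F.X.finite₁) (P.comp F.X.ι₁)
  obtain ⟨t₂, ht₂, s₂, hs₂, hb₂⟩ := exists_uniformizer_point c F.j₂ F.open₂
    (isNoetherianRing_of_finite F.X.finite₂) (P.comp F.X.ι₂)
  obtain ⟨f₁, q₁, hr₁, hc₁, hl₁, he₁, hsp₁⟩ := exists_ideal_presentation (P.comp F.X.ι₁) ht₁ hs₁ hb₁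
    (exists_ne_zero_of_free F.X.free₁ _)
  obtain ⟨f₂, q₂, hr₂, hc₂, hl₂, he₂, hsp₂⟩ := exists_ideal_presentation (P.comp F.X.ι₂) ht₂ hs₂ hb₂
    (exists_ne_zero_of_free F.X.free₂ _)
  have hloc₁ : ∀ z, ∃ (N : ℕ) (b : F.X.B₁), z * F.X.ι₁ F.X.f ^ N = F.X.ι₁ b := fun z => by
    letI := F.X.ι₁.toRingHom.toAlgebra
    haveI := F.X.away₁
    obtain ⟨⟨b, ⟨_, N, rfl⟩⟩, hb⟩ := IsLocalization.surj (Submonoid.powers F.X.f) z
    exact ⟨N, b, by rw [← map_pow]; exact hb⟩
  have hloc₂ : ∀ z, ∃ (N : ℕ) (b : F.X.B₂), z * F.X.ι₂ F.X.g ^ N = F.X.ι₂ b := fun z => by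
    letI := F.X.ι₂.toRingHom.toAlgebra
    haveI := F.X.away₂
    obtain ⟨⟨b, ⟨_, N, rfl⟩⟩, hb⟩ := IsLocalization.surj (Submonoid.powers F.X.g) z
    exact ⟨N, b, by rw [← map_pow]; exact hb⟩
  have hz₁ : ∀ j, P (F.X.ι₁ (q₁ j)) = 0 := fun j => (hsp₁ _).1 (Ideal.subset_span ⟨j, rfl⟩)
  have hz₂ : ∀ j, P (F.X.ι₂ (q₂ j)) = 0 := fun j => (hsp₂ _).1 (Ideal.subset_span ⟨j, rfl⟩)
  obtain ⟨u, hu⟩ := exists_transition F.X.ι₂ P F.X.g (F.X.ι₁ F.X.f) F.X.mul_eq_one hloc₂
    (F.X.ι₁ ∘ q₁) hz₁ f₂ q₂ hl₂ hsp₂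
  obtain ⟨v, hv⟩ := exists_transition F.X.ι₁ P F.X.f (F.X.ι₂ F.X.g) ((mul_comm _ _).trans F.X.mul_eq_one) hloc₁
    (F.X.ι₂ ∘ q₂) hz₂ f₁ q₁ hl₁ hsp₁
  have hc₂' := IdealData.map_cut hc₂ F.X.ι₂.toRingHom
  have hc₁' := IdealData.map_cut hc₁ F.X.ι₁.toRingHom
  have he₂' : (F.X.ι₂ ∘ q₂) 0 ≠ 0 := (map_ne_zero_iff _ F.ι₂_injective).2 he₂
  have he₁' : (F.X.ι₁ ∘ q₁) 0 ≠ 0 := (map_ne_zero_iff _ F.ι₁_injective).2 he₁
  have hcu := transition_vecMul (F.X.ι₁ ∘ q₁) (F.X.ι₂ ∘ q₂) (f₂.map F.X.ι₂) hu hc₂' he₂'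
  have hcv := transition_vecMul (F.X.ι₂ ∘ q₂) (F.X.ι₁ ∘ q₁) (f₁.map F.X.ι₁) hv hc₁' he₁'
  refine ⟨{ n₁ := 2, n₂ := 2, f₁ := f₁, f₂ := f₂, u := u, v := v, rank₁ := hr₁, rank₂ := hr₂
            uv := ptTransition_mul _ _ _ hu he₂' hcv (fun i j l => ?_)
            vu := ptTransition_mul _ _ _ hv he₁' hcu (fun i j l => ?_)
            u_cut := transition_cut _ _ _ _ hu he₂' hc₁'
            v_cut := transition_cut _ _ _ _ hv he₁' hc₂'
            q₁ := q₁, q₂ := q₂, cut₁ := hc₁, cut₂ := hc₂, rel₁ := hl₁, rel₂ := hl₂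
            regular₁ := ⟨0, fun x hx => (mul_eq_zero.1 hx).resolve_left he₁⟩
            regular₂ := ⟨0, fun x hx => (mul_eq_zero.1 hx).resolve_left he₂⟩
            span₁ := hsp₁, span₂ := hsp₂, compat := hcu }⟩
  · show F.X.ι₂ _ * F.X.ι₂ _ = F.X.ι₂ _ * F.X.ι₂ _
    rw [← map_mul, hl₂ i j l, map_mul]
  · show F.X.ι₁ _ * F.X.ι₁ _ = F.X.ι₁ _ * F.X.ι₁ _
    rw [← map_mul, hl₁ i j l, map_mul]

end FLTAgent.PicScheme
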