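import Fermat.Agent.PicScheme.Points.Shift
import Fermat.Agent.PicScheme.Points.Exists

/-!
# Every class over an algebraically closed field has a twist by a class over the ground field
with a single section, no first cohomology and no base point on the marked fibres
-/

set_option autoImplicit false
set_option linter.style.haveILetI false

noncomputable section

universe u

open CategoryTheory AlgebraicGeometry NeronModelInfra Matrix TensorProduct

namespace FLTAgent.PicScheme

open Degree

/-- Over a field every datum is rigidifiable. -/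
theorem Datum.isRigidifiable_of_field {k : Type u} [Field k] {X : Charts k} {K : Type u} [Field K]
    [Algebra k K] (L : Datum X K) : L.IsRigidifiable := by
  obtain ⟨i, hi⟩ := exists_ne_zero_diag L.rank₁ (ptEval K X.pt)
  set E := L.e₁.map (ptEval K X.pt)
  have hE : IsRankOne E := Datum.IsRankOne.map (ptEval K X.pt).toRingHom L.rank₁
  refine ⟨fun l => E l i / E i i, fun l => E i l, ?_, ?_⟩
  · have h1 : (E * E) i i = E i i := by rw [hE.idem]
    simp only [dotProduct, mul_div, ← Finset.sum_div]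
    rw [← Matrix.mul_apply, h1]
    exact div_self hi
  · ext l m
    show E l m = E l i / E i i * E i m
    have hi' : E i i ≠ 0 := hi
    rw [div_mul_eq_mul_div, eq_div_iff hi', hE.minors l m i i]

variable {k : Type u} [Field k] {X : Charts k} {K : Type u} [Field K] [Algebra k K]

/-- There are finitely many spots. -/
theorem finite_spot : Finite (Spot X K) := by
  letI := (Polynomial.aeval (R := k) X.g).toRingHom.toAlgebra
  haveI : Module.Finite (Polynomial k) X.B₂ := X.finite₂
  obtain ⟨σ, hσ⟩ := Module.finite_def.1 (inferInstance : Module.Finite (Polynomial k) X.B₂)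
  let W : Submodule K (X.R₂ K →ₗ[K] K) :=
    { carrier := {φ | ∀ z, φ (((1 : K) ⊗ₜ[k] X.g) * z) = 0}
      add_mem' := fun {a b} ha hb z => by simp [ha z, hb z]
      zero_mem' := fun z => rfl
      smul_mem' := fun c a ha z => by simp [ha z] }
  let r : W →ₗ[K] (↥(σ : Set X.B₂) → K) :=
    { toFun := fun φ b => φ.1 ((1 : K) ⊗ₜ[k] (b : X.B₂))
      map_add' := fun _ _ => rfl
      map_smul' := fun _ _ => rfl }
  have hr : Function.Injective r := by
    rw [injective_iff_map_eq_zero]
    intro φ hφ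
    have hb : ∀ b : X.B₂, φ.1 ((1 : K) ⊗ₜ[k] b) = 0 := fun b => by
      have hmem : b ∈ Submodule.span (Polynomial k) (σ : Set X.B₂) := hσ ▸ trivial
      induction hmem using Submodule.span_induction with
      | mem x hx => exact congrFun hφ ⟨x, hx⟩
      | zero => simp
      | add x y _ _ hx hy => rw [TensorProduct.tmul_add, map_add, hx, hy, add_zero]
      | smul p x _ hx =>
        obtain ⟨q, hq⟩ : ∃ q, p = Polynomial.X * q + Polynomial.C (p.coeff 0) :=
          ⟨_, (Polynomial.X_mul_divX_add p).symm⟩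
        have he : (1 : K) ⊗ₜ[k] (p • x) = ((1 : K) ⊗ₜ[k] X.g) *
            ((1 : K) ⊗ₜ[k] (Polynomial.aeval X.g q * x)) +
            (algebraMap k K (p.coeff 0)) • ((1 : K) ⊗ₜ[k] x) := by
          rw [show p • x = Polynomial.aeval X.g p * x from rfl]
          conv_lhs => rw [hq]
          rw [map_add, map_mul, Polynomial.aeval_X, Polynomial.aeval_C, add_mul, mul_assoc,
            TensorProduct.tmul_add, Algebra.TensorProduct.tmul_mul_tmul, one_mul, algebraMap_smul,
            ← TensorProduct.tmul_smul, Algebra.smul_def]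
        rw [he, map_add, φ.2, map_smul, hx, smul_zero, add_zero]
    refine Subtype.ext (LinearMap.ext fun z => ?_)
    induction z using TensorProduct.induction_on with
    | zero => simp
    | tmul a b =>
      rw [show a ⊗ₜ[k] b = a • ((1 : K) ⊗ₜ[k] b) by simp [TensorProduct.smul_tmul'], map_smul, hb,
        smul_zero]
      rfl
    | add a b ha hb => simp [ha, hb]
  haveI : Module.Finite K W := Module.Finite.of_injective r hr
  let ψ : {Q : X.R₂ K →ₐ[K] K // Q ((1 : K) ⊗ₜ X.g) = 0} → W := fun Q =>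
    ⟨Q.1.toLinearMap, fun z => by
      show Q.1 (((1 : K) ⊗ₜ[k] X.g) * z) = 0
      rw [map_mul, Q.2, zero_mul]⟩
  have hli : LinearIndependent K ψ :=
    LinearIndependent.of_comp W.subtype
      ((linearIndependent_algHom_toLinearMap K (X.R₂ K) K).comp Subtype.val Subtype.val_injective)
  haveI := hli.finite
  exact (inferInstanceAs (Finite (Option {Q : X.R₂ K →ₐ[K] K // Q ((1 : K) ⊗ₜ X.g) = 0})))

/-- A linear map to a smaller space kills a nonzero vector. -/
theorem exists_ker_ne_zero {F : Type u} [Field F] {W V : Type u} [AddCommGroup W] [Module F W]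
    [Module.Finite F W] [AddCommGroup V] [Module F V] [Module.Finite F V] (ev : W →ₗ[F] V)
    (h : Module.finrank F V < Module.finrank F W) : ∃ w, w ≠ 0 ∧ ev w = 0 := by
  obtain ⟨w, hw, hne⟩ := (Submodule.ne_bot_iff _).1 (LinearMap.ker_ne_bot_of_finrank_lt h)
  exact ⟨w, hne, hw⟩

/-- At every spot some nonzero section vanishes. -/
theorem exists_ker_not_nonzeroAt {L : Datum X K} [Module.Finite K (LinearMap.ker (dlt L))]
    (h2 : 2 ≤ Module.finrank K (LinearMap.ker (dlt L))) (S : Spot X K) :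
    ∃ s, dlt L s = 0 ∧ ¬ NonzeroAt s S ∧ s ≠ 0 := by
  cases S with
  | none =>
    have hd : Module.finrank K (fixed K (L.e₁.map (ptEval K X.pt))) = 1 :=
      finrank_fixed_eq_one (Datum.IsRankOne.map (ptEval K X.pt).toRingHom L.rank₁)
    obtain ⟨s, hne, hs⟩ := exists_ker_ne_zero (W := LinearMap.ker (dlt L))
      (evalFixed (ptEval K X.pt) ∘ₗ LinearMap.fst K (fixed K L.e₁) (fixed K L.e₂) ∘ₗ
        (LinearMap.ker (dlt L)).subtype)
      (h := by rw [hd]; omega)
    exact ⟨s.1, s.2, fun ⟨i, hi⟩ => hi (congrFun (congrArg Subtype.val hs) i),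
      fun h => hne (Subtype.ext h)⟩
  | some Q =>
    have hd : Module.finrank K (fixed K (L.e₂.map Q.1)) = 1 :=
      finrank_fixed_eq_one (Datum.IsRankOne.map Q.1.toRingHom L.rank₂)
    obtain ⟨s, hne, hs⟩ := exists_ker_ne_zero (W := LinearMap.ker (dlt L))
      (evalFixed Q.1 ∘ₗ LinearMap.snd K (fixed K L.e₁) (fixed K L.e₂) ∘ₗ
        (LinearMap.ker (dlt L)).subtype)
      (h := by rw [hd]; omega)
    exact ⟨s.1, s.2, fun ⟨i, hi⟩ => hi (congrFun (congrArg Subtype.val hs) i),
      fun h => hne (Subtype.ext h)⟩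

theorem Good.one_le {L : Datum X K} (h : Good L) :
    1 ≤ Module.finrank K (LinearMap.ker (dlt L)) := by
  haveI := (hasFiniteComplex L).1
  obtain ⟨p, hp, i, hi⟩ := h.sect none
  refine (Module.finrank_pos_iff_exists_ne_zero (R := K)).2
    ⟨(⟨p, hp⟩ : LinearMap.ker (dlt L)), fun h0 => hi ?_⟩
  have h1 : p = 0 := congrArg Subtype.val h0
  rw [h1]
  exact map_zero _

variable [IsAlgClosed k] {C : Scheme.{u}}
  {c : C ⟶ Spec (CommRingCat.of k)} [IsProper c] [SmoothOfRelativeDimension 1 c] [IsIntegral C]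
  {ε : SchemeHomOver (𝟙 (Spec (CommRingCat.of k))) c}

theorem Frame.exists_descent (F : Frame c ε) : ∀ (n : ℕ) (M : Datum F.X K), Good M →
    M.chi = n + 1 →
    ∃ T : Datum F.X k, (M.tensor (T.map (Algebra.ofId k K))).chi = 1 ∧
      Good (M.tensor (T.map (Algebra.ofId k K))) := by
  intro n
  induction n with
  | zero =>
    intro M hM hchi
    refine ⟨Datum.one F.X k, ?_⟩
    rw [Datum.map_one']
    let φ := (Datum.tensorCommIso M (Datum.one F.X K)).trans (Datum.oneTensorIso M)
    exact ⟨(chi_eq_of_iso φ).trans (by omega), hM.of_iso φ.symm⟩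
  | succ n ih =>
    intro M hM hchi
    haveI := (hasFiniteComplex M).1
    haveI := finite_spot (X := F.X) (K := K)
    haveI := Fintype.ofFinite (Spot F.X K)
    have h2 : 2 ≤ Module.finrank K (LinearMap.ker (dlt M)) := by
      have := hM.chi_eq
      omega
    choose s hs0 hsS hsne using exists_ker_not_nonzeroAt h2
    have hsi : ∀ S, ∃ i, F.X.res₁ K (((s S).1 : Fin M.n₁ → F.X.R₁ K) i) ≠ 0 := fun S => by
      by_contra! h
      exact hsne S (eq_zero_of_dlt (hs0 S) (funext h))
    choose i hi using hsi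
    obtain ⟨P, hP⟩ := F.exists_point (Finset.univ : Finset (Spot F.X K))
      (fun S => F.X.res₁ K (((s S).1 : Fin M.n₁ → F.X.R₁ K) (i S))) fun S _ => hi S
    obtain ⟨D⟩ := F.nonempty_ptData P
    have hG := hM.twist D fun S =>
      ⟨s S, hs0 S, hsS S, i S, hP S (Finset.mem_univ S)⟩
    have hc := D.chi_tensor M
    obtain ⟨T, hT1, hT2⟩ := ih _ hG (by omega)
    refine ⟨(D.base k).tensor T, ?_⟩
    rw [Datum.map_tensor, D.map_base k]
    let φ := Datum.tensorAssocIso M (D.base K) (T.map (Algebra.ofId k K))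
    exact ⟨(chi_eq_of_iso φ).symm.trans hT1, hT2.of_iso φ⟩

/-- The covering criterion. -/
theorem Frame.exists_twist [IsAlgClosed K] (F : Frame c ε) (L : Datum F.X K) :
    ∃ T : RigDatum F.X k,
      (L.tensor (T.1.map (Algebra.ofId k K))).chi = 1 ∧
      Function.Surjective (dlt (L.tensor (T.1.map (Algebra.ofId k K)))) ∧
      ∃ p, dlt (L.tensor (T.1.map (Algebra.ofId k K))) p = 0 ∧
        (∃ i, ptEval K F.X.pt (p.1.1 i) ≠ 0) ∧
        Ideal.span (insert ((1 : K) ⊗ₜ[k] F.X.g) (Set.range p.2.1)) = ⊤ := by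
  obtain ⟨m, hm⟩ := exists_good_shiftBy L
  have h0 : Good (L.tensor ((Datum.infty F.X k m).map (Algebra.ofId k K))) := by
    rw [Datum.map_infty]
    exact hm.of_iso (L.inftyTensorIso m).symm
  obtain ⟨n, hn⟩ : ∃ n, Module.finrank K
      (LinearMap.ker (dlt (L.tensor ((Datum.infty F.X k m).map (Algebra.ofId k K))))) = n + 1 :=
    ⟨_, (Nat.succ_pred_eq_of_pos h0.one_le).symm⟩
  obtain ⟨T, hT1, hT2⟩ := F.exists_descent n _ h0 (by rw [h0.chi_eq, hn]; simp)
  let φ := Datum.tensorAssocIso L ((Datum.infty F.X k m).map (Algebra.ofId k K))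
    (T.map (Algebra.ofId k K))
  refine ⟨⟨(Datum.infty F.X k m).tensor T, Datum.isRigidifiable_of_field _⟩, ?_⟩
  show (L.tensor (((Datum.infty F.X k m).tensor T).map _)).chi = 1 ∧ _
  rw [Datum.map_tensor]
  have hM := hT2.of_iso φ
  have hchi := (chi_eq_of_iso φ).symm.trans hT1
  refine ⟨hchi, hM.surj, ?_⟩
  set M := L.tensor (((Datum.infty F.X k m).map (Algebra.ofId k K)).tensor
    (T.map (Algebra.ofId k K)))
  haveI := (hasFiniteComplex M).1
  obtain ⟨p, hp0, hpS⟩ := hM.sect none
  refine ⟨p, hp0, hpS, ?_⟩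
  by_contra hne
  obtain ⟨I, hI, hle⟩ := Ideal.exists_le_maximal _ hne
  haveI := finiteType_of_finite_aeval F.X.finite₂
  letI := Ideal.Quotient.field I
  haveI : Algebra.FiniteType K (F.X.R₂ K ⧸ I) :=
    Algebra.FiniteType.trans (R := K) (S := F.X.R₂ K) inferInstance inferInstance
  haveI : Module.Finite K (F.X.R₂ K ⧸ I) := finite_of_finite_type_of_isJacobsonRing K _
  let e := AlgEquiv.ofBijective (Algebra.ofId K (F.X.R₂ K ⧸ I))
    IsAlgClosed.algebraMap_bijective_of_isIntegral
  let Q : F.X.R₂ K →ₐ[K] K := e.symm.toAlgHom.comp (Ideal.Quotient.mkₐ K I)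
  have hQ : ∀ x ∈ I, Q x = 0 := fun x hx => by
    show e.symm (Ideal.Quotient.mk I x) = 0
    rw [Ideal.Quotient.eq_zero_iff_mem.2 hx, map_zero]
  obtain ⟨q, hq0, i, hi⟩ := hM.sect (some ⟨Q, hQ _ (hle (Ideal.subset_span (Set.mem_insert _ _)))⟩)
  have h1 : Module.finrank K (LinearMap.ker (dlt M)) = 1 := by
    have := hM.chi_eq
    omega
  obtain ⟨a, ha⟩ := (finrank_eq_one_iff_of_nonzero' (⟨p, hp0⟩ : LinearMap.ker (dlt M))
    (fun h => by
      obtain ⟨j, hj⟩ := hpS
      have h' : p = 0 := congrArg Subtype.val h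
      rw [h'] at hj
      exact hj (map_zero _))).1 h1 ⟨q, hq0⟩
  apply hi
  have h2 : q = a • p := (congrArg Subtype.val ha).symm
  rw [h2]
  show Q (a • p.2.1 i) = 0
  rw [map_smul, hQ _ (hle (Ideal.subset_span (Set.mem_insert_of_mem _ ⟨i, rfl⟩))), smul_zero]

end FLTAgent.PicScheme
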