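import Fermat.Agent.PicScheme.Points.Colength
import Fermat.Agent.PicScheme.Points.Twist
import Fermat.Agent.PicScheme.Points.Exists
import Fermat.Agent.PicScheme.Chart.Sections
import Fermat.Agent.PicScheme.Chart.GoodChart
import Fermat.Agent.PicScheme.Group
import Fermat.Agent.PicScheme.Props.Separated

/-!
# The Euler characteristic is additive

A nonzero section cuts out ideals of finite colength, which gives additivity for data with a
section; twisting by a point reduces every datum to that case.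
-/

set_option autoImplicit false
set_option linter.style.haveILetI false

noncomputable section

universe u

open Matrix TensorProduct CategoryTheory AlgebraicGeometry NeronModelInfra

namespace FLTAgent.PicScheme

open Degree

variable {k : Type u} [Field k] {X : Charts k} {K : Type u} [Field K] [Algebra k K]

/-- Twisting by ideals of finite colength. -/
theorem chi_tensor_colength (L N : Datum X K) {q₁ : Fin N.n₁ → X.R₁ K} {q₂ : Fin N.n₂ → X.R₂ K}
    (d₁ : IdealData N.e₁ q₁) (d₂ : IdealData N.e₂ q₂)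
    (d₀ : IdealData (N.e₂.map (X.res₂ K)) (X.res₂ K ∘ q₂))
    (hu : (X.res₂ K ∘ q₂) ᵥ* N.u = X.res₁ K ∘ q₁)
    [Module.Finite K (X.R₁ K ⧸ Ideal.span (Set.range q₁))]
    [Module.Finite K (X.R₂ K ⧸ Ideal.span (Set.range q₂))]
    [Module.Finite K (X.R₀ K ⧸ Ideal.span (Set.range (X.res₂ K ∘ q₂)))] :
    L.chi = (L.tensor N).chi + Module.finrank K (X.R₁ K ⧸ Ideal.span (Set.range q₁)) +
      Module.finrank K (X.R₂ K ⧸ Ideal.span (Set.range q₂)) -
      Module.finrank K (X.R₀ K ⧸ Ideal.span (Set.range (X.res₂ K ∘ q₂))) := by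
  set L' := L.tensor N
  rw [chi_eq_euler L, chi_eq_euler L']
  let a₁ := contractFixed (A := K) (e := L.e₁) d₁.cut
  let a₂ := contractFixed (A := K) (e := L.e₂) d₂.cut
  let b₀ := contractFixed (A := K) (e := L.e₂.map (X.res₂ K)) d₀.cut
  let E := LinearEquiv.ofEq (fixed K (L'.e₂.map (X.res₂ K))) _
    (congrArg (fixed K) (kr_map (X.res₂ K) L.e₂ N.e₂))
  let a := a₁.prodMap a₂
  let b := b₀ ∘ₗ E.toLinearMap
  have ha : Function.Injective a := fun x y h =>
    Prod.ext (contractFixed_injective d₁ (congrArg Prod.fst h))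
      (contractFixed_injective d₂ (congrArg Prod.snd h))
  have hb : Function.Injective b := by
    intro x y h
    have h' : b₀ (E x) = b₀ (E y) := h
    exact E.injective (contractFixed_injective d₀ h')
  have hcomm : dlt L ∘ₗ a = b ∘ₗ dlt L' := by
    refine LinearMap.ext fun p => Subtype.ext ?_
    show (dlt L (a p) : Fin L.n₂ → X.R₀ K) =
      contract (X.res₂ K ∘ q₂) (dlt L' p : Fin L'.n₂ → X.R₀ K)
    refine (dlt_coe' L (a p)).trans
      (Eq.trans ?_ (congrArg (contract (X.res₂ K ∘ q₂)) (dlt_coe' L' p)).symm)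
    refine Eq.trans ?_ (map_sub (contract (n := L.n₂) (X.res₂ K ∘ q₂)) _ _).symm
    refine congrArg₂ (· - ·) ?_ ?_
    · refine Eq.trans ?_ (contract_kr L.u N.u _ _ hu _).symm
      exact congrArg (L.u *ᵥ ·) (contract_map (X.res₁ K).toRingHom _ _).symm
    · exact (contract_map (X.res₂ K).toRingHom _ _).symm
  obtain ⟨hfa₁, hra₁⟩ :=
    finrank_quotient_contractFixed_span (K := K) L.rank₁ N.rank₁.idem d₁.cut
  obtain ⟨hfa₂, hra₂⟩ :=
    finrank_quotient_contractFixed_span (K := K) L.rank₂ N.rank₂.idem d₂.cut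
  obtain ⟨hfb, hrb⟩ := finrank_quotient_contractFixed_span (K := K)
    (Datum.IsRankOne.map (X.res₂ K).toRingHom L.rank₂)
    (by rw [← Matrix.map_mul, N.rank₂.idem]) d₀.cut
  let π := (LinearMap.range a₁).mkQ.prodMap (LinearMap.range a₂).mkQ
  have hπ : LinearMap.range a = LinearMap.ker π := by
    ext x
    simp [π, a, LinearMap.mem_range]
  have hπs : Function.Surjective π :=
    (Submodule.mkQ_surjective _).prodMap (Submodule.mkQ_surjective _)
  let Ea := (Submodule.quotEquivOfEq _ _ hπ).trans (π.quotKerEquivOfSurjective hπs)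
  let Eb := Submodule.quotEquivOfEq _ _ (LinearMap.range_comp_of_range_eq_top b₀
    (LinearEquiv.range E) : LinearMap.range b = LinearMap.range b₀)
  haveI := hfa₁
  haveI := hfa₂
  haveI := hfb
  have h := @euler_of_injective K _ _ _ _ _ _ _ _ _ _ _ _ _ (dlt L) (dlt L') a b ha hb hcomm
    (Module.Finite.equiv Ea.symm) (Module.Finite.equiv Eb.symm)
    (hasFiniteComplex L').1 (hasFiniteComplex L').2
  have h1 := Ea.finrank_eq.trans Module.finrank_prod
  have h2 := Eb.finrank_eq.trans hrb
  rw [hra₁, hra₂] at h1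
  erw [h1, h2] at h
  push_cast at h
  omega

/-- Twisting by `M` shifts every Euler characteristic by the same amount. -/
def IsAdditive (M : Datum X K) : Prop :=
  ∀ L : Datum X K, (L.tensor M).chi + (Datum.one X K).chi = L.chi + M.chi

theorem chi_one_tensor (M : Datum X K) : ((Datum.one X K).tensor M).chi = M.chi :=
  chi_eq_of_iso (Datum.oneTensorIso M)

theorem chi_tensor_tensor (L M N : Datum X K) :
    ((L.tensor M).tensor N).chi = (L.tensor (M.tensor N)).chi :=
  chi_eq_of_iso (Datum.tensorAssocIso L M N)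

theorem chi_tensor_cancel (L M : Datum X K) : (L.tensor (M.tensor M.dual)).chi = L.chi :=
  chi_eq_of_iso (((Datum.Iso.refl L).tensor (Datum.tensorDualIso M)).trans
    ((Datum.tensorCommIso _ _).trans (Datum.oneTensorIso L)))

theorem chi_tensor_cancel' (L M : Datum X K) : (L.tensor (M.dual.tensor M)).chi = L.chi :=
  (chi_eq_of_iso ((Datum.Iso.refl L).tensor (Datum.tensorCommIso _ _))).trans
    (chi_tensor_cancel L M)

theorem IsAdditive.of_dual {M : Datum X K} (h : IsAdditive M.dual) : IsAdditive M := by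
  intro L
  have h1 := h (L.tensor M)
  have h2 := h M
  rw [chi_tensor_tensor, chi_tensor_cancel] at h1
  rw [← chi_eq_of_iso (Datum.oneTensorIso (M.tensor M.dual)), chi_tensor_cancel] at h2
  omega

theorem isDomain_tensor_field_right [IsAlgClosed k] (B : Type u) [CommRing B] [IsDomain B]
    [Algebra k B] : IsDomain (K ⊗[k] B) := by
  let L := FractionRing B
  haveI := AV.tensor_isDomain (K := k) K L
  let φ := Algebra.TensorProduct.map (AlgHom.id k K) (IsScalarTower.toAlgHom k B L)
  have hinj : Function.Injective φ :=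
    Module.Flat.lTensor_preserves_injective_linearMap
      (IsScalarTower.toAlgHom k B L).toLinearMap (IsFractionRing.injective B L)
  exact hinj.isDomain φ.toRingHom

/-- A datum with a nonzero section is additive. -/
theorem isAdditive_of_section [IsDomain (X.R₁ K)] [IsDomain (X.R₂ K)] [IsDomain (X.R₀ K)]
    (M : Datum X K) (s : M.H0) (hs : s ≠ 0) : IsAdditive M := by
  refine IsAdditive.of_dual fun L => ?_
  obtain ⟨⟨s₁, s₂⟩, f₁, f₂, hc⟩ := s
  simp only at f₁ f₂ hc
  have hv : M.v *ᵥ (X.res₂ K ∘ s₂) = X.res₁ K ∘ s₁ := by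
    rw [← hc, Matrix.mulVec_mulVec, M.vu, ← M.res₁_mulVec, f₁]
  have h1 : s₁ ≠ 0 := fun h => hs (Subtype.ext (Prod.ext h (funext fun i =>
    X.res₂_injective K X.isFree (show X.res₂ K (s₂ i) = X.res₂ K 0 by
      rw [map_zero, ← Function.comp_apply (f := X.res₂ K) (g := s₂), ← hc, h]
      simp [Matrix.mulVec, dotProduct]))))
  have h2 : s₂ ≠ 0 := fun h => h1 (funext fun i =>
    X.res₁_injective K X.isFree (show X.res₁ K (s₁ i) = X.res₁ K 0 by
      rw [map_zero, ← Function.comp_apply (f := X.res₁ K) (g := s₁), ← hv, h]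
      simp [Matrix.mulVec, dotProduct]))
  have mk : ∀ {R : Type u} [CommRing R] [IsDomain R] {n : ℕ} {e : Matrix (Fin n) (Fin n) R}
      {t : Fin n → R}, IsRankOne e → e *ᵥ t = t → t ≠ 0 → IdealData e.transpose t := by
    intro R _ _ n e t he ht h0
    refine ⟨(Matrix.vecMul_transpose e t).trans ht, fun i j l => ?_, ?_⟩
    · rw [Matrix.transpose_apply, Matrix.transpose_apply, he.minors_vec ht, mul_comm]
    · obtain ⟨l, hl⟩ := Function.ne_iff.1 h0
      exact ⟨l, fun x hx => (mul_eq_zero.1 hx).resolve_left hl⟩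
  have d₁ : IdealData M.dual.e₁ s₁ := mk M.rank₁ f₁ h1
  have d₂ : IdealData M.dual.e₂ s₂ := mk M.rank₂ f₂ h2
  have d₀ : IdealData (M.dual.e₂.map (X.res₂ K)) (X.res₂ K ∘ s₂) := by
    show IdealData (M.e₂.transpose.map _) _
    rw [Matrix.transpose_map]
    refine mk (Datum.IsRankOne.map (X.res₂ K).toRingHom M.rank₂)
      ((M.res₂_mulVec s₂).symm.trans (congrArg (fun t => X.res₂ K ∘ t) f₂)) fun h => h2 (funext fun i =>
        X.res₂_injective K X.isFree ((congrFun h i).trans (map_zero (X.res₂ K)).symm))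
  have hu : (X.res₂ K ∘ s₂) ᵥ* M.dual.u = X.res₁ K ∘ s₁ := (Matrix.vecMul_transpose _ _).trans hv
  have ne : ∀ {R : Type u} [CommRing R] {n : ℕ} {t : Fin n → R}, t ≠ 0 →
      Ideal.span (Set.range t) ≠ ⊥ := fun {_} _ {_ t} h0 h => h0 (funext fun i => by
    have : t i ∈ Ideal.span (Set.range t) := Ideal.subset_span ⟨i, rfl⟩
    rwa [h, Ideal.mem_bot] at this)
  obtain ⟨hf₁, p, hp, hpI⟩ := finite_quotient_chart X.isFree.1 (ne h1)
  obtain ⟨hf₂, -⟩ := finite_quotient_chart X.isFree.2 (ne h2)
  haveI : Module.Finite K (X.R₁ K ⧸ Ideal.span (Set.range s₁)) := hf₁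
  haveI : Module.Finite K (X.R₂ K ⧸ Ideal.span (Set.range s₂)) := hf₂
  have hf₀ : Module.Finite K (X.R₀ K ⧸ Ideal.span (Set.range (X.res₂ K ∘ s₂))) :=
    finite_quotient_overlap hp hpI (Ideal.span_le.2 (by
      rintro _ ⟨i, rfl⟩
      rw [SetLike.mem_coe, Ideal.mem_comap, AlgHom.toRingHom_eq_coe, RingHom.coe_coe]
      rw [← Function.comp_apply (f := X.res₁ K) (g := s₁), ← hu]
      simp only [Matrix.vecMul, dotProduct]
      exact Ideal.sum_mem _ fun j _ => Ideal.mul_mem_right (M.dual.u j i) _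
        (Ideal.subset_span (Set.mem_range_self (f := X.res₂ K ∘ s₂) j))))
  have e1 := @chi_tensor_colength k _ X K _ _ L M.dual s₁ s₂ d₁ d₂ d₀ hu hf₁ hf₂ hf₀
  have e2 := @chi_tensor_colength k _ X K _ _ (Datum.one X K) M.dual s₁ s₂ d₁ d₂ d₀ hu hf₁ hf₂ hf₀
  rw [chi_one_tensor] at e2
  omega

/-- All data are additive. -/
theorem isAdditive {P : X.B₀ →ₐ[k] k} (D : PtData X P) [IsDomain (X.R₁ K)] [IsDomain (X.R₂ K)]
    [IsDomain (X.R₀ K)] (M : Datum X K) : IsAdditive M := by
  have hE : ∀ L : Datum X K, (L.tensor (D.base K).dual).chi = L.chi + 1 := fun L => by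
    have h := D.chi_tensor (L.tensor (D.base K).dual)
    rw [chi_tensor_tensor, chi_tensor_cancel'] at h
    omega
  suffices ∀ (n : ℕ) (M : Datum X K), 1 ≤ M.chi + n → IsAdditive M from
    this (1 - M.chi).toNat M (by omega)
  intro n
  induction n with
  | zero =>
    intro M h
    have hpos : 0 < Module.finrank K M.H0 := by
      rw [Datum.chi] at h
      omega
    haveI := Module.nontrivial_of_finrank_pos hpos
    obtain ⟨s, hs⟩ := exists_ne (0 : M.H0)
    exact isAdditive_of_section M s hs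
  | succ n ih =>
    intro M h L
    have h1 := ih (M.tensor (D.base K).dual) (by rw [hE]; omega) L
    rw [← chi_tensor_tensor, hE, hE] at h1
    omega

section Frame

variable {C : Scheme.{u}} {c : C ⟶ Spec (CommRingCat.of k)}
  {ε : SchemeHomOver (𝟙 (Spec (CommRingCat.of k))) c} [IsAlgClosed k] [IsProper c]
  [SmoothOfRelativeDimension 1 c] [IsIntegral C] (F : Frame c ε)

omit [IsProper c] [SmoothOfRelativeDimension 1 c] in
theorem Frame.exists_point₀ : Nonempty (F.X.B₀ →ₐ[k] k) := by
  have := F.isDomain₁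
  have := finiteType_of_finite_aeval F.X.finite₁
  have hf : F.X.f ≠ 0 := fun h => Polynomial.X_ne_zero
    (F.aeval_f_injective (by rw [Polynomial.aeval_X, h, map_zero]))
  obtain ⟨χ, hχ⟩ := AV.exists_point_ne_zero (K := k) hf
  letI := F.X.ι₁.toRingHom.toAlgebra
  haveI := F.X.away₁
  haveI : IsScalarTower k F.X.B₁ F.X.B₀ := IsScalarTower.of_algHom F.X.ι₁
  exact ⟨IsLocalization.liftAlgHom (M := Submonoid.powers F.X.f) (f := χ) (S := F.X.B₀) fun y => by
    obtain ⟨N, hN⟩ := y.2
    rw [← hN, map_pow]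
    exact (isUnit_iff_ne_zero.2 hχ).pow N⟩

omit [IsProper c] in
/-- The Euler characteristic is additive. -/
theorem Frame.chi_tensor_add (L M : Datum F.X K) :
    (L.tensor M).chi + (Datum.one F.X K).chi = L.chi + M.chi := by
  obtain ⟨P⟩ := F.exists_point₀
  obtain ⟨D⟩ := F.nonempty_ptData P
  have := F.isDomain₁
  have := F.isDomain₂
  have := F.isDomain₀
  haveI : IsDomain (F.X.R₁ K) := isDomain_tensor_field_right F.X.B₁
  haveI : IsDomain (F.X.R₂ K) := isDomain_tensor_field_right F.X.B₂
  haveI : IsDomain (F.X.R₀ K) := isDomain_tensor_field_right F.X.B₀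
  exact isAdditive D M L

omit [IsProper c] in
/-- The Euler characteristic of an inverse. -/
theorem Frame.chi_dual (M : Datum F.X K) :
    M.dual.chi = 2 * (Datum.one F.X K).chi - M.chi := by
  have h := F.chi_tensor_add M M.dual
  rw [chi_eq_of_iso (Datum.tensorDualIso M)] at h
  omega

/-- Differences of classes of degree zero exist. -/
theorem Frame.hasDifference : HasDifference F.X where
  rig _ _ _ _ _ hL hM := hL.tensor hM.dual
  deg K _ _ _ L M hL hM := by
    have h := F.chi_tensor_add L M.dual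
    rw [F.chi_dual] at h
    omega
  cancel L M := fun ⟨i⟩ =>
    ⟨(((Datum.tensorCommIso L _).trans (Datum.oneTensorIso L)).symm.trans
      ((Datum.Iso.refl L).tensor ((Datum.tensorCommIso _ _).trans
        (Datum.tensorDualIso M)).symm)).trans
      ((Datum.tensorAssocIso L M.dual M).symm.trans
        ((i.tensor (Datum.Iso.refl M)).trans (Datum.oneTensorIso M)))⟩

end Frame

end FLTAgent.PicScheme
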