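import Fermat.Agent.PicScheme.Bridge
import Fermat.Agent.PicScheme.Points.Contract

/-!
# Ideals of finite colength cut out by a vector

A rank one idempotent over an artinian ring is an outer product, so the vectors with entries in an
ideal of finite colength have that colength among all fixed vectors.
-/

set_option autoImplicit false
set_option linter.style.haveILetI false

noncomputable section

universe u

open Matrix TensorProduct Polynomial

namespace FLTAgent.PicScheme

open Degree

variable {n m : ℕ}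

/-- A rank one idempotent over an artinian ring is an outer product. -/
theorem exists_vecMulVec_of_isArtinian {Q : Type u} [CommRing Q] [IsArtinianRing Q]
    {e : Matrix (Fin n) (Fin n) Q} (he : IsRankOne e) :
    ∃ a b : Fin n → Q, b ⬝ᵥ a = 1 ∧ e = vecMulVec a b := by
  classical
  haveI : Fintype (MaximalSpectrum Q) := Fintype.ofFinite _
  have hi : ∀ P : MaximalSpectrum Q, ∃ i, e i i ∉ P.1 := fun P => by
    by_contra! h
    exact P.2.ne_top ((Ideal.eq_top_iff_one _).2 (he.trace ▸ Ideal.sum_mem _ fun i _ => h i))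
  choose i hi using hi
  have hc : ∀ j : Fin n, ∃ x : Q, ∀ P : MaximalSpectrum Q,
      Ideal.Quotient.mk P.1 x = if j = i P then 1 else 0 := fun j => by
    obtain ⟨y, hy⟩ := Ideal.quotientInfToPiQuotient_surj
      (I := fun P : MaximalSpectrum Q => P.1)
      (fun P P' h => Ideal.isCoprime_of_isMaximal fun h' => h (MaximalSpectrum.ext h'))
      (fun P => if j = i P then 1 else 0)
    obtain ⟨x, rfl⟩ := Ideal.Quotient.mk_surjective y
    exact ⟨x, fun P => congrFun hy P⟩
  choose w hw using hc
  have hunit : IsUnit (w ⬝ᵥ (e *ᵥ w)) := by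
    by_contra h
    obtain ⟨P, hP, hmem⟩ := exists_max_ideal_of_mem_nonunits h
    let P' : MaximalSpectrum Q := ⟨P, hP⟩
    refine hi P' (Ideal.Quotient.eq_zero_iff_mem.1 ?_)
    rw [← Ideal.Quotient.eq_zero_iff_mem.2 hmem, RingHom.map_dotProduct]
    have hww : (Ideal.Quotient.mk P) ∘ w = Pi.single (i P') 1 := funext fun j => by
      rw [Function.comp_apply, hw j P', Pi.single_apply]
    have hev : (Ideal.Quotient.mk P) ∘ (e *ᵥ w) = e.map (Ideal.Quotient.mk P) *ᵥ Pi.single (i P') 1 :=
      funext fun j => by rw [Function.comp_apply, RingHom.map_mulVec, hww]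
    rw [hww, hev, single_dotProduct, one_mul, Matrix.mulVec_single_one]
    rfl
  obtain ⟨c, hc⟩ := hunit.exists_left_inv
  refine ⟨e *ᵥ w, c • (w ᵥ* e), ?_, ?_⟩
  · rw [smul_dotProduct, Matrix.dotProduct_mulVec, Matrix.vecMul_vecMul, he.idem,
      ← Matrix.dotProduct_mulVec, smul_eq_mul, hc]
  · refine Matrix.ext fun p l => ?_
    rw [vecMulVec_apply, Pi.smul_apply, smul_eq_mul, mul_left_comm]
    calc e p l = c * (e p l * (w ⬝ᵥ (e *ᵥ w))) := by rw [mul_left_comm, hc, mul_one]
      _ = _ := by
        congr 1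
        simp only [Matrix.mulVec, Matrix.vecMul, dotProduct, Finset.mul_sum, Finset.sum_mul]
        refine Finset.sum_congr rfl fun x _ => Finset.sum_congr rfl fun y _ => ?_
        linear_combination (w x * w y) * he.minors p l x y

/-- The fixed vectors of an outer product form a free line. -/
theorem finrank_fixed_eq {K Q : Type u} [Field K] [CommRing Q] [Algebra K Q] [Module.Finite K Q]
    {e : Matrix (Fin n) (Fin n) Q} (he : IsRankOne e) :
    Module.finrank K (fixed K e) = Module.finrank K Q := by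
  haveI : IsArtinianRing Q := IsArtinianRing.of_finite K Q
  obtain ⟨a, b, hab, rfl⟩ := exists_vecMulVec_of_isArtinian he
  let f : fixed K (vecMulVec a b) ≃ₗ[K] Q :=
    { toFun := fun s => b ⬝ᵥ (s : Fin n → Q)
      invFun := fun x => ⟨x • a, by
        rw [mem_fixed, Matrix.mulVec_smul, Matrix.vecMulVec_mulVec, hab]
        simp⟩
      left_inv := fun s => Subtype.ext (by
        show (b ⬝ᵥ (s : Fin n → Q)) • a = s
        conv_rhs => rw [← mem_fixed.1 s.2, Matrix.vecMulVec_mulVec]
        simp)
      right_inv := fun x => by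
        show b ⬝ᵥ (x • a) = x
        rw [dotProduct_smul, hab, smul_eq_mul, mul_one]
      map_add' := fun s t => dotProduct_add _ _ _
      map_smul' := fun c s => dotProduct_smul c b (s : Fin n → Q) }
  exact f.finrank_eq

variable {R : Type u} [CommRing R] {K : Type u} [Field K] [Algebra K R]

/-- The vectors with entries in an ideal of finite colength have that colength. -/
theorem finrank_quotient_contractFixed_span {e : Matrix (Fin n) (Fin n) R}
    {f : Matrix (Fin m) (Fin m) R} {q : Fin m → R}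
    (he : IsRankOne e) (hf : f * f = f) (h : q ᵥ* f = q)
    [Module.Finite K (R ⧸ Ideal.span (Set.range q))] :
    Module.Finite K (fixed K e ⧸ LinearMap.range (contractFixed (A := K) (e := e) h)) ∧
    Module.finrank K (fixed K e ⧸ LinearMap.range (contractFixed (A := K) (e := e) h)) =
      Module.finrank K (R ⧸ Ideal.span (Set.range q)) := by
  let π := Ideal.Quotient.mkₐ K (Ideal.span (Set.range q))
  let ev : fixed K e →ₗ[K] fixed K (e.map π) :=
    { toFun := fun s => ⟨π ∘ (s : Fin n → R), by
        rw [mem_fixed]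
        refine funext fun i => (RingHom.map_mulVec π.toRingHom e _ i).symm.trans ?_
        exact congrArg π (congrFun (mem_fixed.1 s.2) i)⟩
      map_add' := fun s t => Subtype.ext (funext fun i => map_add π _ _)
      map_smul' := fun c s => Subtype.ext (funext fun i => map_smul π c _) }
  have hk : LinearMap.range (contractFixed (A := K) (e := e) h) = LinearMap.ker ev := by
    ext s
    rw [mem_range_contractFixed he.idem hf h, LinearMap.mem_ker]
    exact ⟨fun hs => Subtype.ext (funext fun i => Ideal.Quotient.eq_zero_iff_mem.2 (hs i)),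
      fun hs i => Ideal.Quotient.eq_zero_iff_mem.1 (congrFun (congrArg Subtype.val hs) i)⟩
  have hs : Function.Surjective ev := by
    intro t
    choose x hx using fun i => Ideal.Quotient.mk_surjective (t.1 i)
    refine ⟨toFixed K he.idem x, Subtype.ext ?_⟩
    show π ∘ (e *ᵥ x) = _
    refine (funext fun i => RingHom.map_mulVec π.toRingHom e _ i).trans ?_
    rw [show (π.toRingHom ∘ x) = t.1 from funext hx]
    exact t.2
  let E := (Submodule.quotEquivOfEq _ _ hk).trans (ev.quotKerEquivOfSurjective hs)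
  haveI : Module.Finite K (fixed K (e.map π)) :=
    Module.Finite.of_injective (fixed K (e.map π)).subtype Subtype.val_injective
  exact ⟨Module.Finite.equiv E.symm,
    E.finrank_eq.trans (finrank_fixed_eq (Datum.IsRankOne.map π.toRingHom he))⟩

section Chart

variable {k : Type u} [Field k] [Algebra k K]

/-- A nonzero ideal of a chart contains a polynomial in the coordinate and has finite
colength. -/
theorem finite_quotient_chart {B : Type u} [CommRing B] [Algebra k B] {b : B}
    (hb : PolyChart.IsFree k b) [IsDomain (K ⊗[k] B)] {I : Ideal (K ⊗[k] B)} (hI : I ≠ ⊥) :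
    Module.Finite K ((K ⊗[k] B) ⧸ I) ∧
      ∃ p : K[X], p ≠ 0 ∧ Polynomial.aeval ((1 : K) ⊗ₜ[k] b) p ∈ I := by
  obtain ⟨r, Φ, -⟩ := PolyChart.free (A := K) hb
  haveI : Module.Finite K[X] (PolyChart k K b) := Module.Finite.equiv Φ
  haveI : IsDomain (PolyChart k K b) := inferInstanceAs (IsDomain (K ⊗[k] B))
  obtain ⟨x, hxI, hx0⟩ := Submodule.exists_mem_ne_zero_of_ne_bot hI
  let J : Ideal (PolyChart k K b) := I
  have hJ : J.comap (algebraMap K[X] (PolyChart k K b)) ≠ ⊥ :=
    Ideal.comap_ne_bot_of_integral_mem (R := K[X]) (x := PolyChart.of b x) hx0 hxI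
      (Algebra.IsIntegral.isIntegral _)
  obtain ⟨p, hp, hp0⟩ := Submodule.exists_mem_ne_zero_of_ne_bot hJ
  have hp' : Polynomial.aeval ((1 : K) ⊗ₜ[k] b) p ∈ I := hp
  refine ⟨?_, p, hp0, hp'⟩
  let p₁ := p * Polynomial.C p.leadingCoeff⁻¹
  have hmon : p₁.Monic := Polynomial.monic_mul_leadingCoeff_inv hp0
  have hp₁ : algebraMap K[X] (PolyChart k K b) p₁ ∈ J := by
    rw [map_mul]
    exact J.mul_mem_right _ hp
  haveI : Module.Finite K (Polynomial.degreeLT K p₁.natDegree) :=
    Module.Finite.equiv (Polynomial.degreeLTEquiv K p₁.natDegree).symm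
  let Ψ : (Fin r → Polynomial.degreeLT K p₁.natDegree) →ₗ[K] PolyChart k K b ⧸ J :=
    { toFun := fun c => Ideal.Quotient.mk J (Φ fun i => ((c i : K[X])))
      map_add' := fun c c' => by
        rw [← map_add (Ideal.Quotient.mk J), ← map_add Φ]
        rfl
      map_smul' := fun a c => by
        rw [show (fun i => (((a • c) i : Polynomial.degreeLT K p₁.natDegree) : K[X])) =
          algebraMap K K[X] a • fun i => ((c i : K[X])) from funext fun i => by
            simp [Polynomial.smul_eq_C_mul], map_smul, algebraMap_smul]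
        rfl }
  suffices h : Function.Surjective Ψ from (Module.Finite.of_surjective Ψ h :)
  intro y
  obtain ⟨z, rfl⟩ := Ideal.Quotient.mk_surjective (I := J) y
  refine ⟨fun i => ⟨Φ.symm z i %ₘ p₁, Polynomial.mem_degreeLT.2
    ((Polynomial.degree_modByMonic_lt _ hmon).trans_le Polynomial.degree_le_natDegree)⟩, ?_⟩
  show Ideal.Quotient.mk J (Φ fun i => Φ.symm z i %ₘ p₁) = Ideal.Quotient.mk J z
  rw [Ideal.Quotient.eq]
  obtain ⟨v, rfl⟩ := Φ.surjective z
  simp only [Φ.symm_apply_apply]
  rw [← map_sub, show ((fun i => v i %ₘ p₁) - v) = p₁ • fun i => -(v i /ₘ p₁) from funext fun i => by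
      simp only [Pi.sub_apply, Pi.smul_apply, smul_eq_mul]
      linear_combination Polynomial.modByMonic_add_div (v i) p₁, map_smul, Algebra.smul_def]
  exact J.mul_mem_right _ hp₁

/-- A polynomial in the coordinate of the first chart makes the colength on the overlap finite. -/
theorem finite_quotient_overlap {X : Charts k} {I : Ideal (X.R₁ K)}
    [Module.Finite K (X.R₁ K ⧸ I)] {p : K[X]} (hp : p ≠ 0)
    (hpI : Polynomial.aeval ((1 : K) ⊗ₜ[k] X.f) p ∈ I) {J : Ideal (X.R₀ K)}
    (hJ : I ≤ J.comap (X.res₁ K).toRingHom) : Module.Finite K (X.R₀ K ⧸ J) := by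
  obtain ⟨q, hpq, hq⟩ := Polynomial.exists_eq_pow_rootMultiplicity_mul_and_not_dvd p hp 0
  rw [map_zero, sub_zero] at hpq hq
  have hc : q.coeff 0 ≠ 0 := fun h => hq (Polynomial.X_dvd_iff.2 h)
  have hp₀ : Polynomial.aeval (X.t₀ K) p ∈ J := by
    rw [Charts.t₀, Polynomial.aeval_algHom_apply]
    exact hJ hpI
  have hq₀ : Polynomial.aeval (X.t₀ K) q ∈ J := by
    rw [hpq, map_mul, map_pow, Polynomial.aeval_X] at hp₀
    have h := J.mul_mem_left (X.s₀ K ^ Polynomial.rootMultiplicity 0 p) hp₀
    rwa [← mul_assoc, ← mul_pow, X.s₀_mul_t₀, one_pow, one_mul] at h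
  obtain ⟨c₀, hc₀⟩ : ∃ c₀, c₀ = q.coeff 0 := ⟨_, rfl⟩
  rw [← hc₀] at hc
  let w : X.R₁ K := -(c₀⁻¹ • Polynomial.aeval ((1 : K) ⊗ₜ[k] X.f) q.divX)
  have hw : X.s₀ K - X.res₁ K w ∈ J := by
    have h := J.mul_mem_left (c₀⁻¹ • X.s₀ K) hq₀
    rw [← Polynomial.X_mul_divX_add q, ← hc₀, map_add, map_mul, Polynomial.aeval_X, Polynomial.aeval_C,
      mul_add, smul_mul_assoc, smul_mul_assoc, ← mul_assoc, X.s₀_mul_t₀, one_mul,
      ← Algebra.commutes, ← Algebra.smul_def, smul_smul, inv_mul_cancel₀ hc, one_smul] at h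
    simp only [w, map_neg, map_smul, sub_neg_eq_add, Charts.t₀, Polynomial.aeval_algHom_apply] at h ⊢
    rwa [add_comm]
  refine Module.Finite.of_surjective
    ((Submodule.liftQ (I.restrictScalars K)
      ((Ideal.Quotient.mkₐ K J).toLinearMap ∘ₗ (X.res₁ K).toLinearMap)
      fun x hx => Ideal.Quotient.eq_zero_iff_mem.2 (hJ hx)) ∘ₗ
      (Submodule.Quotient.restrictScalarsEquiv K I).symm.toLinearMap) fun y => ?_
  obtain ⟨z, rfl⟩ := Ideal.Quotient.mk_surjective y
  obtain ⟨N, x, hx⟩ := X.exists_res₁ K z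
  refine ⟨Ideal.Quotient.mk I (w ^ N * x), ?_⟩
  show Ideal.Quotient.mk J (X.res₁ K (w ^ N * x)) = Ideal.Quotient.mk J z
  rw [map_mul, map_pow, ← hx, map_mul, map_pow, map_mul, map_pow,
    ← Ideal.Quotient.eq.2 hw, ← mul_assoc, ← mul_pow, ← map_mul, X.s₀_mul_t₀, map_one, one_pow,
    one_mul]

end Chart

end FLTAgent.PicScheme
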