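import Fermat.Agent.PicScheme.Points.Additive
import Fermat.Agent.PicScheme.Props.Section
import Fermat.Agent.PicScheme.Abel.Twist

/-!
# Decomposition into points

A datum with a section without zeros outside the overlap is a product of inverses of ideals of
points.
-/

set_option autoImplicit false
set_option linter.style.haveILetI false

noncomputable section

universe u

open Matrix TensorProduct CategoryTheory AlgebraicGeometry NeronModelInfra

namespace FLTAgent.PicScheme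

open Degree

variable {k : Type u} [Field k]

/-- An ideal of a chart over `k` meeting the vanishing locus of `f` nowhere kills a point of the
localisation at `f`. -/
theorem exists_point_away [IsAlgClosed k] {B B₀ : Type u} [CommRing B] [Algebra k B]
    [Algebra.FiniteType k B] [CommRing B₀] [Algebra k B₀] (ι : B →ₐ[k] B₀) (f : B)
    (h : letI := ι.toRingHom.toAlgebra; IsLocalization.Away f B₀)
    {I : Ideal (k ⊗[k] B)} (hI : I ≠ ⊤) (hf : I ⊔ Ideal.span {(1 : k) ⊗ₜ[k] f} = ⊤) :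
    ∃ P : B₀ →ₐ[k] k, ∀ x ∈ I, Charts.ptEval (P.comp ι) x = 0 := by
  obtain ⟨m, hm, hIm⟩ := Ideal.exists_le_maximal I hI
  letI := Ideal.Quotient.field m
  haveI : Algebra.FiniteType k (k ⊗[k] B) :=
    Algebra.FiniteType.of_surjective (Algebra.TensorProduct.lid k B).symm.toAlgHom
      (Algebra.TensorProduct.lid k B).symm.surjective
  haveI : Module.Finite k ((k ⊗[k] B) ⧸ m) :=
    finite_of_finite_type_of_isJacobsonRing k ((k ⊗[k] B) ⧸ m)
  let e : k ≃ₐ[k] (k ⊗[k] B) ⧸ m := AlgEquiv.ofBijective (Algebra.ofId k _)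
    (IsAlgClosed.algebraMap_bijective_of_isIntegral (k := k))
  let χ : k ⊗[k] B →ₐ[k] k := e.symm.toAlgHom.comp (Ideal.Quotient.mkₐ k m)
  have hχ : ∀ x, χ x = 0 ↔ x ∈ m := fun x => by
    simp [χ, Ideal.Quotient.eq_zero_iff_mem]
  let χ' : B →ₐ[k] k := χ.comp Algebra.TensorProduct.includeRight
  have hχf : χ' f ≠ 0 := fun h0 => hm.ne_top (top_le_iff.1 (hf.ge.trans
    (sup_le hIm ((Ideal.span_singleton_le_iff_mem _).2 ((hχ _).1 h0)))))
  letI := ι.toRingHom.toAlgebra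
  haveI := h
  haveI : IsScalarTower k B B₀ := IsScalarTower.of_algHom ι
  let P : B₀ →ₐ[k] k :=
    IsLocalization.liftAlgHom (M := Submonoid.powers f) (f := χ') (S := B₀) fun y => by
      obtain ⟨N, hN⟩ := y.2
      rw [← hN, map_pow]
      exact (isUnit_iff_ne_zero.2 hχf).pow N
  have hP : P.comp ι = χ' := AlgHom.ext fun b => IsLocalization.lift_eq _ b
  refine ⟨P, fun x hx => ?_⟩
  rw [hP, show Charts.ptEval χ' = χ from Algebra.TensorProduct.ext' fun a b => by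
    rw [show a ⊗ₜ[k] b = a • ((1 : k) ⊗ₜ[k] b) by rw [TensorProduct.smul_tmul', smul_eq_mul, mul_one],
      map_smul, map_smul]
    congr 1
    simp [Charts.ptEval, χ']]
  exact (hχ x).2 (hIm hx)

/-- A contraction lies in the ideal of the contracted vector. -/
theorem contract_mem_span {R : Type u} [CommRing R] {n m : ℕ} (q : Fin m → R)
    (w : Fin (n * m) → R) (i : Fin n) : contract q w i ∈ Ideal.span (Set.range w) := by
  rw [contract_apply]
  exact Ideal.sum_mem _ fun j _ => Ideal.mul_mem_left _ _ (Ideal.subset_span (Set.mem_range_self _))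

variable {X : Charts k}

/-- A section with a zero, but none outside the overlap, has a zero at a point of the overlap. -/
theorem Datum.Gen.exists_zero [IsAlgClosed k] {L : Datum X k} (g : L.Gen)
    (h₁ : g.ideal₁ ⊔ Ideal.span {(1 : k) ⊗ₜ[k] X.f} = ⊤)
    (h₂ : g.ideal₂ ⊔ Ideal.span {(1 : k) ⊗ₜ[k] X.g} = ⊤)
    (hne : ¬(g.ideal₁ = ⊤ ∧ g.ideal₂ = ⊤)) :
    ∃ P : X.B₀ →ₐ[k] k, (∀ i, Charts.ptEval (P.comp X.ι₁) (g.t₁ i) = 0) ∧
      ∀ i, Charts.ptEval (P.comp X.ι₂) (g.t₂ i) = 0 := by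
  have hv : L.v *ᵥ (X.res₂ k ∘ g.t₂) = X.res₁ k ∘ g.t₁ := by
    rw [← g.glue, Matrix.mulVec_mulVec, L.vu, ← L.res₁_mulVec, g.fix₁]
  have key : ∀ (ρ : X.R₀ k →ₐ[k] k) {n m : ℕ} (M : Matrix (Fin n) (Fin m) (X.R₀ k))
      (w : Fin m → X.R₀ k), (∀ i, ρ (w i) = 0) → ∀ i, ρ ((M *ᵥ w) i) = 0 :=
    fun ρ n m M w h i => by simp [Matrix.mulVec, dotProduct, map_sum, h]
  by_cases hI : g.ideal₁ = ⊤
  · haveI : Algebra.FiniteType k X.B₂ := X.finiteType₂
    obtain ⟨P, hP⟩ := exists_point_away X.ι₂ X.g X.away₂ (fun h => hne ⟨hI, h⟩) h₂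
    refine ⟨P, fun i => ?_, fun i => hP _ (Ideal.subset_span ⟨i, rfl⟩)⟩
    rw [← Charts.ptEval_res₁, ← Function.comp_apply (f := X.res₁ k), ← hv]
    refine key _ _ _ (fun j => ?_) i
    rw [Function.comp_apply, Charts.ptEval_res₂]
    exact hP _ (Ideal.subset_span ⟨j, rfl⟩)
  · haveI : Algebra.FiniteType k X.B₁ := X.finiteType₁
    obtain ⟨P, hP⟩ := exists_point_away X.ι₁ X.f X.away₁ hI h₁
    refine ⟨P, fun i => hP _ (Ideal.subset_span ⟨i, rfl⟩), fun i => ?_⟩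
    rw [← Charts.ptEval_res₂, ← Function.comp_apply (f := X.res₂ k), ← g.glue]
    refine key _ _ _ (fun j => ?_) i
    rw [Function.comp_apply, Charts.ptEval_res₁]
    exact hP _ (Ideal.subset_span ⟨j, rfl⟩)

/-- A section vanishing at a point is a section of the twist by its ideal. -/
theorem PtData.exists_gen_tensor {P : X.B₀ →ₐ[k] k} (D : PtData X P) {L : Datum X k} (g : L.Gen)
    (z₁ : ∀ i, Charts.ptEval (P.comp X.ι₁) (g.t₁ i) = 0)
    (z₂ : ∀ i, Charts.ptEval (P.comp X.ι₂) (g.t₂ i) = 0) :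
    ∃ g' : (L.tensor (D.base k)).Gen, g.ideal₁ ≤ g'.ideal₁ ∧ g.ideal₂ ≤ g'.ideal₂ := by
  set L' := L.tensor (D.base k)
  obtain ⟨⟨w₁, hw₁⟩, e₁⟩ := (mem_range_contractFixed (A := k) L.rank₁.idem (D.base k).rank₁.idem
    (D.idealData₁ k).cut ⟨g.t₁, mem_fixed.2 g.fix₁⟩).2
      fun i => (PtData.mem_ker_iff _ _ D.span₁).ge (z₁ i)
  obtain ⟨⟨w₂, hw₂⟩, e₂⟩ := (mem_range_contractFixed (A := k) L.rank₂.idem (D.base k).rank₂.idem
    (D.idealData₂ k).cut ⟨g.t₂, mem_fixed.2 g.fix₂⟩).2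
      fun i => (PtData.mem_ker_iff _ _ D.span₂).ge (z₂ i)
  have c₁ : contract (incl k X.B₁ ∘ D.q₁) w₁ = g.t₁ := congrArg Subtype.val e₁
  have c₂ : contract (incl k X.B₂ ∘ D.q₂) w₂ = g.t₂ := congrArg Subtype.val e₂
  have hu : (X.res₂ k ∘ incl k X.B₂ ∘ D.q₂) ᵥ* (D.base k).u = X.res₁ k ∘ incl k X.B₁ ∘ D.q₁ := by
    funext i
    rw [show X.res₂ k ∘ incl k X.B₂ ∘ D.q₂ = incl k X.B₀ ∘ X.ι₂ ∘ D.q₂ from
      funext fun j => res₂_incl k _]
    refine ((RingHom.map_vecMul (incl k X.B₀).toRingHom D.u (X.ι₂ ∘ D.q₂) i).symm).trans ?_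
    exact (congrArg (incl k X.B₀) (congrFun D.compat i)).trans (res₁_incl k _).symm
  let E := LinearEquiv.ofEq (fixed k (L'.e₂.map (X.res₂ k))) _
    (congrArg (fixed k) (kr_map (X.res₂ k) L.e₂ (D.base k).e₂))
  have hfl : L'.u *ᵥ (X.res₁ k ∘ w₁) ∈ fixed k (L'.e₂.map (X.res₂ k)) :=
    mem_fixed.2 (by rw [Matrix.mulVec_mulVec, e₂_mul_u])
  have hfr : X.res₂ k ∘ w₂ ∈ fixed k (L'.e₂.map (X.res₂ k)) :=
    mem_fixed.2 ((res_mulVec₂ L' w₂).trans (congrArg (fun t => X.res₂ k ∘ t) (mem_fixed.1 hw₂)))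
  have hglue : L'.u *ᵥ (X.res₁ k ∘ w₁) = X.res₂ k ∘ w₂ := by
    have h : contract (X.res₂ k ∘ incl k X.B₂ ∘ D.q₂) (L'.u *ᵥ (X.res₁ k ∘ w₁)) =
        contract (X.res₂ k ∘ incl k X.B₂ ∘ D.q₂) (X.res₂ k ∘ w₂) :=
      calc _ = L.u *ᵥ contract (X.res₁ k ∘ incl k X.B₁ ∘ D.q₁) (X.res₁ k ∘ w₁) :=
            contract_kr L.u (D.base k).u _ _ hu _
        _ = L.u *ᵥ (X.res₁ k ∘ g.t₁) := congrArg (L.u *ᵥ ·)
            ((contract_map (X.res₁ k).toRingHom _ _).trans (congrArg (fun t => X.res₁ k ∘ t) c₁))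
        _ = X.res₂ k ∘ g.t₂ := g.glue
        _ = _ := ((contract_map (X.res₂ k).toRingHom _ _).trans
            (congrArg (fun t => X.res₂ k ∘ t) c₂)).symm
    exact congrArg Subtype.val (contractFixed_injective (D.idealData₀ k)
      (a₁ := E ⟨_, hfl⟩) (a₂ := E ⟨_, hfr⟩) (Subtype.ext h))
  refine ⟨⟨w₁, w₂, mem_fixed.1 hw₁, mem_fixed.1 hw₂,
    fun h => g.ne₁ (c₁.symm.trans ((congrArg _ h).trans (map_zero (contract _)))),
    fun h => g.ne₂ (c₂.symm.trans ((congrArg _ h).trans (map_zero (contract _)))),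
    hglue⟩, ?_, ?_⟩
  · refine Ideal.span_le.2 ?_
    rintro _ ⟨i, rfl⟩
    show g.t₁ i ∈ Ideal.span (Set.range w₁)
    rw [← congrFun c₁ i]
    exact contract_mem_span _ w₁ i
  · refine Ideal.span_le.2 ?_
    rintro _ ⟨i, rfl⟩
    show g.t₂ i ∈ Ideal.span (Set.range w₂)
    rw [← congrFun c₂ i]
    exact contract_mem_span _ w₂ i

variable [IsDomain (X.R₁ k)] [IsDomain (X.R₂ k)] [IsDomain (X.R₀ k)]

/-- The section `1` of the trivial datum. -/
def Datum.oneGen : (Datum.one X k).Gen where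
  t₁ := fun _ => 1
  t₂ := fun _ => 1
  fix₁ := Matrix.one_mulVec _
  fix₂ := Matrix.one_mulVec _
  ne₁ := fun h => one_ne_zero (congrFun h (0 : Fin 1))
  ne₂ := fun h => one_ne_zero (congrFun h (0 : Fin 1))
  glue := (Matrix.one_mulVec _).trans (funext fun _ => (map_one (X.res₁ k)).trans (map_one (X.res₂ k)).symm)

/-- A section without zeros trivialises. -/
theorem Datum.Gen.nonempty_iso_one {L : Datum X k} (g : L.Gen) (h₁ : g.ideal₁ = ⊤)
    (h₂ : g.ideal₂ = ⊤) : Nonempty (Datum.Iso L (Datum.one X k)) :=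
  g.nonempty_iso (X.res₁_injective k X.isFree) Datum.oneGen
    (h₁.trans ((Ideal.eq_top_iff_one Datum.oneGen.ideal₁).2
      (Ideal.subset_span (Set.mem_range.2 ⟨(0 : Fin 1), rfl⟩))).symm)
    (h₂.trans ((Ideal.eq_top_iff_one Datum.oneGen.ideal₂).2
      (Ideal.subset_span (Set.mem_range.2 ⟨(0 : Fin 1), rfl⟩))).symm)

/-- A datum with a section without zeros outside the overlap is a product of inverses of ideals
of points. -/
theorem Datum.exists_decompose [IsAlgClosed k] (D : ∀ P : X.B₀ →ₐ[k] k, PtData X P) :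
    ∀ (N : ℕ) (L : Datum X k) (hL : L.IsRigidifiable) (g : L.Gen),
      g.ideal₁ ⊔ Ideal.span {(1 : k) ⊗ₜ[k] X.f} = ⊤ →
      g.ideal₂ ⊔ Ideal.span {(1 : k) ⊗ₜ[k] X.g} = ⊤ →
      L.chi = (Datum.one X k).chi + N →
      ∃ P : Fin N → (X.B₀ →ₐ[k] k), Cls.of ⟨L, hL⟩ =
        ∏ i, (Cls.of ⟨(D (P i)).base k, Datum.base_isRigidifiable (D (P i)) k⟩)⁻¹ := by
  intro N
  induction N with
  | zero =>
    intro L hL g _ _ hchi
    refine ⟨Fin.elim0, ?_⟩
    rw [Fin.prod_univ_zero]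
    have top : ∀ {R : Type u} [CommRing R] {n : ℕ} (t : Fin n → R), (∃ b, b ⬝ᵥ t = 1) →
        Ideal.span (Set.range t) = ⊤ := fun {R} _ {_} t ⟨b, hb⟩ => by
      rw [Ideal.eq_top_iff_one, ← hb]
      exact Ideal.sum_mem _ fun j _ => Ideal.mul_mem_left _ _ (Ideal.subset_span ⟨j, rfl⟩)
    obtain ⟨hb₁, hb₂⟩ := L.unimodular_of_chi (by rw [hchi]; simp)
      (s := (g.t₁, g.t₂)) ⟨g.fix₁, g.fix₂, g.glue⟩ fun h => g.ne₁ (congrArg Prod.fst h)
    exact Quot.sound (g.nonempty_iso_one (top _ hb₁) (top _ hb₂))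
  | succ N ih =>
    intro L hL g h₁ h₂ hchi
    have hne : ¬(g.ideal₁ = ⊤ ∧ g.ideal₂ = ⊤) := fun h => by
      have := chi_eq_of_iso (g.nonempty_iso_one h.1 h.2).some
      push_cast at hchi
      omega
    obtain ⟨P₀, z₁, z₂⟩ := g.exists_zero h₁ h₂ hne
    obtain ⟨g', l₁, l₂⟩ := (D P₀).exists_gen_tensor g z₁ z₂
    obtain ⟨P, hP⟩ := ih (L.tensor ((D P₀).base k))
      (hL.tensor (Datum.base_isRigidifiable (D P₀) k)) g'
      (top_le_iff.1 (h₁.ge.trans (sup_le_sup_right l₁ _)))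
      (top_le_iff.1 (h₂.ge.trans (sup_le_sup_right l₂ _)))
      (by rw [(D P₀).chi_tensor, hchi]; push_cast; ring)
    refine ⟨Fin.cons P₀ P, ?_⟩
    rw [Fin.prod_univ_succ]
    show _ = (Cls.of ⟨(D P₀).base k, Datum.base_isRigidifiable (D P₀) k⟩)⁻¹ *
      ∏ i, (Cls.of ⟨(D (P i)).base k, Datum.base_isRigidifiable (D (P i)) k⟩)⁻¹
    rw [← hP, mul_comm]
    exact eq_mul_inv_of_mul_eq (Cls.of_mul ⟨L, hL⟩ _)

variable {C : Scheme.{u}} {c : C ⟶ Spec (CommRingCat.of k)}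
  {ε : SchemeHomOver (𝟙 (Spec (CommRingCat.of k))) c}

/-- The same for the charts of a frame. -/
theorem Frame.exists_decompose [IsAlgClosed k] [IsProper c] [SmoothOfRelativeDimension 1 c]
    [IsIntegral C] (F : Frame c ε) (D : ∀ P : F.X.B₀ →ₐ[k] k, PtData F.X P) (N : ℕ)
    (L : Datum F.X k) (hL : L.IsRigidifiable) (g : L.Gen)
    (h₁ : g.ideal₁ ⊔ Ideal.span {(1 : k) ⊗ₜ[k] F.X.f} = ⊤)
    (h₂ : g.ideal₂ ⊔ Ideal.span {(1 : k) ⊗ₜ[k] F.X.g} = ⊤)
    (hchi : L.chi = (Datum.one F.X k).chi + N) :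
    ∃ P : Fin N → (F.X.B₀ →ₐ[k] k), Cls.of ⟨L, hL⟩ =
      ∏ i, (Cls.of ⟨(D (P i)).base k, Datum.base_isRigidifiable (D (P i)) k⟩)⁻¹ := by
  have := F.isDomain₁
  have := F.isDomain₂
  have := F.isDomain₀
  haveI : IsDomain (F.X.R₁ k) := (Algebra.TensorProduct.lid k F.X.B₁).toMulEquiv.isDomain
  haveI : IsDomain (F.X.R₂ k) := (Algebra.TensorProduct.lid k F.X.B₂).toMulEquiv.isDomain
  haveI : IsDomain (F.X.R₀ k) := (Algebra.TensorProduct.lid k F.X.B₀).toMulEquiv.isDomain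
  exact Datum.exists_decompose D N L hL g h₁ h₂ hchi

end FLTAgent.PicScheme
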