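import Fermat.Agent.PicScheme.Points.Twist
import Fermat.Agent.PicScheme.Chart.GoodChart

/-!
# Rational points detect functions on the overlap over a field
-/

set_option autoImplicit false
set_option linter.style.haveILetI false

noncomputable section

universe u

open CategoryTheory AlgebraicGeometry NeronModelInfra TensorProduct

namespace FLTAgent.PicScheme

theorem isDomain_tensor_of_closed {k : Type u} [Field k] [IsAlgClosed k] (K : Type u) [Field K]
    [Algebra k K] (B : Type u) [CommRing B] [IsDomain B] [Algebra k B] :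
    IsDomain (K ⊗[k] B) := by
  let L := FractionRing B
  haveI := AV.tensor_isDomain (K := k) K L
  let φ := Algebra.TensorProduct.map (AlgHom.id k K) (IsScalarTower.toAlgHom k B L)
  have hinj : Function.Injective φ :=
    TensorProduct.map_injective_of_flat_flat (AlgHom.id k K).toLinearMap
      (IsScalarTower.toAlgHom k B L).toLinearMap
      Function.injective_id (IsFractionRing.injective B L)
  exact hinj.isDomain φ.toRingHom

/-- A nonzero function over a field extension is nonzero at a rational point. -/
theorem exists_ptEval_ne_zero {k : Type u} [Field k] [IsAlgClosed k] {K : Type u} [Field K]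
    [Algebra k K] {B : Type u} [CommRing B] [IsDomain B] [Algebra k B] [Algebra.FiniteType k B]
    {z : K ⊗[k] B} (hz : z ≠ 0) : ∃ χ : B →ₐ[k] k, ptEval K χ z ≠ 0 := by
  classical
  let b := Module.Basis.ofVectorSpace k K
  set c := TensorProduct.equivFinsuppOfBasisLeft (N := B) b z
  obtain ⟨i, hi⟩ : ∃ i, c i ≠ 0 := by
    by_contra! h
    exact hz ((LinearEquiv.map_eq_zero_iff _).1 (Finsupp.ext h : c = 0))
  obtain ⟨χ, hχ⟩ := AV.exists_point_ne_zero (K := k) hi
  refine ⟨χ, fun h => hχ ?_⟩
  have key : ∀ y : K ⊗[k] B, b.repr (ptEval K χ y) i =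
      χ (TensorProduct.equivFinsuppOfBasisLeft (N := B) b y i) := by
    intro y
    induction y using TensorProduct.induction_on with
    | zero => simp
    | tmul a x =>
      rw [TensorProduct.equivFinsuppOfBasisLeft_apply_tmul_apply,
        show ptEval K χ (a ⊗ₜ x) = χ x • a by
          simp [ptEval, Algebra.ofId_apply, Algebra.smul_def, mul_comm],
        map_smul, map_smul, Finsupp.smul_apply, smul_eq_mul, smul_eq_mul, mul_comm]
    | add p q hp hq => simp [hp, hq]
  have := key z
  rwa [h, map_zero, Finsupp.zero_apply, eq_comm] at this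

variable {k : Type u} [Field k] [IsAlgClosed k] {C : Scheme.{u}}
  {c : C ⟶ Spec (CommRingCat.of k)} [IsIntegral C]
  {ε : SchemeHomOver (𝟙 (Spec (CommRingCat.of k))) c}

theorem Frame.finiteType₀ (F : Frame c ε) : Algebra.FiniteType k F.X.B₀ := by
  haveI := finiteType_of_finite_aeval F.X.finite₁
  letI := F.X.ι₁.toRingHom.toAlgebra
  haveI := F.X.away₁
  haveI : IsScalarTower k F.X.B₁ F.X.B₀ :=
    IsScalarTower.of_algebraMap_eq fun a => (F.X.ι₁.commutes a).symm
  haveI : Algebra.FiniteType F.X.B₁ F.X.B₀ := IsLocalization.finiteType_of_monoid_fg (Submonoid.powers F.X.f) F.X.B₀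
  exact Algebra.FiniteType.trans (R := k) (S := F.X.B₁) inferInstance inferInstance

/-- Finitely many nonzero functions on the overlap have a common point where they do not vanish. -/
theorem Frame.exists_point (F : Frame c ε) {K : Type u} [Field K] [Algebra k K]
    {ι : Type*} (s : Finset ι) (z : ι → F.X.R₀ K) (hz : ∀ i ∈ s, z i ≠ 0) :
    ∃ P : F.X.B₀ →ₐ[k] k, ∀ i ∈ s, ptEval K P (z i) ≠ 0 := by
  haveI := F.isDomain₀
  haveI := F.finiteType₀
  haveI := isDomain_tensor_of_closed (k := k) K F.X.B₀
  obtain ⟨P, hP⟩ := exists_ptEval_ne_zero (Finset.prod_ne_zero_iff.2 hz)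
  rw [map_prod] at hP
  exact ⟨P, fun i hi => Finset.prod_ne_zero_iff.1 hP i hi⟩

end FLTAgent.PicScheme
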