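import Fermat.Agent.PicScheme.Degree.Euler

/-!
# The Euler number of an extension of complexes
-/

set_option autoImplicit false
set_option linter.style.haveILetI false

noncomputable section

universe u

namespace FLTAgent.PicScheme.Degree

variable {K Q Q' R R' : Type u} [Field K] [AddCommGroup Q] [Module K Q] [AddCommGroup Q']
  [Module K Q'] [AddCommGroup R] [Module K R] [AddCommGroup R'] [Module K R']

/-- Enlarging source and target by finite dimensional spaces changes the Euler number by the
difference of the dimensions. -/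
theorem euler_of_injective (d : Q →ₗ[K] R) (d' : Q' →ₗ[K] R') (a : Q' →ₗ[K] Q) (b : R' →ₗ[K] R)
    (ha : Function.Injective a) (hb : Function.Injective b) (h : d ∘ₗ a = b ∘ₗ d')
    [Module.Finite K (Q ⧸ LinearMap.range a)] [Module.Finite K (R ⧸ LinearMap.range b)]
    [Module.Finite K (LinearMap.ker d')] [Module.Finite K (R' ⧸ LinearMap.range d')] :
    euler d = euler d' + Module.finrank K (Q ⧸ LinearMap.range a) -
      Module.finrank K (R ⧸ LinearMap.range b) := by
  obtain ⟨E₂, hE₂⟩ := (LinearMap.range a).exists_isCompl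
  obtain ⟨E₃, hE₃⟩ := (LinearMap.range b).exists_isCompl
  obtain ⟨E, hE⟩ := (LinearMap.range d').exists_isCompl
  haveI : Module.Finite K E₂ := Module.Finite.equiv (Submodule.quotientEquivOfIsCompl _ _ hE₂)
  haveI : Module.Finite K E₃ := Module.Finite.equiv (Submodule.quotientEquivOfIsCompl _ _ hE₃)
  haveI : Module.Finite K E := Module.Finite.equiv (Submodule.quotientEquivOfIsCompl _ _ hE)
  rw [(Submodule.quotientEquivOfIsCompl _ _ hE₂).finrank_eq,
    (Submodule.quotientEquivOfIsCompl _ _ hE₃).finrank_eq]
  -- `d'` becomes surjective after adding `E`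
  set f' := d'.coprod E.subtype with hf'
  have hs' : Function.Surjective f' := by
    rw [← LinearMap.range_eq_top, LinearMap.range_coprod, Submodule.range_subtype]
    exact hE.sup_eq_top
  have hk' : Module.finrank K (LinearMap.ker f') = Module.finrank K (LinearMap.ker d') ∧
      Module.Finite K (LinearMap.ker f') := by
    let j : LinearMap.ker d' →ₗ[K] LinearMap.ker f' :=
      LinearMap.codRestrict (LinearMap.ker f')
        ((LinearMap.inl K Q' E) ∘ₗ (LinearMap.ker d').subtype)
        fun x => by simp [hf', LinearMap.mem_ker.1 x.2]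
    have hj : Function.Bijective j := by
      refine ⟨fun x y hxy => Subtype.ext (congrArg (fun z => z.1.1) hxy), ?_⟩
      rintro ⟨⟨x, e⟩, hxe⟩
      have h1 : d' x + (e : R') = 0 := by simpa [hf'] using hxe
      have h2 : (e : R') = 0 := by
        refine Submodule.disjoint_def.1 hE.disjoint _ ?_ e.2
        rw [eq_neg_of_add_eq_zero_right h1]
        exact neg_mem ⟨x, rfl⟩
      exact ⟨⟨x, by simpa [h2] using h1⟩, Subtype.ext (Prod.ext rfl (Subtype.ext h2.symm))⟩
    let e := LinearEquiv.ofBijective j hj
    exact ⟨e.finrank_eq.symm, Module.Finite.equiv e⟩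
  haveI := hk'.2
  obtain ⟨s, hs⟩ := f'.exists_rightInverse_of_surjective (LinearMap.range_eq_top.2 hs')
  -- `d` becomes surjective after adding `E` and `E₃`
  set φ : (E × E₃) →ₗ[K] R := (b ∘ₗ E.subtype).coprod E₃.subtype with hφ
  have hfab : ∀ (x : Q') (e : E), d (a x) + b (e : R') = b (f' (x, e)) := fun x e => by
    rw [show d (a x) = b (d' x) from LinearMap.congr_fun h x]
    simp [hf']
  have hsurj : Function.Surjective (d.coprod φ) := by
    intro r
    obtain ⟨p, q, hp, hq, rfl⟩ := Submodule.codisjoint_iff_exists_add_eq.1 hE₃.codisjoint r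
    obtain ⟨y, rfl⟩ := hp
    obtain ⟨⟨x, e⟩, rfl⟩ := hs' y
    refine ⟨(a x, (e, ⟨q, hq⟩)), ?_⟩
    simp only [hφ, LinearMap.coprod_apply, LinearMap.comp_apply, Submodule.coe_subtype]
    rw [← add_assoc, hfab]
  -- the kernel of the enlarged map
  let ι : LinearMap.ker f' →ₗ[K] LinearMap.ker (d.coprod φ) :=
    { toFun := fun x => ⟨(a x.1.1, (x.1.2, 0)), by
        have := hfab x.1.1 x.1.2
        rw [LinearMap.mem_ker.1 x.2, map_zero] at this
        simpa [hφ, LinearMap.mem_ker] using this⟩
      map_add' := fun x y => by ext <;> simp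
      map_smul' := fun c x => by ext <;> simp }
  let pr : LinearMap.ker (d.coprod φ) →ₗ[K] E₂ :=
    (Submodule.projectionOnto E₂ (LinearMap.range a) hE₂.symm) ∘ₗ
      (LinearMap.fst K Q (E × E₃)) ∘ₗ (LinearMap.ker (d.coprod φ)).subtype
  have hι : Function.Injective ι := fun x y hxy => by
    have h1 := congrArg (fun z => z.1) hxy
    exact Subtype.ext (Prod.ext (ha (congrArg Prod.fst h1)) (congrArg (fun z => z.2.1) h1))
  have hex : LinearMap.range ι = LinearMap.ker pr := by
    ext z
    constructor
    · rintro ⟨x, rfl⟩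
      exact (Submodule.projectionOnto_apply_eq_zero_iff hE₂.symm).2 ⟨_, rfl⟩
    · intro hz
      obtain ⟨x, hx⟩ := (Submodule.projectionOnto_apply_eq_zero_iff hE₂.symm).1 hz
      obtain ⟨⟨q, e, z₃⟩, hqz⟩ := z
      change a x = q at hx
      subst hx
      have h1 : b (f' (x, e)) + (z₃ : R) = 0 := by
        rw [← hfab, add_assoc]
        simpa [hφ] using hqz
      have h2 : (z₃ : R) = 0 := Submodule.disjoint_def.1 hE₃.disjoint _
        ⟨-f' (x, e), by rw [map_neg, ← eq_neg_of_add_eq_zero_right h1]⟩ z₃.2
      refine ⟨⟨(x, e), hb ?_⟩, Subtype.ext (Prod.ext rfl (Prod.ext rfl (Subtype.ext h2.symm)))⟩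
      rw [map_zero]
      simpa [h2] using h1
  have hpr : Function.Surjective pr := by
    intro y
    obtain ⟨p, q, ⟨w, rfl⟩, hq, he⟩ :=
      Submodule.codisjoint_iff_exists_add_eq.1 hE₃.codisjoint (d (y : Q))
    refine ⟨⟨((y : Q) - a (s w).1, (-(s w).2, -⟨q, hq⟩)), ?_⟩, ?_⟩
    · have h1 := hfab (s w).1 (s w).2
      rw [show f' ((s w).1, (s w).2) = w from LinearMap.congr_fun hs w] at h1
      simp only [LinearMap.mem_ker, hφ, LinearMap.coprod_apply, LinearMap.comp_apply,
        Submodule.coe_subtype, map_sub, Submodule.coe_neg, map_neg]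
      rw [← he, ← h1]
      abel
    · show Submodule.projectionOnto E₂ (LinearMap.range a) hE₂.symm ((y : Q) - a (s w).1) = y
      rw [map_sub, Submodule.projectionOnto_apply_left,
        (Submodule.projectionOnto_apply_eq_zero_iff hE₂.symm).2 ⟨_, rfl⟩, sub_zero]
  haveI : Module.Finite K (LinearMap.ker pr) := hex ▸ Module.Finite.range ι
  haveI : Module.Finite K (LinearMap.range pr) := inferInstance
  haveI : Module.Finite K (LinearMap.ker (d.coprod φ)) :=
    haveI : Module.Finite K (LinearMap.ker (d.coprod φ) ⧸ LinearMap.ker pr) :=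
      Module.Finite.equiv pr.quotKerEquivRange.symm
    Module.Finite.of_submodule_quotient (LinearMap.ker pr)
  rw [euler_eq_of_surjective d φ hsurj, euler_eq_of_surjective d' E.subtype hs',
    Module.finrank_prod]
  have h3 := pr.finrank_range_add_finrank_ker
  rw [← hex, LinearMap.finrank_range_of_inj hι, LinearMap.range_eq_top.2 hpr, finrank_top] at h3
  rw [← h3]
  push_cast
  ring

end FLTAgent.PicScheme.Degree
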