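import Fermat.Agent.PicScheme.Points.Additive

/-!
# The classes of degree zero form a subgroup
-/

set_option autoImplicit false
set_option linter.style.haveILetI false
set_option linter.unusedSectionVars false

noncomputable section

universe u

open CategoryTheory AlgebraicGeometry NeronModelInfra

namespace FLTAgent.PicScheme

variable {k : Type u} [Field k] [IsAlgClosed k] {C : Scheme.{u}}
  {c : C ⟶ Spec (CommRingCat.of k)} [IsProper c] [SmoothOfRelativeDimension 1 c] [IsIntegral C]
  {ε : SchemeHomOver (𝟙 (Spec (CommRingCat.of k))) c} (F : Frame c ε)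
  {A : Type u} [CommRing A] [Algebra k A]

theorem Frame.isDegZero_one : (Datum.one F.X A).IsDegZero := fun K _ _ _ φ => by
  rw [Datum.map_one']

theorem Frame.isDegZero_tensor {L M : Datum F.X A} (hL : L.IsDegZero) (hM : M.IsDegZero) :
    (L.tensor M).IsDegZero := fun K _ _ _ φ => by
  have h := F.chi_tensor_add (L.map φ) (M.map φ)
  rw [hL K φ, hM K φ] at h
  rw [Datum.map_tensor]
  omega

theorem Frame.isDegZero_dual {L : Datum F.X A} (hL : L.IsDegZero) : L.dual.IsDegZero :=
  fun K _ _ _ φ => by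
    rw [Datum.map_dual, F.chi_dual, hL K φ]
    omega

theorem Frame.isZero_one : (1 : Cls F.X A).IsZero :=
  ⟨⟨Datum.one F.X A, Datum.one_isRigidifiable⟩, rfl, F.isDegZero_one⟩

theorem Frame.isZero_mul {x y : Cls F.X A} (hx : x.IsZero) (hy : y.IsZero) : (x * y).IsZero := by
  obtain ⟨L, rfl, hL⟩ := hx
  obtain ⟨M, rfl, hM⟩ := hy
  exact ⟨⟨L.1.tensor M.1, L.2.tensor M.2⟩, rfl, F.isDegZero_tensor hL hM⟩

theorem Frame.isZero_inv {x : Cls F.X A} (hx : x.IsZero) : x⁻¹.IsZero := by
  obtain ⟨L, rfl, hL⟩ := hx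
  exact ⟨⟨L.1.dual, L.2.dual⟩, rfl, F.isDegZero_dual hL⟩

theorem Frame.isZero_div {x y : Cls F.X A} (hx : x.IsZero) (hy : y.IsZero) : (x / y).IsZero := by
  rw [div_eq_mul_inv]
  exact F.isZero_mul hx (F.isZero_inv hy)

theorem Frame.isZero_pow {x : Cls F.X A} (hx : x.IsZero) (n : ℕ) : (x ^ n).IsZero := by
  induction n with
  | zero => rw [pow_zero]; exact F.isZero_one
  | succ n ih => rw [pow_succ]; exact F.isZero_mul ih hx

variable {F} {Δ : Dict F}

/-- A representing scheme of a frame is separated. -/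
theorem Rep.isSeparated_toBase (R : Rep Δ) : IsSeparated R.D.toBase :=
  R.isSeparated F.hasDifference

end FLTAgent.PicScheme
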