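import Fermat.Agent.PicScheme.Points.Outside
import Fermat.Agent.PicScheme.Points.Decompose
import Fermat.Agent.PicScheme.Props.Main

/-!
# Classes of degree zero are products of boundedly many classes of points
-/

set_option autoImplicit false
set_option linter.style.haveILetI false
set_option linter.checkUnivs false

noncomputable section

universe u

open CategoryTheory AlgebraicGeometry NeronModelInfra

namespace FLTAgent.PicScheme

variable {k : Type u} [Field k] [IsAlgClosed k] {C : Scheme.{u}}
  {c : C ⟶ Spec (CommRingCat.of k)} [IsProper c] [SmoothOfRelativeDimension 1 c] [IsIntegral C]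
  {ε : SchemeHomOver (𝟙 (Spec (CommRingCat.of k))) c}

/-- Every class of degree zero decomposes. -/
theorem Frame.decomposes (F : Frame c ε) : F.Decomposes := by
  intro D P₀
  obtain ⟨N, hN⟩ := F.exists_gen (D P₀)
  refine ⟨N, ?_⟩
  rintro _ ⟨L, rfl, hL⟩
  have hchi : L.1.chi = (Datum.one F.X k).chi := by
    have h := hL k (AlgHom.id k k)
    rwa [Datum.map_id] at h
  obtain ⟨M, g, h1, h2, hM, hc⟩ := hN L hchi
  obtain ⟨P, hP⟩ := F.exists_decompose D N M.1 M.2 g h1 h2 hM
  refine ⟨P, hc.trans ?_⟩
  rw [show Cls.of M = _ from hP, Finset.prod_mul_distrib, Finset.prod_const, Finset.card_univ,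
    Fintype.card_fin]

/-- Layer E. -/
theorem targetProps : TargetProps.{u} :=
  targetProps_of fun _ _ _ _ _ _ _ _ _ F => F.decomposes

end FLTAgent.PicScheme
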