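import Fermat.Agent.PicScheme.Points.Domain
import Fermat.Agent.PicScheme.Group

/-!
# Data without first cohomology and with no base point on a finite set
-/

set_option autoImplicit false
set_option linter.style.haveILetI false

noncomputable section

universe u

open Matrix TensorProduct

namespace FLTAgent.PicScheme

open Degree

variable {k : Type u} [Field k] {X : Charts k} {K : Type u} [Field K] [Algebra k K]

/-- The values at a point of fixed vectors. -/
theorem eval_line {R : Type u} [CommRing R] [Algebra K R] {n : ℕ} {e : Matrix (Fin n) (Fin n) R}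
    (he : IsRankOne e) (ρ : R →ₐ[K] K) {s t : fixed K e}
    {i : Fin n} (hs : ρ ((s : Fin n → R) i) ≠ 0) :
    ∀ j, ρ ((t : Fin n → R) j) =
      ρ ((t : Fin n → R) i) / ρ ((s : Fin n → R) i) * ρ ((s : Fin n → R) j) := by
  intro j
  have key : (t : Fin n → R) j * (s : Fin n → R) i = (t : Fin n → R) i * (s : Fin n → R) j := by
    conv_lhs => rw [← mem_fixed.1 t.2, ← mem_fixed.1 s.2]
    conv_rhs => rw [← mem_fixed.1 t.2, ← mem_fixed.1 s.2]
    simp only [Matrix.mulVec, dotProduct, Finset.sum_mul, Finset.mul_sum]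
    refine Finset.sum_congr rfl fun x _ => Finset.sum_congr rfl fun y _ => ?_
    linear_combination ((t : Fin n → R) y * (s : Fin n → R) x) * he.minors j y i x
  rw [div_mul_eq_mul_div, eq_div_iff hs, ← map_mul, key, map_mul]

variable (X K) in
/-- The places where a section must not vanish: the marked point and the zeros of `g`. -/
def Spot : Type u := Option {Q : X.R₂ K →ₐ[K] K // Q ((1 : K) ⊗ₜ X.g) = 0}

/-- A section does not vanish at a spot. -/
def NonzeroAt {L : Datum X K} (p : fixed K L.e₁ × fixed K L.e₂) : Spot X K → Prop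
  | none => ∃ i, ptEval K X.pt ((p.1 : Fin L.n₁ → X.R₁ K) i) ≠ 0
  | some Q => ∃ i, Q.1 ((p.2 : Fin L.n₂ → X.R₂ K) i) ≠ 0

/-- No first cohomology and, at each spot, a section not vanishing there. -/
structure Good (L : Datum X K) : Prop where
  surj : Function.Surjective (dlt L)
  sect : ∀ S : Spot X K, ∃ p, dlt L p = 0 ∧ NonzeroAt p S

theorem Good.chi_eq {L : Datum X K} (h : Good L) :
    L.chi = Module.finrank K (LinearMap.ker (dlt L)) := by
  rw [chi_eq_euler, euler]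
  haveI : Subsingleton (fixed K (L.e₂.map (X.res₂ K)) ⧸ LinearMap.range (dlt L)) := by
    rw [LinearMap.range_eq_top.2 h.surj]
    infer_instance
  rw [Module.finrank_zero_of_subsingleton (R := K)
    (M := fixed K (L.e₂.map (X.res₂ K)) ⧸ LinearMap.range (dlt L))]
  simp

theorem eq_zero_of_dlt {L : Datum X K} {p : fixed K L.e₁ × fixed K L.e₂} (h : dlt L p = 0)
    (h1 : X.res₁ K ∘ (p.1 : Fin L.n₁ → X.R₁ K) = 0) : p = 0 := by
  have hp := congrArg Subtype.val h
  rw [dlt_coe', h1, Matrix.mulVec_zero, zero_sub, ZeroMemClass.coe_zero, neg_eq_zero] at hp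
  refine Prod.ext (Subtype.ext (funext fun i => ?_)) (Subtype.ext (funext fun i => ?_))
  · exact X.res₁_injective K X.isFree (by simpa using congrFun h1 i)
  · exact X.res₂_injective K X.isFree (by simpa using congrFun hp i)

/-- Twisting by a point at which suitable sections do not vanish. -/
theorem Good.twist {L : Datum X K} (h : Good L) {P : X.B₀ →ₐ[k] k} (D : PtData X P)
    (hs : ∀ S : Spot X K, ∃ s, dlt L s = 0 ∧ ¬ NonzeroAt s S ∧
      ∃ i, ptEval K P (X.res₁ K ((s.1 : Fin L.n₁ → X.R₁ K) i)) ≠ 0) :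
    Good (L.tensor (D.base K)) := by
  -- correct a vector so that it vanishes at the point
  have key : ∀ p : fixed K L.e₁ × fixed K L.e₂,
      (∀ i, ptEval K P ((dlt L p : Fin L.n₂ → X.R₀ K) i) = 0) →
      ∀ s, dlt L s = 0 → (∃ i, ptEval K P (X.res₁ K ((s.1 : Fin L.n₁ → X.R₁ K) i)) ≠ 0) →
      ∃ c : K, p - c • s ∈ LinearMap.range (D.twistA L) := by
    rintro p hp s hs0 ⟨i, hi⟩
    rw [ptEval_res₁] at hi
    refine ⟨ptEval K (P.comp X.ι₁) ((p.1 : Fin L.n₁ → X.R₁ K) i) /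
      ptEval K (P.comp X.ι₁) ((s.1 : Fin L.n₁ → X.R₁ K) i), ?_⟩
    set c := ptEval K (P.comp X.ι₁) ((p.1 : Fin L.n₁ → X.R₁ K) i) /
      ptEval K (P.comp X.ι₁) ((s.1 : Fin L.n₁ → X.R₁ K) i)
    have h1 : ∀ j, ptEval K (P.comp X.ι₁) (((p - c • s).1 : Fin L.n₁ → X.R₁ K) j) = 0 := by
      intro j
      show ptEval K (P.comp X.ι₁) ((p.1 : Fin L.n₁ → X.R₁ K) j -
        c • (s.1 : Fin L.n₁ → X.R₁ K) j) = 0
      rw [map_sub, map_smul, smul_eq_mul,
        eval_line L.rank₁ (ptEval K (P.comp X.ι₁)) (t := p.1) hi j, sub_self]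
    refine (D.mem_range_twistA L _).2 ⟨h1, fun j => ?_⟩
    have h2 : dlt L (p - c • s) = dlt L p := by rw [map_sub, map_smul, hs0, smul_zero, sub_zero]
    have h3 := hp j
    rw [← h2, dlt_coe'] at h3
    simp only [Pi.sub_apply, Function.comp_apply, map_sub, ptEval_res₂, Matrix.mulVec, dotProduct,
      map_sum, map_mul, ptEval_res₁] at h3
    simp only [show ∀ x, ptEval K (P.comp X.ι₁) (((p - c • s).1 : Fin L.n₁ → X.R₁ K) x) = 0 from h1,
      mul_zero, Finset.sum_const_zero, zero_sub, neg_eq_zero] at h3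
    exact h3
  refine ⟨fun z => ?_, fun S => ?_⟩
  · obtain ⟨p, hp⟩ := h.surj (D.twistB L z)
    obtain ⟨s, hs0, -, hsi⟩ := hs none
    have hzero : ∀ i, ptEval K P ((dlt L p : Fin L.n₂ → X.R₀ K) i) = 0 := fun i => by
      rw [hp]
      refine (congrArg (ptEval K P)
        (contract_apply (X.res₂ K ∘ incl K X.B₂ ∘ D.q₂) _ i)).trans ?_
      rw [map_sum]
      refine Finset.sum_eq_zero fun j _ => ?_
      exact (map_mul _ _ _).trans (mul_eq_zero_of_left ((ptEval_res₂ P _).trans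
        ((mem_span_incl (P.comp X.ι₂) D.q₂ D.span₂ _).1 (Ideal.subset_span ⟨j, rfl⟩))) _)
    obtain ⟨c, w, hw⟩ := key p hzero s hs0 hsi
    refine ⟨w, D.twistB_injective L ?_⟩
    rw [← LinearMap.comp_apply, ← D.twist_comm L, LinearMap.comp_apply, hw, map_sub, map_smul, hs0,
      smul_zero, sub_zero, hp]
  · obtain ⟨p, hp0, hpS⟩ := h.sect S
    obtain ⟨s, hs0, hsS, hsi⟩ := hs S
    obtain ⟨c, w, hw⟩ := key p (fun i => by rw [hp0]; exact map_zero _) s hs0 hsi
    refine ⟨w, D.twistB_injective L ?_, ?_⟩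
    · rw [← LinearMap.comp_apply, ← D.twist_comm L, LinearMap.comp_apply, hw, map_sub, map_smul,
        hs0, smul_zero, sub_zero, hp0, map_zero]
    cases S with
    | none =>
      obtain ⟨i, hi⟩ := hpS
      by_contra hno
      apply hi
      have h5 : ptEval K X.pt ((((p - c • s).1 : fixed K L.e₁) : Fin L.n₁ → X.R₁ K) i) = 0 := by
        rw [← hw]
        refine (congrArg (ptEval K X.pt)
          (contract_apply (incl K X.B₁ ∘ D.q₁) _ i)).trans ?_
        rw [map_sum]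
        refine Finset.sum_eq_zero fun j _ => ?_
        exact (map_mul _ _ _).trans
          (mul_eq_zero_of_right _ (not_not.1 fun h' => hno ⟨_, h'⟩))
      have h6 : ptEval K X.pt ((s.1 : Fin L.n₁ → X.R₁ K) i) = 0 :=
        not_not.1 fun h' => hsS ⟨i, h'⟩
      have h7 : (((p - c • s).1 : fixed K L.e₁) : Fin L.n₁ → X.R₁ K) i =
          (p.1 : Fin L.n₁ → X.R₁ K) i - c • (s.1 : Fin L.n₁ → X.R₁ K) i := rfl
      rw [h7, map_sub, map_smul, h6, smul_zero, sub_zero] at h5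
      exact h5
    | some Q =>
      obtain ⟨i, hi⟩ := hpS
      by_contra hno
      apply hi
      have h5 : Q.1 ((((p - c • s).2 : fixed K L.e₂) : Fin L.n₂ → X.R₂ K) i) = 0 := by
        rw [← hw]
        refine (congrArg Q.1
          (contract_apply (incl K X.B₂ ∘ D.q₂) _ i)).trans ?_
        rw [map_sum]
        refine Finset.sum_eq_zero fun j _ => ?_
        exact (map_mul _ _ _).trans
          (mul_eq_zero_of_right _ (not_not.1 fun h' => hno ⟨_, h'⟩))
      have h6 : Q.1 ((s.2 : Fin L.n₂ → X.R₂ K) i) = 0 :=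
        not_not.1 fun h' => hsS ⟨i, h'⟩
      have h7 : (((p - c • s).2 : fixed K L.e₂) : Fin L.n₂ → X.R₂ K) i =
          (p.2 : Fin L.n₂ → X.R₂ K) i - c • (s.2 : Fin L.n₂ → X.R₂ K) i := rfl
      rw [h7, map_sub, map_smul, h6, smul_zero, sub_zero] at h5
      exact h5

/-- The property only depends on the class. -/
theorem Good.of_iso {L L' : Datum X K} (φ : Datum.Iso L L') (h : Good L) : Good L' := by
  let e₁ := fixedEquiv (A := K) φ.a₁ φ.b₁ φ.ab₁ φ.ba₁
  let e₂ := fixedEquiv (A := K) φ.a₂ φ.b₂ φ.ab₂ φ.ba₂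
  let e₀ := fixedEquiv (A := K) (φ.a₂.map (X.res₂ K)) (φ.b₂.map (X.res₂ K))
    (by rw [← Matrix.map_mul, φ.ab₂]) (by rw [← Matrix.map_mul, φ.ba₂])
  have hc : ∀ p, e₀ (dlt L p) = dlt L' (e₁ p.1, e₂ p.2) := fun p => Subtype.ext (by
    rw [fixedEquiv_coe, dlt_coe', dlt_coe', Matrix.mulVec_sub, Matrix.mulVec_mulVec, ← φ.compat]
    show _ = L'.u *ᵥ (X.res₁ K ∘ (φ.a₁ *ᵥ (p.1 : Fin L.n₁ → X.R₁ K))) -
      X.res₂ K ∘ (φ.a₂ *ᵥ (p.2 : Fin L.n₂ → X.R₂ K))
    have h1 : X.res₁ K ∘ (φ.a₁ *ᵥ (p.1 : Fin L.n₁ → X.R₁ K)) =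
        φ.a₁.map (X.res₁ K) *ᵥ (X.res₁ K ∘ (p.1 : Fin L.n₁ → X.R₁ K)) :=
      funext fun i => RingHom.map_mulVec (X.res₁ K).toRingHom φ.a₁ _ i
    have h2 : X.res₂ K ∘ (φ.a₂ *ᵥ (p.2 : Fin L.n₂ → X.R₂ K)) =
        φ.a₂.map (X.res₂ K) *ᵥ (X.res₂ K ∘ (p.2 : Fin L.n₂ → X.R₂ K)) :=
      funext fun i => RingHom.map_mulVec (X.res₂ K).toRingHom φ.a₂ _ i
    rw [h1, h2, ← Matrix.mulVec_mulVec, ← Matrix.mulVec_mulVec, res_mulVec₁, mem_fixed.1 p.1.2])
  refine ⟨fun z => ?_, fun S => ?_⟩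
  · obtain ⟨p, hp⟩ := h.surj (e₀.symm z)
    exact ⟨(e₁ p.1, e₂ p.2), by rw [← hc, hp, e₀.apply_symm_apply]⟩
  · obtain ⟨p, hp0, hpS⟩ := h.sect S
    refine ⟨(e₁ p.1, e₂ p.2), by rw [← hc, hp0, map_zero], ?_⟩
    have hval : ∀ {R : Type u} [CommRing R] [Algebra K R] {n m : ℕ} (a : Matrix (Fin m) (Fin n) R)
        (b : Matrix (Fin n) (Fin m) R) {e : Matrix (Fin n) (Fin n) R} (hba : b * a = e)
        (x : fixed K e) (ρ : R →ₐ[K] K), (∀ l, ρ ((a *ᵥ (x : Fin n → R)) l) = 0) →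
        ∀ i, ρ ((x : Fin n → R) i) = 0 := by
      intro R _ _ n m a b e hba x ρ hx i
      subst hba
      refine (congrArg ρ (congrFun (mem_fixed.1 x.2).symm i)).trans ?_
      rw [← Matrix.mulVec_mulVec, Matrix.mulVec, dotProduct, map_sum]
      exact Finset.sum_eq_zero fun l _ => by rw [map_mul, hx l, mul_zero]
    cases S with
    | none =>
      obtain ⟨i, hi⟩ := hpS
      by_contra hno
      exact hi (hval φ.a₁ φ.b₁ φ.ba₁ p.1 (ptEval K X.pt)
        (fun l => not_not.1 fun h' => hno ⟨l, h'⟩) i)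
    | some Q =>
      obtain ⟨i, hi⟩ := hpS
      by_contra hno
      exact hi (hval φ.a₂ φ.b₂ φ.ba₂ p.2 Q.1 (fun l => not_not.1 fun h' => hno ⟨l, h'⟩) i)

end FLTAgent.PicScheme
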