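import Fermat.Agent.PicScheme.Points.Product
import Fermat.Agent.PicScheme.Points.Cover
import Fermat.Agent.PicScheme.Points.Additive
import Fermat.Agent.PicScheme.Abel.Gen
import Fermat.Agent.PicScheme.Abel.Twist

/-!
# A uniform multiple of a rational point giving sections without zeros outside the overlap
-/

set_option autoImplicit false
set_option linter.style.haveILetI false
set_option linter.unusedSectionVars false

noncomputable section

universe u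

open CategoryTheory AlgebraicGeometry NeronModelInfra Matrix TensorProduct

namespace FLTAgent.PicScheme

open Degree

/-- An ideal of a finitely generated algebra over an algebraically closed field has a zero. -/
theorem exists_zero_of_ne_top {K : Type u} [Field K] [IsAlgClosed K] {R : Type u} [CommRing R]
    [Algebra K R] [Algebra.FiniteType K R] {I : Ideal R} (h : I ≠ ⊤) :
    ∃ Q : R →ₐ[K] K, ∀ x ∈ I, Q x = 0 := by
  obtain ⟨J, hJ, hle⟩ := Ideal.exists_le_maximal _ h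
  letI := Ideal.Quotient.field J
  haveI : Algebra.FiniteType K (R ⧸ J) :=
    Algebra.FiniteType.trans (R := K) (S := R) inferInstance inferInstance
  haveI : Module.Finite K (R ⧸ J) := finite_of_finite_type_of_isJacobsonRing K _
  let e := AlgEquiv.ofBijective (Algebra.ofId K (R ⧸ J))
    IsAlgClosed.algebraMap_bijective_of_isIntegral
  refine ⟨e.symm.toAlgHom.comp (Ideal.Quotient.mkₐ K J), fun x hx => ?_⟩
  show e.symm (Ideal.Quotient.mk J x) = 0
  rw [Ideal.Quotient.eq_zero_iff_mem.2 (hle hx), map_zero]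

/-- An ideal of finite colength has finitely many zeros. -/
theorem finite_zeros {K : Type u} [Field K] {R : Type u} [CommRing R] [Algebra K R] (I : Ideal R)
    [Module.Finite K (R ⧸ I)] : Finite {Q : R →ₐ[K] K // ∀ x ∈ I, Q x = 0} := by
  haveI : Finite (R ⧸ I →ₐ[K] K) := (linearIndependent_algHom_toLinearMap K (R ⧸ I) K).finite
  refine Finite.of_injective (fun Q => Ideal.Quotient.liftₐ I Q.1 Q.2) fun Q Q' h => ?_
  exact Subtype.ext (AlgHom.ext fun x => DFunLike.congr_fun h (Ideal.Quotient.mk I x))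

variable {k : Type u} [Field k]

/-- Twisting repeatedly by a point raises the Euler characteristic. -/
theorem exists_pow_twist {X : Charts k} {P₀ : X.B₀ →ₐ[k] k} (D₀ : PtData X P₀) (L : RigDatum X k)
    (n : ℕ) : ∃ T : RigDatum X k, T.1.chi = L.1.chi + n ∧
      Cls.of L = Cls.of T * Cls.of ⟨D₀.base k, Datum.base_isRigidifiable D₀ k⟩ ^ n := by
  induction n with
  | zero => exact ⟨L, by simp, by rw [pow_zero, mul_one]⟩
  | succ n ih =>
    obtain ⟨T, hT, hc⟩ := ih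
    refine ⟨⟨T.1.tensor (D₀.base k).dual, Datum.isRigidifiable_of_field _⟩, ?_, ?_⟩
    · have h := D₀.chi_tensor (T.1.tensor (D₀.base k).dual)
      rw [chi_tensor_tensor, chi_tensor_cancel'] at h
      show (T.1.tensor (D₀.base k).dual).chi = _
      push_cast
      omega
    · rw [hc, pow_succ']
      change _ = Cls.of T * (Cls.of ⟨D₀.base k, Datum.base_isRigidifiable D₀ k⟩)⁻¹ * _
      group

variable [IsAlgClosed k] {C : Scheme.{u}}
  {c : C ⟶ Spec (CommRingCat.of k)} [IsProper c] [SmoothOfRelativeDimension 1 c] [IsIntegral C]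
  {ε : SchemeHomOver (𝟙 (Spec (CommRingCat.of k))) c}

/-- Degree zero classes have a twist by a fixed multiple of a point with a section having no zero
outside the overlap. -/
theorem Frame.exists_gen (F : Frame c ε) {P₀ : F.X.B₀ →ₐ[k] k} (D₀ : PtData F.X P₀) :
    ∃ N : ℕ, ∀ L : RigDatum F.X k, L.1.chi = (Datum.one F.X k).chi →
      ∃ (M : RigDatum F.X k) (g : M.1.Gen),
        g.ideal₁ ⊔ Ideal.span {(1 : k) ⊗ₜ[k] F.X.f} = ⊤ ∧
        g.ideal₂ ⊔ Ideal.span {(1 : k) ⊗ₜ[k] F.X.g} = ⊤ ∧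
        M.1.chi = (Datum.one F.X k).chi + N ∧
        Cls.of L = Cls.of M * Cls.of ⟨D₀.base k, Datum.base_isRigidifiable D₀ k⟩ ^ N := by
  classical
  haveI := F.isDomain₁
  haveI := F.isDomain₂
  haveI : IsDomain (F.X.R₁ k) := isDomain_tensor_of_closed (k := k) k F.X.B₁
  haveI : IsDomain (F.X.R₂ k) := isDomain_tensor_of_closed (k := k) k F.X.B₂
  haveI := F.isDomain₀
  haveI : IsDomain (F.X.R₀ k) := isDomain_tensor_of_closed (k := k) k F.X.B₀
  haveI := finiteType_of_finite_aeval F.X.finite₁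
  haveI := finiteType_of_finite_aeval F.X.finite₂
  obtain ⟨m, hm⟩ := exists_good_shiftBy (Datum.one F.X k)
  set A : Datum F.X k := Datum.infty F.X k m
  have hA : Function.Surjective (dlt A) := hm.surj
  have hA₁ : ∀ χ : F.X.R₁ k →ₐ[k] k, ∃ p, dlt A p = 0 ∧ ∃ i, χ (p.1.1 i) ≠ 0 := fun χ => by
    refine ⟨(⟨fun _ => 1, mem_fixed.2 (Matrix.one_mulVec _)⟩,
      ⟨fun _ => ((1 : k) ⊗ₜ[k] F.X.g) ^ m, mem_fixed.2 (Matrix.one_mulVec _)⟩), Subtype.ext ?_,
      (0 : Fin 1), (map_one χ).trans_ne one_ne_zero⟩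
    refine (dlt_coe' A _).trans (sub_eq_zero.2 (funext fun (i : Fin 1) => ?_))
    show ((F.X.s₀ k ^ m • (1 : Matrix (Fin 1) (Fin 1) (F.X.R₀ k))) *ᵥ
      fun _ => F.X.res₁ k 1) i = F.X.res₂ k (((1 : k) ⊗ₜ[k] F.X.g) ^ m)
    rw [Matrix.smul_mulVec, Matrix.one_mulVec, Pi.smul_apply, smul_eq_mul, map_pow, map_one, mul_one,
      ← Charts.s₀]
  have hA₂ : ∀ χ : F.X.R₂ k →ₐ[k] k, ∃ p, dlt A p = 0 ∧ ∃ i, χ (p.2.1 i) ≠ 0 := fun χ => by
    refine ⟨(⟨fun _ => ((1 : k) ⊗ₜ[k] F.X.f) ^ m, mem_fixed.2 (Matrix.one_mulVec _)⟩,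
      ⟨fun _ => 1, mem_fixed.2 (Matrix.one_mulVec _)⟩), Subtype.ext ?_, (0 : Fin 1), (map_one χ).trans_ne one_ne_zero⟩
    refine (dlt_coe' A _).trans (sub_eq_zero.2 (funext fun (i : Fin 1) => ?_))
    show ((F.X.s₀ k ^ m • (1 : Matrix (Fin 1) (Fin 1) (F.X.R₀ k))) *ᵥ
      fun _ => F.X.res₁ k (((1 : k) ⊗ₜ[k] F.X.f) ^ m)) i = F.X.res₂ k 1
    rw [Matrix.smul_mulVec, Matrix.one_mulVec, Pi.smul_apply, smul_eq_mul, map_pow, map_one,
      ← Charts.t₀, ← mul_pow, F.X.s₀_mul_t₀, one_pow]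
  set c₀ := (Datum.one F.X k).chi
  refine ⟨(A.chi + 1 - 2 * c₀).toNat, fun L hL => ?_⟩
  obtain ⟨T, hT, hTc⟩ := exists_pow_twist D₀ L (A.chi + 1 - 2 * c₀).toNat
  set Nd : Datum F.X k := T.1.tensor A.dual
  have hNd : Nd.chi + c₀ = T.1.chi + (2 * c₀ - A.chi) := by
    rw [← F.chi_dual A]
    exact F.chi_tensor_add T.1 A.dual
  obtain ⟨s, hs⟩ : ∃ s : Nd.H0, s ≠ 0 := by
    have hpos : 0 < Module.finrank k Nd.H0 := by
      have h := hNd
      rw [Datum.chi] at h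
      omega
    haveI := Module.nontrivial_of_finrank_pos hpos
    exact exists_ne (0 : Nd.H0)
  obtain ⟨⟨s₁, s₂⟩, hmem⟩ := s
  obtain ⟨h1, h2⟩ := Nd.H0_ne_zero hmem fun h => hs (Subtype.ext h)
  obtain ⟨hs₁, hs₂, hsu⟩ := hmem
  set M : RigDatum F.X k := ⟨A.tensor Nd, Datum.isRigidifiable_of_field _⟩
  have hb₁ := fun χ => exists_ker_ne_zero_at₁ hA χ (hA₁ χ) hs₁ hs₂ hsu h2
  have hb₂ := fun χ => exists_ker_ne_zero_at₂ hA χ (hA₂ χ) hs₁ hs₂ hsu h1
  have hf : Ideal.span {(1 : k) ⊗ₜ[k] F.X.f} ≠ (⊥ : Ideal (F.X.R₁ k)) := by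
    rw [ne_eq, Ideal.span_singleton_eq_bot]
    intro h
    have h' := congrArg (F.X.res₁ k) h
    rw [map_zero, ← Charts.t₀] at h'
    have := F.X.t₀_mul_s₀ k
    rw [h', zero_mul] at this
    exact zero_ne_one this
  have hg : Ideal.span {(1 : k) ⊗ₜ[k] F.X.g} ≠ (⊥ : Ideal (F.X.R₂ k)) := by
    rw [ne_eq, Ideal.span_singleton_eq_bot]
    intro h
    have h' := congrArg (F.X.res₂ k) h
    rw [map_zero, ← Charts.s₀] at h'
    have := F.X.t₀_mul_s₀ k
    rw [h', mul_zero] at this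
    exact zero_ne_one this
  haveI := (finite_quotient_chart (K := k) F.X.isFree.1 hf).1
  haveI := (finite_quotient_chart (K := k) F.X.isFree.2 hg).1
  haveI := finite_zeros (K := k) (Ideal.span {(1 : k) ⊗ₜ[k] F.X.f} : Ideal (F.X.R₁ k))
  haveI := finite_zeros (K := k) (Ideal.span {(1 : k) ⊗ₜ[k] F.X.g} : Ideal (F.X.R₂ k))
  let V := LinearMap.ker (dlt M.1)
  let S₁ := {Q : F.X.R₁ k →ₐ[k] k // ∀ x ∈ Ideal.span {(1 : k) ⊗ₜ[k] F.X.f}, Q x = 0}
  let S₂ := {Q : F.X.R₂ k →ₐ[k] k // ∀ x ∈ Ideal.span {(1 : k) ⊗ₜ[k] F.X.g}, Q x = 0}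
  let p : (S₁ ⊕ S₂) ⊕ Unit → Submodule k V
    | .inl (.inl Q) => LinearMap.ker (LinearMap.pi fun i =>
        Q.1.toLinearMap ∘ₗ LinearMap.proj i ∘ₗ (fixed k M.1.e₁).subtype ∘ₗ
          LinearMap.fst k _ _ ∘ₗ V.subtype)
    | .inl (.inr Q) => LinearMap.ker (LinearMap.pi fun i =>
        Q.1.toLinearMap ∘ₗ LinearMap.proj i ∘ₗ (fixed k M.1.e₂).subtype ∘ₗ
          LinearMap.snd k _ _ ∘ₗ V.subtype)
    | .inr _ => ⊥
  have hMchi : M.1.chi = c₀ + (A.chi + 1 - 2 * c₀).toNat := by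
    have h := F.chi_tensor_add A Nd
    show (A.tensor Nd).chi = _
    omega
  have hne : ∀ o, p o ≠ ⊤ := by
    rintro ((Q | Q) | ⟨⟩) htop
    · obtain ⟨q, hq, i, hi⟩ := hb₁ Q.1
      have h : (⟨q, hq⟩ : V) ∈ p (.inl (.inl Q)) := htop ▸ Submodule.mem_top
      exact hi (congrFun (LinearMap.mem_ker.1 h) i)
    · obtain ⟨q, hq, i, hi⟩ := hb₂ Q.1
      have h : (⟨q, hq⟩ : V) ∈ p (.inl (.inr Q)) := htop ▸ Submodule.mem_top
      exact hi (congrFun (LinearMap.mem_ker.1 h) i)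
    · obtain ⟨Q, -⟩ := exists_zero_of_ne_top (K := k)
        (bot_ne_top : (⊥ : Ideal (F.X.R₁ k)) ≠ ⊤)
      obtain ⟨q, hq, i, hi⟩ := hb₁ Q
      have h : (⟨q, hq⟩ : V) ∈ p (.inr ()) := htop ▸ Submodule.mem_top
      have h0 : q = 0 := congrArg Subtype.val ((Submodule.mem_bot k).1 h)
      rw [h0] at hi
      exact hi (map_zero _)
  obtain ⟨v, hv⟩ : ∃ v : V, ∀ o, v ∉ p o := by
    by_contra! h
    have huniv : ⋃ o, (p o : Set V) = Set.univ :=
      Set.eq_univ_of_forall fun v => Set.mem_iUnion.2 (h v)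
    obtain ⟨o, ho⟩ := Subspace.exists_eq_top_of_iUnion_eq_univ (k := k) (E := V) (p := p) huniv
    exact hne o ho
  have hv0 : ((v.1.1.1, v.1.2.1) :
      (Fin M.1.n₁ → F.X.R₁ k) × (Fin M.1.n₂ → F.X.R₂ k)) ∈ M.1.H0 :=
    (Degree.kerEquiv M.1 v).2
  obtain ⟨ht₁, ht₂⟩ := M.1.H0_ne_zero hv0 fun h => hv (.inr ())
    ((Submodule.mem_bot k).2 ((Degree.kerEquiv M.1).map_eq_zero_iff.1 (Subtype.ext h)))
  let g : M.1.Gen := ⟨v.1.1.1, v.1.2.1, hv0.1, hv0.2.1, ht₁, ht₂, hv0.2.2⟩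
  refine ⟨M, g, ?_, ?_, hMchi, ?_⟩
  · by_contra htop
    obtain ⟨Q, hQ⟩ := exists_zero_of_ne_top (K := k) htop
    exact hv (.inl (.inl ⟨Q, fun x hx => hQ x (Ideal.mem_sup_right hx)⟩))
      (LinearMap.mem_ker.2 (funext fun i =>
        hQ _ (Ideal.mem_sup_left (Ideal.subset_span ⟨i, rfl⟩))))
  · by_contra htop
    obtain ⟨Q, hQ⟩ := exists_zero_of_ne_top (K := k) htop
    exact hv (.inl (.inr ⟨Q, fun x hx => hQ x (Ideal.mem_sup_right hx)⟩))
      (LinearMap.mem_ker.2 (funext fun i =>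
        hQ _ (Ideal.mem_sup_left (Ideal.subset_span ⟨i, rfl⟩))))
  · rw [hTc]
    change _ = Cls.of ⟨A, Datum.isRigidifiable_of_field _⟩ *
      (Cls.of T * (Cls.of ⟨A, Datum.isRigidifiable_of_field _⟩)⁻¹) * _
    exact congrArg (· * _) (mul_inv_cancel_comm_assoc _ _).symm

end FLTAgent.PicScheme
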