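import Fermat.Agent.PicScheme.Points.Good

/-!
# A high twist by the fibre over infinity has no first cohomology and no base point there
-/

set_option autoImplicit false
set_option linter.style.haveILetI false

noncomputable section

universe u

open Matrix TensorProduct

namespace FLTAgent.PicScheme

open Degree

variable {k : Type u} [Field k] {X : Charts k}

theorem finCongr_prod {n : ℕ} (i : Fin n) (a : Fin 1) :
    finCongr (mul_one n) (finProdFinEquiv (i, a)) = i := by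
  ext
  show a.val + 1 * i.val = i.val
  omega

section

variable {A : Type u} [CommRing A] [Algebra k A]

/-- Twisting by a power of the function. -/
def Datum.shiftBy (L : Datum X A) (m : ℕ) : Datum X A where
  n₁ := L.n₁
  n₂ := L.n₂
  e₁ := L.e₁
  e₂ := L.e₂
  u := X.s₀ A ^ m • L.u
  v := X.t₀ A ^ m • L.v
  rank₁ := L.rank₁
  rank₂ := L.rank₂
  uv := by
    rw [Matrix.smul_mul, Matrix.mul_smul, smul_smul, ← mul_pow, X.s₀_mul_t₀, one_pow, one_smul, L.uv]
  vu := by
    rw [Matrix.smul_mul, Matrix.mul_smul, smul_smul, ← mul_pow, X.t₀_mul_s₀, one_pow, one_smul, L.vu]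
  u_cut := by rw [Matrix.smul_mul, L.u_cut]
  v_cut := by rw [Matrix.smul_mul, L.v_cut]

variable (X A) in
/-- The multiple of the fibre over infinity. -/
def Datum.infty (m : ℕ) : Datum X A := (Datum.one X A).shiftBy m

theorem Datum.infty_isRigidifiable (m : ℕ) : (Datum.infty X A m).IsRigidifiable :=
  Datum.one_isRigidifiable (X := X) (A := A)

theorem Datum.map_shiftBy (L : Datum X A) (m : ℕ) {A' : Type u} [CommRing A'] [Algebra k A']
    (φ : A →ₐ[k] A') : (L.shiftBy m).map φ = (L.map φ).shiftBy m := by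
  have hs : Datum.chartMap X.B₀ φ (X.s₀ A) = X.s₀ A' := by
    rw [Charts.s₀, Datum.chartMap_res₂]
    simp [Charts.s₀, Datum.chartMap]
  have ht : Datum.chartMap X.B₀ φ (X.t₀ A) = X.t₀ A' := by
    rw [Charts.t₀, Datum.chartMap_res₁]
    simp [Charts.t₀, Datum.chartMap]
  simp only [Datum.map, Datum.shiftBy, Datum.mk.injEq, heq_eq_eq, true_and]
  constructor <;> ext i j <;> simp [hs, ht] <;> rfl

theorem Datum.map_infty (m : ℕ) {A' : Type u} [CommRing A'] [Algebra k A']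
    (φ : A →ₐ[k] A') : (Datum.infty X A m).map φ = Datum.infty X A' m := by
  rw [Datum.infty, Datum.map_shiftBy, Datum.map_one', Datum.infty]

/-- Twisting by the multiple of the fibre over infinity. -/
def Datum.inftyTensorIso (L : Datum X A) (m : ℕ) :
    Datum.Iso (L.tensor (Datum.infty X A m)) (L.shiftBy m) :=
  Datum.isoOfEquiv _ _ (finCongr (mul_one L.n₁)) (finCongr (mul_one L.n₂))
    (fun i j => by
      obtain ⟨⟨i, a⟩, rfl⟩ := finProdFinEquiv.surjective i
      obtain ⟨⟨j, b⟩, rfl⟩ := finProdFinEquiv.surjective j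
      refine Eq.trans ?_ (kr_apply L.e₁ (Datum.infty X A m).e₁ i a j b).symm
      obtain rfl : a = (0 : Fin 1) := Subsingleton.elim (α := Fin 1) _ _
      obtain rfl : b = (0 : Fin 1) := Subsingleton.elim (α := Fin 1) _ _
      refine Eq.trans ?_ ((congrArg (L.e₁ i j * ·) (Matrix.one_apply_eq (0 : Fin 1))).trans
        (mul_one _)).symm
      show L.e₁ _ _ = _
      congr 1 <;> exact finCongr_prod _ _)
    (fun i j => by
      obtain ⟨⟨i, a⟩, rfl⟩ := finProdFinEquiv.surjective i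
      obtain ⟨⟨j, b⟩, rfl⟩ := finProdFinEquiv.surjective j
      refine Eq.trans ?_ (kr_apply L.e₂ (Datum.infty X A m).e₂ i a j b).symm
      obtain rfl : a = (0 : Fin 1) := Subsingleton.elim (α := Fin 1) _ _
      obtain rfl : b = (0 : Fin 1) := Subsingleton.elim (α := Fin 1) _ _
      refine Eq.trans ?_ ((congrArg (L.e₂ i j * ·) (Matrix.one_apply_eq (0 : Fin 1))).trans
        (mul_one _)).symm
      show L.e₂ _ _ = _
      congr 1 <;> exact finCongr_prod _ _)
    (fun i j => by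
      obtain ⟨⟨i, a⟩, rfl⟩ := finProdFinEquiv.surjective i
      obtain ⟨⟨j, b⟩, rfl⟩ := finProdFinEquiv.surjective j
      refine Eq.trans ?_ (kr_apply L.u (Datum.infty X A m).u i a j b).symm
      obtain rfl : a = (0 : Fin 1) := Subsingleton.elim (α := Fin 1) _ _
      obtain rfl : b = (0 : Fin 1) := Subsingleton.elim (α := Fin 1) _ _
      show X.s₀ A ^ m * L.u _ _ = L.u i j * (X.s₀ A ^ m * (1 : Matrix (Fin 1) (Fin 1) (X.R₀ A)) 0 0)
      rw [Matrix.one_apply_eq, mul_one, mul_comm]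
      congr 2 <;> exact finCongr_prod _ _)

end

variable {K : Type u} [Field K] [Algebra k K]

theorem exists_ne_zero_diag {R : Type u} [CommRing R] [Algebra K R] {n : ℕ}
    {e : Matrix (Fin n) (Fin n) R} (he : IsRankOne e) (ρ : R →ₐ[K] K) : ∃ i, ρ (e i i) ≠ 0 := by
  by_contra! h
  have h1 := congrArg ρ he.trace
  rw [map_one, Matrix.trace, map_sum] at h1
  simp only [Matrix.diag_apply, h, Finset.sum_const_zero] at h1
  exact zero_ne_one h1

theorem column_fixed {R : Type u} [CommRing R] [Algebra K R] {n : ℕ}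
    {e : Matrix (Fin n) (Fin n) R} (he : e * e = e) (i : Fin n) :
    (fun j => e j i) ∈ fixed K e :=
  mem_fixed.2 (funext fun j => congrFun (congrFun he j) i)

theorem smul_fixed {R : Type u} [CommRing R] [Algebra K R] {n : ℕ}
    {e : Matrix (Fin n) (Fin n) R} (c : R) {p : Fin n → R} (hp : p ∈ fixed K e) :
    c • p ∈ fixed K e := by
  rw [mem_fixed] at hp ⊢
  rw [Matrix.mulVec_smul, hp]

/-- Some twist is good. -/
theorem exists_good_shiftBy (L : Datum X K) : ∃ m, Good (L.shiftBy m) := by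
  classical
  set E := L.e₂.map (X.res₂ K) with hE
  haveI := (hasFiniteComplex L).2
  obtain ⟨σ, hσ⟩ := Module.finite_def.1
    (inferInstance : Module.Finite K
      (fixed K (L.e₂.map (X.res₂ K)) ⧸ LinearMap.range (dlt L)))
  choose z hz using fun q : fixed K (L.e₂.map (X.res₂ K)) ⧸ LinearMap.range (dlt L) =>
    Submodule.mkQ_surjective _ q
  have gen : ∀ w : fixed K (L.e₂.map (X.res₂ K)), ∃ (N : ℕ) (y : Fin L.n₂ → X.R₂ K),
      X.res₂ K ∘ y = X.s₀ K ^ N • (w : Fin L.n₂ → X.R₀ K) := by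
    intro w
    choose N y hy using fun i => X.exists_res₂ K ((w : Fin L.n₂ → X.R₀ K) i)
    refine ⟨Finset.univ.sup N, fun i => ((1 : K) ⊗ₜ X.g) ^ (Finset.univ.sup N - N i) * y i,
      funext fun i => ?_⟩
    rw [Function.comp_apply, map_mul, map_pow, ← Charts.s₀, ← hy, ← mul_assoc, ← pow_add,
      Nat.sub_add_cancel (Finset.le_sup (f := N) (Finset.mem_univ i))]
    rfl
  have gen1 : ∀ w : Fin L.n₁ → X.R₀ K, ∃ (N : ℕ) (y : Fin L.n₁ → X.R₁ K),
      X.res₁ K ∘ y = X.t₀ K ^ N • w := by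
    intro w
    choose N y hy using fun i => X.exists_res₁ K (w i)
    refine ⟨Finset.univ.sup N, fun i => ((1 : K) ⊗ₜ X.f) ^ (Finset.univ.sup N - N i) * y i,
      funext fun i => ?_⟩
    rw [Function.comp_apply, map_mul, map_pow, ← Charts.t₀, ← hy, ← mul_assoc, ← pow_add,
      Nat.sub_add_cancel (Finset.le_sup (f := N) (Finset.mem_univ i))]
    rfl
  choose Nz yz hyz using gen
  choose Na ya hya using fun i : Fin L.n₂ =>
    gen1 (L.v *ᵥ (X.res₂ K ∘ fun j => L.e₂ j i))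
  have hmemE : ∀ i : Fin L.n₁,
      L.u *ᵥ (X.res₁ K ∘ fun j => L.e₁ j i) ∈ fixed K (L.e₂.map (X.res₂ K)) := fun i =>
    mem_fixed.2 (by rw [Matrix.mulVec_mulVec, e₂_mul_u])
  obtain ⟨m, hm1, hm2, hm3⟩ : ∃ m, (∀ q ∈ σ, Nz (z q) ≤ m) ∧ (∀ i, Na i ≤ m) ∧
      ∀ i, Nz ⟨_, hmemE i⟩ ≤ m :=
    ⟨max (σ.sup fun q => Nz (z q))
      (max (Finset.univ.sup Na) (Finset.univ.sup fun i => Nz ⟨_, hmemE i⟩)),
      fun q hq => le_max_of_le_left (Finset.le_sup (f := fun q => Nz (z q)) hq),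
      fun i => le_max_of_le_right (le_max_of_le_left (Finset.le_sup (Finset.mem_univ i))),
      fun i => le_max_of_le_right (le_max_of_le_right
        (Finset.le_sup (f := fun i => Nz ⟨_, hmemE i⟩) (Finset.mem_univ i)))⟩
  have hd : ∀ (x : fixed K L.e₁) (y : fixed K L.e₂),
      ((dlt (L.shiftBy m) (x, y)).1 : Fin L.n₂ → X.R₀ K) =
        X.s₀ K ^ m • (L.u *ᵥ (X.res₁ K ∘ (x : Fin L.n₁ → X.R₁ K))) -
          X.res₂ K ∘ (y : Fin L.n₂ → X.R₂ K) := fun x y =>
    (dlt_coe' (L.shiftBy m) (x, y)).trans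
      (congrArg (· - X.res₂ K ∘ (y : Fin L.n₂ → X.R₂ K)) (Matrix.smul_mulVec _ _ _))
  have hres : ∀ (N : ℕ) (y : Fin L.n₂ → X.R₂ K),
      X.res₂ K ∘ (((1 : K) ⊗ₜ[k] X.g) ^ N • y) = X.s₀ K ^ N • (X.res₂ K ∘ y) := fun N y =>
    funext fun i => by simp only [Function.comp_apply, Pi.smul_apply, smul_eq_mul, map_mul, map_pow, Charts.s₀]
  refine ⟨m, ⟨fun w => ?_, fun S => ?_⟩⟩
  · let W : Submodule K (fixed K E) :=
      ((LinearMap.range (dlt (L.shiftBy m))).map (fixed K E).subtype).comap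
        ((((LinearMap.lsmul (X.R₀ K) (Fin L.n₂ → X.R₀ K)) (X.s₀ K ^ m)).restrictScalars K) ∘ₗ
          (fixed K E).subtype)
    have hW : W = ⊤ := by
      rw [eq_top_iff]
      intro v _
      have h1 : v ∈ LinearMap.range (dlt L) ⊔ Submodule.span K (z '' (σ : Set _)) := by
        have h2 : Submodule.map (LinearMap.range (dlt L)).mkQ
            (Submodule.span K (z '' (σ : Set _))) = ⊤ := by
          rw [Submodule.map_span, Set.image_image]
          simp only [hz, Set.image_id', hσ]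
        have h3 := congrArg (Submodule.comap (LinearMap.range (dlt L)).mkQ) h2
        rw [Submodule.comap_map_mkQ, Submodule.comap_top] at h3
        rw [h3]
        trivial
      refine (sup_le ?_ (Submodule.span_le.2 ?_) : _ ≤ W) h1
      · rintro _ ⟨⟨x, y⟩, rfl⟩
        refine ⟨dlt (L.shiftBy m)
          (x, ⟨((1 : K) ⊗ₜ[k] X.g) ^ m • (y : Fin L.n₂ → X.R₂ K), smul_fixed _ y.2⟩),
          ⟨_, rfl⟩, ?_⟩
        refine (hd _ _).trans ?_
        show _ = X.s₀ K ^ m • (dlt L (x, y) : Fin L.n₂ → X.R₀ K)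
        rw [dlt_coe', smul_sub, hres]
      · rintro _ ⟨q, hq, rfl⟩
        refine ⟨dlt (L.shiftBy m) ((0 : fixed K L.e₁), -toFixed K L.rank₂.idem
          (((1 : K) ⊗ₜ[k] X.g) ^ (m - Nz (z q)) • yz (z q))), ⟨_, rfl⟩, ?_⟩
        refine (hd _ _).trans ?_
        show _ = X.s₀ K ^ m • (z q : Fin L.n₂ → X.R₀ K)
        have h4 : X.res₂ K ∘ (L.e₂ *ᵥ (((1 : K) ⊗ₜ[k] X.g) ^ (m - Nz (z q)) • yz (z q))) =
            X.s₀ K ^ m • (z q : Fin L.n₂ → X.R₀ K) := by
          rw [← res_mulVec₂, hres, hyz, smul_smul, ← pow_add, Nat.sub_add_cancel (hm1 q hq),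
            mem_fixed.1 (smul_fixed _ (z q).2)]
        have h6 : X.res₁ K ∘ ((0 : fixed K L.e₁) : Fin L.n₁ → X.R₁ K) = 0 :=
          funext fun _ => map_zero _
        rw [← h4, h6, Matrix.mulVec_zero, smul_zero, zero_sub]
        funext i
        simp [toFixed_coe]
    have h5 : (⟨X.t₀ K ^ m • (w.1 : Fin L.n₂ → X.R₀ K), smul_fixed _ w.2⟩ : fixed K E) ∈ W := by
      rw [hW]
      trivial
    obtain ⟨_, ⟨p, rfl⟩, hp⟩ := h5
    refine ⟨p, Subtype.ext ?_⟩
    refine hp.trans ?_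
    show X.s₀ K ^ m • X.t₀ K ^ m • (w.1 : Fin L.n₂ → X.R₀ K) = _
    rw [smul_smul, ← mul_pow, X.s₀_mul_t₀, one_pow, one_smul]
  cases S with
  | none =>
    obtain ⟨i, hi⟩ := exists_ne_zero_diag L.rank₁ (ptEval K X.pt)
    refine ⟨(⟨_, column_fixed L.rank₁.idem i⟩, toFixed K L.rank₂.idem
      (((1 : K) ⊗ₜ[k] X.g) ^ (m - Nz ⟨_, hmemE i⟩) • yz ⟨_, hmemE i⟩)), Subtype.ext ?_, i, hi⟩
    refine (hd _ _).trans ?_
    refine sub_eq_zero.2 ?_
    rw [toFixed_coe, ← res_mulVec₂, hres, hyz]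
    show _ = E *ᵥ _
    rw [smul_smul, ← pow_add, Nat.sub_add_cancel (hm3 i), mem_fixed.1 (smul_fixed _ (hmemE i))]
  | some Q =>
    obtain ⟨i, hi⟩ := exists_ne_zero_diag L.rank₂ Q.1
    refine ⟨(toFixed K L.rank₁.idem (((1 : K) ⊗ₜ[k] X.f) ^ (m - Na i) • ya i),
      ⟨_, column_fixed L.rank₂.idem i⟩), Subtype.ext ?_, i, hi⟩
    refine (hd _ _).trans ?_
    have hres1 : X.res₁ K ∘ (((1 : K) ⊗ₜ[k] X.f) ^ (m - Na i) • ya i) =
        X.t₀ K ^ (m - Na i) • (X.res₁ K ∘ ya i) := funext fun l => by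
      simp only [Function.comp_apply, Pi.smul_apply, smul_eq_mul, map_mul, map_pow, Charts.t₀]
    refine sub_eq_zero.2 ?_
    rw [toFixed_coe, ← res_mulVec₁, hres1, hya, smul_smul,
      ← pow_add, Nat.sub_add_cancel (hm2 i), Matrix.mulVec_mulVec, L.u_cut, Matrix.mulVec_smul,
      smul_smul, ← mul_pow, X.s₀_mul_t₀, one_pow, one_smul, Matrix.mulVec_mulVec, L.uv,
      res_mulVec₂]
    exact congrArg (X.res₂ K ∘ ·) (mem_fixed.1 (column_fixed (K := K) L.rank₂.idem i))

end FLTAgent.PicScheme
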