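import Fermat.Agent.PicScheme.Props.Section
import Fermat.Agent.PicScheme.Points.Colength
import Fermat.Agent.PicScheme.Tensor
import Fermat.Agent.PicScheme.Points.Shift

/-!
# The product of a datum without first cohomology and a datum with a section
-/

set_option autoImplicit false
set_option linter.style.haveILetI false

noncomputable section

universe u

open Matrix TensorProduct

namespace FLTAgent.PicScheme

open Degree

section Vec

variable {R S : Type u} [CommRing R] [CommRing S] {a b c d : ℕ}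

/-- A matrix as a vector on the numbered pairs. -/
def vecOf (Z : Matrix (Fin a) (Fin b) R) : Fin (a * b) → R :=
  fun x => Z (finProdFinEquiv.symm x).1 (finProdFinEquiv.symm x).2

theorem vecOf_apply (Z : Matrix (Fin a) (Fin b) R) (i : Fin a) (j : Fin b) :
    vecOf Z (finProdFinEquiv (i, j)) = Z i j := by
  simp [vecOf]

theorem vecOf_sub (Z Z' : Matrix (Fin a) (Fin b) R) : vecOf (Z - Z') = vecOf Z - vecOf Z' := rfl

theorem map_vecOf (φ : R →+* S) (Z : Matrix (Fin a) (Fin b) R) :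
    φ ∘ vecOf Z = vecOf (Z.map φ) := rfl

theorem kr_mulVec_vecOf (P : Matrix (Fin c) (Fin a) R) (Q : Matrix (Fin d) (Fin b) R)
    (Z : Matrix (Fin a) (Fin b) R) : kr P Q *ᵥ vecOf Z = vecOf (P * Z * Q.transpose) := by
  funext w
  obtain ⟨⟨i, j⟩, rfl⟩ := finProdFinEquiv.surjective w
  rw [kr_mulVec_apply, vecOf_apply, Matrix.mul_apply, Finset.sum_comm]
  refine Finset.sum_congr rfl fun y _ => ?_
  rw [Matrix.mul_apply, Finset.sum_mul]
  refine Finset.sum_congr rfl fun x _ => ?_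
  rw [vecOf_apply, Matrix.transpose_apply]
  ring

theorem mul_vecMulVec_mul (P : Matrix (Fin c) (Fin a) R) (Q : Matrix (Fin d) (Fin b) R)
    (v : Fin a → R) (w : Fin b → R) :
    P * vecMulVec v w * Q.transpose = vecMulVec (P *ᵥ v) (Q *ᵥ w) := by
  rw [Matrix.mul_vecMulVec, Matrix.vecMulVec_mul, Matrix.vecMul_transpose]

theorem map_vecMulVec' (φ : R →+* S) (v : Fin a → R) (w : Fin b → R) :
    (vecMulVec v w).map φ = vecMulVec (φ ∘ v) (φ ∘ w) :=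
  Matrix.ext fun i j => map_mul φ _ _

theorem eq_vecOf (z : Fin (a * b) → R) :
    z = vecOf (Matrix.of fun i j => z (finProdFinEquiv (i, j))) :=
  funext fun w => congrArg z (finProdFinEquiv.apply_symm_apply w).symm

theorem vecOf_injective : Function.Injective (vecOf : Matrix (Fin a) (Fin b) R → _) :=
  fun Z Z' h => Matrix.ext fun i j => by
    rw [← vecOf_apply Z, h, vecOf_apply]

end Vec

variable {k : Type u} [Field k] {X : Charts k} {K : Type u} [Field K] [Algebra k K]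
  [IsDomain (X.R₁ K)] [IsDomain (X.R₂ K)] {A N : Datum X K}

/-- The overlap of a product is spanned by the sections of the first factor times a section of the
second one and by the second chart. -/
theorem exists_dlt_product₂ (hA : Function.Surjective (dlt A))
    {s₁ : Fin N.n₁ → X.R₁ K} {s₂ : Fin N.n₂ → X.R₂ K} (hs₁ : N.e₁ *ᵥ s₁ = s₁)
    (hs₂ : N.e₂ *ᵥ s₂ = s₂) (hs : N.u *ᵥ (X.res₁ K ∘ s₁) = X.res₂ K ∘ s₂) (h0 : s₂ ≠ 0)
    (z : fixed K ((A.tensor N).e₂.map (X.res₂ K))) :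
    ∃ p, dlt (A.tensor N) p = z ∧ ∀ χ : X.R₁ K →ₐ[K] K, (∀ j, χ (s₁ j) = 0) →
      ∀ i, χ (p.1.1 i) = 0 := by
  obtain ⟨j, hj⟩ := Function.ne_iff.1 h0
  obtain ⟨-, q, hq, hqc⟩ := finite_quotient_chart X.isFree.2
    (I := Ideal.span ({s₂ j} : Set (X.R₂ K))) (by rwa [ne_eq, Ideal.span_singleton_eq_bot])
  set Z : Matrix (Fin A.n₂) (Fin N.n₂) (X.R₀ K) :=
    Matrix.of fun i l => z.1 (finProdFinEquiv (i, l))
  set EA := A.e₂.map (X.res₂ K)
  set EN := N.e₂.map (X.res₂ K)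
  have hZ : EA * Z * EN.transpose = Z := vecOf_injective (by
    rw [← kr_mulVec_vecOf, show vecOf Z = z.1 from (eq_vecOf z.1).symm]
    exact (congrArg (· *ᵥ z.1) (kr_map (X.res₂ K) A.e₂ N.e₂).symm).trans (mem_fixed.1 z.2))
  have hEA : EA * EA = EA := e₂_idem A
  have hEN : EN * EN = EN := e₂_idem N
  have hrow : Z * EN.transpose = Z := by
    conv_lhs => rw [← hZ, Matrix.mul_assoc, ← Matrix.transpose_mul, hEN, hZ]
  choose x r hxr using fun i => N.exists_near₂ hs₂ hq hqc (z := Z i)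
    (funext fun l => by
      refine Eq.trans ?_ (congrFun (congrFun hrow i) l)
      simp only [Matrix.mulVec, dotProduct, Matrix.mul_apply, Matrix.transpose_apply]
      exact Finset.sum_congr rfl fun _ _ => mul_comm _ _)
  obtain ⟨⟨a, b⟩, hab⟩ := hA (toFixed K hEA r)
  have hr : A.u *ᵥ (X.res₁ K ∘ a.1) - X.res₂ K ∘ b.1 = EA *ᵥ r :=
    (dlt_coe' A (a, b)).symm.trans (congrArg Subtype.val hab)
  let Xm : Matrix (Fin A.n₂) (Fin N.n₂) (X.R₂ K) := Matrix.of fun i l => (x i).1 l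
  have hσ : EN *ᵥ (X.res₂ K ∘ s₂) = X.res₂ K ∘ s₂ := by rw [res_mulVec₂, hs₂]
  have hsplit : Z = (A.e₂ * Xm * N.e₂.transpose).map (X.res₂ K) -
      vecMulVec (EA *ᵥ r) (X.res₂ K ∘ s₂) := by
    conv_lhs => rw [← hZ, show Z = Xm.map (X.res₂ K) - vecMulVec r (X.res₂ K ∘ s₂) from
      Matrix.ext fun i l => by
        have := congrFun (hxr i) l
        simp only [Pi.sub_apply, Function.comp_apply, Pi.smul_apply, smul_eq_mul] at this
        simp only [Matrix.sub_apply, Matrix.map_apply, vecMulVec_apply, Function.comp_apply, Xm,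
          Matrix.of_apply, ← this, sub_sub_cancel]]
    rw [Matrix.mul_sub, Matrix.sub_mul, mul_vecMulVec_mul, hσ, Matrix.map_mul, Matrix.map_mul,
      ← Matrix.transpose_map]
  let px : Fin (A.n₁ * N.n₁) → X.R₁ K := vecOf (vecMulVec (-a.1) s₁)
  let py : Fin (A.n₂ * N.n₂) → X.R₂ K :=
    vecOf (vecMulVec (-b.1) s₂ - A.e₂ * Xm * N.e₂.transpose)
  have hx : kr A.e₁ N.e₁ *ᵥ px = px := by
    rw [kr_mulVec_vecOf, mul_vecMulVec_mul, hs₁, Matrix.mulVec_neg, mem_fixed.1 a.2]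
  have hy : kr A.e₂ N.e₂ *ᵥ py = py := by
    rw [kr_mulVec_vecOf, Matrix.mul_sub, Matrix.sub_mul, mul_vecMulVec_mul, hs₂, Matrix.mulVec_neg,
      mem_fixed.1 b.2]
    simp only [py, ← Matrix.mul_assoc, A.rank₂.idem]
    rw [Matrix.mul_assoc _ N.e₂.transpose, ← Matrix.transpose_mul, N.rank₂.idem]
  refine ⟨(⟨px, mem_fixed.2 hx⟩, ⟨py, mem_fixed.2 hy⟩), Subtype.ext ?_, fun χ hχ w => ?_⟩
  · refine (dlt_coe' (A.tensor N) _).trans ?_
    show kr A.u N.u *ᵥ ((X.res₁ K).toRingHom ∘ px) - (X.res₂ K).toRingHom ∘ py = z.1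
    have hn : ∀ {R S : Type u} [CommRing R] [CommRing S] (φ : R →+* S) {n : ℕ} (v : Fin n → R),
        φ ∘ (-v) = -(φ ∘ v) := fun φ _ v => funext fun i => map_neg φ _
    rw [map_vecOf, map_vecOf, kr_mulVec_vecOf, map_vecMulVec', mul_vecMulVec_mul,
      Matrix.map_sub _ (map_sub _), map_vecMulVec', hn, hn, Matrix.mulVec_neg]
    show vecOf (vecMulVec (-(A.u *ᵥ (X.res₁ K ∘ a.1))) (N.u *ᵥ (X.res₁ K ∘ s₁))) -
      vecOf (vecMulVec (-(X.res₂ K ∘ b.1)) (X.res₂ K ∘ s₂) -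
        (A.e₂ * Xm * N.e₂.transpose).map (X.res₂ K)) = z.1
    rw [hs, ← vecOf_sub, eq_vecOf z.1]
    refine congrArg vecOf ?_
    show _ = Z
    rw [hsplit, ← hr, Matrix.sub_vecMulVec, Matrix.neg_vecMulVec, Matrix.neg_vecMulVec]
    abel
  · show χ (px w) = 0
    show χ ((-a.1) _ * s₁ _) = 0
    rw [map_mul, hχ, mul_zero]

/-- The overlap of a product is spanned by the sections of the first factor times a section of the
second one and by the first chart. -/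
theorem exists_dlt_product₁ (hA : Function.Surjective (dlt A))
    {s₁ : Fin N.n₁ → X.R₁ K} {s₂ : Fin N.n₂ → X.R₂ K} (hs₁ : N.e₁ *ᵥ s₁ = s₁)
    (hs₂ : N.e₂ *ᵥ s₂ = s₂) (hs : N.u *ᵥ (X.res₁ K ∘ s₁) = X.res₂ K ∘ s₂) (h0 : s₁ ≠ 0)
    (z : fixed K ((A.tensor N).e₂.map (X.res₂ K))) :
    ∃ p, dlt (A.tensor N) p = z ∧ ∀ χ : X.R₂ K →ₐ[K] K, (∀ j, χ (s₂ j) = 0) →
      ∀ i, χ (p.2.1 i) = 0 := by
  obtain ⟨j, hj⟩ := Function.ne_iff.1 h0
  obtain ⟨-, q, hq, hqc⟩ := finite_quotient_chart X.isFree.1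
    (I := Ideal.span ({s₁ j} : Set (X.R₁ K))) (by rwa [ne_eq, Ideal.span_singleton_eq_bot])
  set Z : Matrix (Fin A.n₂) (Fin N.n₂) (X.R₀ K) :=
    Matrix.of fun i l => z.1 (finProdFinEquiv (i, l))
  set EA := A.e₂.map (X.res₂ K)
  set EN := N.e₂.map (X.res₂ K)
  have hZ : EA * Z * EN.transpose = Z := vecOf_injective (by
    rw [← kr_mulVec_vecOf, show vecOf Z = z.1 from (eq_vecOf z.1).symm]
    exact (congrArg (· *ᵥ z.1) (kr_map (X.res₂ K) A.e₂ N.e₂).symm).trans (mem_fixed.1 z.2))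
  have hEA : EA * EA = EA := e₂_idem A
  have hEN : EN * EN = EN := e₂_idem N
  have hrow : Z * EN.transpose = Z := by
    conv_lhs => rw [← hZ, Matrix.mul_assoc, ← Matrix.transpose_mul, hEN, hZ]
  have hcol : EA * Z = Z := by
    conv_lhs => rw [← hrow, ← Matrix.mul_assoc, hZ]
  choose x r hxr using fun i => N.exists_near₁ hs₁ hs hq hqc (z := (A.v * Z) i)
    (funext fun l => by
      refine Eq.trans ?_ (congrFun (congrFun
        ((Matrix.mul_assoc A.v Z EN.transpose).trans (congrArg (A.v * ·) hrow)) i) l)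
      simp only [Matrix.mulVec, dotProduct, Matrix.mul_apply, Matrix.transpose_apply]
      exact Finset.sum_congr rfl fun _ _ => mul_comm _ _)
  have hur : A.u *ᵥ r ∈ fixed K EA := mem_fixed.2 (by rw [Matrix.mulVec_mulVec, e₂_mul_u])
  obtain ⟨⟨a, b⟩, hab⟩ := hA ⟨A.u *ᵥ r, hur⟩
  have hr : A.u *ᵥ (X.res₁ K ∘ a.1) - X.res₂ K ∘ b.1 = A.u *ᵥ r :=
    (dlt_coe' A (a, b)).symm.trans (congrArg Subtype.val hab)
  let Xm : Matrix (Fin A.n₁) (Fin N.n₁) (X.R₁ K) := Matrix.of fun i l => (x i).1 l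
  have hsplit : Z = A.u * Xm.map (X.res₁ K) * N.u.transpose -
      vecMulVec (A.u *ᵥ r) (X.res₂ K ∘ s₂) := by
    conv_lhs => rw [← hcol, show EA = A.u * A.v from A.uv.symm, Matrix.mul_assoc,
      show A.v * Z = Xm.map (X.res₁ K) * N.u.transpose - vecMulVec r (X.res₂ K ∘ s₂) from
      Matrix.ext fun i l => by
        have := congrFun (hxr i) l
        simp only [Pi.sub_apply, Pi.smul_apply, smul_eq_mul] at this
        have e : (Xm.map (X.res₁ K) * N.u.transpose) i l =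
            (N.u *ᵥ (X.res₁ K ∘ (x i).1)) l := by
          simp only [Matrix.mulVec, dotProduct, Matrix.mul_apply, Matrix.transpose_apply]
          exact Finset.sum_congr rfl fun _ _ => mul_comm _ _
        simp only [Matrix.sub_apply, vecMulVec_apply, Function.comp_apply] at this ⊢
        rw [e, ← this, sub_sub_cancel]]
    rw [Matrix.mul_sub, Matrix.mul_vecMulVec, ← Matrix.mul_assoc]
  let px : Fin (A.n₁ * N.n₁) → X.R₁ K :=
    vecOf (A.e₁ * Xm * N.e₁.transpose - vecMulVec a.1 s₁)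
  let py : Fin (A.n₂ * N.n₂) → X.R₂ K := vecOf (vecMulVec (-b.1) s₂)
  have hx : kr A.e₁ N.e₁ *ᵥ px = px := by
    rw [kr_mulVec_vecOf, Matrix.mul_sub, Matrix.sub_mul, mul_vecMulVec_mul, hs₁,
      mem_fixed.1 a.2]
    simp only [px, ← Matrix.mul_assoc, A.rank₁.idem]
    rw [Matrix.mul_assoc _ N.e₁.transpose, ← Matrix.transpose_mul, N.rank₁.idem]
  have hy : kr A.e₂ N.e₂ *ᵥ py = py := by
    rw [kr_mulVec_vecOf, mul_vecMulVec_mul, hs₂, Matrix.mulVec_neg, mem_fixed.1 b.2]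
  refine ⟨(⟨px, mem_fixed.2 hx⟩, ⟨py, mem_fixed.2 hy⟩), Subtype.ext ?_, fun χ hχ w => ?_⟩
  · refine (dlt_coe' (A.tensor N) _).trans ?_
    show kr A.u N.u *ᵥ ((X.res₁ K).toRingHom ∘ px) - (X.res₂ K).toRingHom ∘ py = z.1
    have hn : ∀ {R S : Type u} [CommRing R] [CommRing S] (φ : R →+* S) {n : ℕ} (v : Fin n → R),
        φ ∘ (-v) = -(φ ∘ v) := fun φ _ v => funext fun i => map_neg φ _
    rw [map_vecOf, map_vecOf, kr_mulVec_vecOf, Matrix.map_sub _ (map_sub _), Matrix.map_mul,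
      Matrix.map_mul, Matrix.transpose_map, map_vecMulVec', map_vecMulVec', Matrix.mul_sub,
      Matrix.sub_mul, mul_vecMulVec_mul, hn]
    show vecOf (A.u * (A.e₁.map (X.res₁ K) * Xm.map (X.res₁ K) *
        (N.e₁.map (X.res₁ K)).transpose) * N.u.transpose -
        vecMulVec (A.u *ᵥ (X.res₁ K ∘ a.1)) (N.u *ᵥ (X.res₁ K ∘ s₁))) -
      vecOf (vecMulVec (-(X.res₂ K ∘ b.1)) (X.res₂ K ∘ s₂)) = z.1
    rw [hs, ← vecOf_sub, eq_vecOf z.1, ← Matrix.mul_assoc, ← Matrix.mul_assoc, A.u_cut,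
      Matrix.mul_assoc _ (N.e₁.map (X.res₁ K)).transpose, ← Matrix.transpose_mul, N.u_cut]
    refine congrArg vecOf ?_
    show _ = Z
    rw [hsplit, ← hr, Matrix.sub_vecMulVec, Matrix.neg_vecMulVec]
    abel
  · show χ (py w) = 0
    show χ ((-b.1) _ * s₂ _) = 0
    rw [map_mul, hχ, mul_zero]

/-- Base point freeness of the product. -/
theorem exists_ker_ne_zero_at₁ (hA : Function.Surjective (dlt A)) (χ : X.R₁ K →ₐ[K] K)
    (hb : ∃ p, dlt A p = 0 ∧ ∃ i, χ (p.1.1 i) ≠ 0)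
    {s₁ : Fin N.n₁ → X.R₁ K} {s₂ : Fin N.n₂ → X.R₂ K} (hs₁ : N.e₁ *ᵥ s₁ = s₁)
    (hs₂ : N.e₂ *ᵥ s₂ = s₂) (hs : N.u *ᵥ (X.res₁ K ∘ s₁) = X.res₂ K ∘ s₂) (h0 : s₂ ≠ 0) :
    ∃ p, dlt (A.tensor N) p = 0 ∧ ∃ i, χ (p.1.1 i) ≠ 0 := by
  by_cases hχ : ∀ j, χ (s₁ j) = 0
  · obtain ⟨i, hi⟩ := exists_ne_zero_diag (A.tensor N).rank₁ χ
    set q : fixed K (A.tensor N).e₁ × fixed K (A.tensor N).e₂ :=
      (⟨_, column_fixed (A.tensor N).rank₁.idem i⟩, 0)
    obtain ⟨p, hp, hpχ⟩ := exists_dlt_product₂ hA hs₁ hs₂ hs h0 (dlt (A.tensor N) q)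
    refine ⟨q - p, by rw [map_sub, hp, sub_self], i, ?_⟩
    show χ ((A.tensor N).e₁ i i - p.1.1 i) ≠ 0
    rwa [map_sub, hpχ χ hχ, sub_zero]
  · obtain ⟨j, hj⟩ := not_forall.1 hχ
    obtain ⟨⟨a, b⟩, hab, i, hi⟩ := hb
    have h : A.u *ᵥ (X.res₁ K ∘ a.1) = X.res₂ K ∘ b.1 :=
      sub_eq_zero.1 ((dlt_coe' A (a, b)).symm.trans (congrArg Subtype.val hab))
    refine ⟨(⟨vecOf (vecMulVec a.1 s₁), mem_fixed.2 ?_⟩, ⟨vecOf (vecMulVec b.1 s₂), mem_fixed.2 ?_⟩),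
      Subtype.ext ?_, finProdFinEquiv (i, j), ?_⟩
    · show kr A.e₁ N.e₁ *ᵥ _ = _
      rw [kr_mulVec_vecOf, mul_vecMulVec_mul, hs₁, mem_fixed.1 a.2]
    · show kr A.e₂ N.e₂ *ᵥ _ = _
      rw [kr_mulVec_vecOf, mul_vecMulVec_mul, hs₂, mem_fixed.1 b.2]
    · refine (dlt_coe' (A.tensor N) _).trans (sub_eq_zero.2 ?_)
      show kr A.u N.u *ᵥ ((X.res₁ K).toRingHom ∘ vecOf (vecMulVec a.1 s₁)) =
        (X.res₂ K).toRingHom ∘ vecOf (vecMulVec b.1 s₂)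
      rw [map_vecOf, map_vecOf, kr_mulVec_vecOf, map_vecMulVec', map_vecMulVec', mul_vecMulVec_mul]
      exact congrArg vecOf (congrArg₂ vecMulVec h hs)
    · show χ (vecOf (vecMulVec a.1 s₁) (finProdFinEquiv (i, j))) ≠ 0
      rw [vecOf_apply, vecMulVec_apply, map_mul]
      exact mul_ne_zero hi hj

/-- Base point freeness of the product on the second chart. -/
theorem exists_ker_ne_zero_at₂ (hA : Function.Surjective (dlt A)) (χ : X.R₂ K →ₐ[K] K)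
    (hb : ∃ p, dlt A p = 0 ∧ ∃ i, χ (p.2.1 i) ≠ 0)
    {s₁ : Fin N.n₁ → X.R₁ K} {s₂ : Fin N.n₂ → X.R₂ K} (hs₁ : N.e₁ *ᵥ s₁ = s₁)
    (hs₂ : N.e₂ *ᵥ s₂ = s₂) (hs : N.u *ᵥ (X.res₁ K ∘ s₁) = X.res₂ K ∘ s₂) (h0 : s₁ ≠ 0) :
    ∃ p, dlt (A.tensor N) p = 0 ∧ ∃ i, χ (p.2.1 i) ≠ 0 := by
  by_cases hχ : ∀ j, χ (s₂ j) = 0
  · obtain ⟨i, hi⟩ := exists_ne_zero_diag (A.tensor N).rank₂ χ
    set q : fixed K (A.tensor N).e₁ × fixed K (A.tensor N).e₂ :=
      (0, ⟨_, column_fixed (A.tensor N).rank₂.idem i⟩)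
    obtain ⟨p, hp, hpχ⟩ := exists_dlt_product₁ hA hs₁ hs₂ hs h0 (dlt (A.tensor N) q)
    refine ⟨q - p, by rw [map_sub, hp, sub_self], i, ?_⟩
    show χ ((A.tensor N).e₂ i i - p.2.1 i) ≠ 0
    rwa [map_sub, hpχ χ hχ, sub_zero]
  · obtain ⟨j, hj⟩ := not_forall.1 hχ
    obtain ⟨⟨a, b⟩, hab, i, hi⟩ := hb
    have h : A.u *ᵥ (X.res₁ K ∘ a.1) = X.res₂ K ∘ b.1 :=
      sub_eq_zero.1 ((dlt_coe' A (a, b)).symm.trans (congrArg Subtype.val hab))
    refine ⟨(⟨vecOf (vecMulVec a.1 s₁), mem_fixed.2 ?_⟩, ⟨vecOf (vecMulVec b.1 s₂), mem_fixed.2 ?_⟩),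
      Subtype.ext ?_, finProdFinEquiv (i, j), ?_⟩
    · show kr A.e₁ N.e₁ *ᵥ _ = _
      rw [kr_mulVec_vecOf, mul_vecMulVec_mul, hs₁, mem_fixed.1 a.2]
    · show kr A.e₂ N.e₂ *ᵥ _ = _
      rw [kr_mulVec_vecOf, mul_vecMulVec_mul, hs₂, mem_fixed.1 b.2]
    · refine (dlt_coe' (A.tensor N) _).trans (sub_eq_zero.2 ?_)
      show kr A.u N.u *ᵥ ((X.res₁ K).toRingHom ∘ vecOf (vecMulVec a.1 s₁)) =
        (X.res₂ K).toRingHom ∘ vecOf (vecMulVec b.1 s₂)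
      rw [map_vecOf, map_vecOf, kr_mulVec_vecOf, map_vecMulVec', map_vecMulVec', mul_vecMulVec_mul]
      exact congrArg vecOf (congrArg₂ vecMulVec h hs)
    · show χ (vecOf (vecMulVec b.1 s₂) (finProdFinEquiv (i, j))) ≠ 0
      rw [vecOf_apply, vecMulVec_apply, map_mul]
      exact mul_ne_zero hi hj

end FLTAgent.PicScheme
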